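import Mathlib.NumberTheory.ModularForms.Discriminant
import Mathlib.Algebra.Polynomial.BigOperators
import Fermat.Prelude.Sol.S_ModularForm_heckeT_slash_eq_self_of_mem_Gamma0

/-!
# P-IGUSA, IG-M [M-perm]: the `p + 1` Hecke conjugates are permuted by `SL(2, ℤ)`

For a prime `p` the index set is `OnePoint (ZMod p)` and the representatives are the Prelude
matrices `heckeRep p x` (`= [[p,0],[0,1]]` at `∞`, `= [[1,b],[0,p]]` at `b : ZMod p`).

For `f D : ℍ → ℂ` we put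

* `conjFun p f x τ = f (α_x • τ)`                     (`= f (p τ)`, resp. `f ((τ + b) / p)`),
* `unitFun p D x τ = p * (D ∣[12] α_x) τ / D τ`        (`= p ^ 12 D (p τ) / D τ`, resp.
  `D ((τ + b) / p) / D τ`).

If `f` is `SL(2, ℤ)`-invariant and `D` is weight-12 invariant, then for `g : SL(2, ℤ)`
`conjFun p f x (g • τ) = conjFun p f (σ_g x) τ` and `unitFun p D x (g • τ) = unitFun p D (σ_g x) τ`
for the permutation `σ_g = redMatrix p g • ·` of `OnePoint (ZMod p)`.  Consequently the polynomials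
`PhiAn`, `PsiAn`, `LAn` (in `ℂ[X]`, depending on `τ`) are `SL(2, ℤ)`-invariant functions of `τ`.
-/

set_option autoImplicit false

noncomputable section

namespace Fermat.Agent.H42

open UpperHalfPlane Matrix.SpecialLinearGroup Polynomial
open scoped MatrixGroups ModularForm Manifold

/-- The Prelude Hecke representative `α_x`, `x ∈ ℙ¹(𝔽_p)`. -/
abbrev hRep (p : ℕ) (x : OnePoint (ZMod p)) : GL (Fin 2) ℝ :=
  P2MW.S_ModularForm_heckeT_slash_eq_self_of_mem_Gamma0.ModularForm.HeckeSlashInvariance.heckeRep p x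

/-- The Prelude reduction of `g` mod `p` (acting on `ℙ¹(𝔽_p)`). -/
abbrev redM (p : ℕ) [Fact p.Prime] (g : SL(2, ℤ)) : GL (Fin 2) (ZMod p) :=
  P2MW.S_ModularForm_heckeT_slash_eq_self_of_mem_Gamma0.ModularForm.HeckeSlashInvariance.redMatrix p g

/-- The permutation of `ℙ¹(𝔽_p)` induced by `g : SL(2, ℤ)`. -/
def hPerm (p : ℕ) [Fact p.Prime] (g : SL(2, ℤ)) : Equiv.Perm (OnePoint (ZMod p)) :=
  MulAction.toPerm (redM p g)

theorem hPerm_apply (p : ℕ) [Fact p.Prime] (g : SL(2, ℤ)) (x : OnePoint (ZMod p)) :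
    hPerm p g x = redM p g • x := rfl

theorem hRep_infty (p : ℕ) : hRep p OnePoint.infty = ModularForm.heckeDiagMatrix p := rfl

theorem hRep_coe (p : ℕ) (b : ZMod p) :
    hRep p (b : OnePoint (ZMod p)) = ModularForm.heckeMatrix p b.val := rfl

/-- The key matrix identity: `α_x g = g' α_{σ_g x}`. -/
theorem hRep_mul (p : ℕ) [Fact p.Prime] (g : SL(2, ℤ)) (x : OnePoint (ZMod p)) :
    ∃ g' : SL(2, ℤ), hRep p x * mapGL ℝ g = mapGL ℝ g' * hRep p (hPerm p g x) := by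
  have hp : p.Prime := Fact.out
  obtain ⟨g', -, h⟩ :=
    P2MW.S_ModularForm_heckeT_slash_eq_self_of_mem_Gamma0.ModularForm.HeckeSlashInvariance.heckeRep_mul
      (p := p) (N := 1) (fun h => hp.one_lt.ne' (Nat.dvd_one.mp h)) g (by simp) x
  exact ⟨g', h⟩

/-- The conjugates `r_x(τ) = f (α_x • τ)`. -/
def conjFun (p : ℕ) (f : ℍ → ℂ) (x : OnePoint (ZMod p)) (τ : ℍ) : ℂ :=
  f (hRep p x • τ)

/-- The units `u_x(τ) = p (D ∣[12] α_x)(τ) / D(τ)`. -/
def unitFun (p : ℕ) (D : ℍ → ℂ) (x : OnePoint (ZMod p)) (τ : ℍ) : ℂ :=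
  (p : ℂ) * (D ∣[(12 : ℤ)] hRep p x) τ / D τ

theorem conjFun_infty (p : ℕ) (f : ℍ → ℂ) (τ : ℍ) :
    conjFun p f OnePoint.infty τ = f (ModularForm.heckeDiagMatrix p • τ) := rfl

theorem conjFun_coe (p : ℕ) (f : ℍ → ℂ) (b : ZMod p) (τ : ℍ) :
    conjFun p f (b : OnePoint (ZMod p)) τ = f (ModularForm.heckeMatrix p b.val • τ) := rfl

theorem unitFun_infty {p : ℕ} (hp : p ≠ 0) (D : ℍ → ℂ) (τ : ℍ) :
    unitFun p D OnePoint.infty τ =
      (p : ℂ) ^ 12 * D (ModularForm.heckeDiagMatrix p • τ) / D τ := by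
  have hp' : (p : ℂ) ≠ 0 := Nat.cast_ne_zero.mpr hp
  rw [unitFun, hRep_infty, ModularForm.slash_heckeDiagMatrix_apply 12 hp]
  have h11 : ((12 : ℤ) - 1) = ((11 : ℕ) : ℤ) := by norm_num
  rw [h11, zpow_natCast]
  ring

theorem unitFun_coe {p : ℕ} (hp : p ≠ 0) (D : ℍ → ℂ) (b : ZMod p) (τ : ℍ) :
    unitFun p D (b : OnePoint (ZMod p)) τ =
      D (ModularForm.heckeMatrix p b.val • τ) / D τ := by
  have hp' : (p : ℂ) ≠ 0 := Nat.cast_ne_zero.mpr hp
  rw [unitFun, hRep_coe, ModularForm.slash_heckeMatrix_apply 12 hp]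
  field_simp

section perm

variable (p : ℕ) [Fact p.Prime]

theorem coe_eq_mapGL (g : SL(2, ℤ)) : (g : GL (Fin 2) ℝ) = mapGL ℝ g := rfl

/-- **Permutation of the conjugates.** -/
theorem conjFun_smul (f : ℍ → ℂ) (hf : ∀ (g : SL(2, ℤ)) (τ : ℍ), f (g • τ) = f τ)
    (g : SL(2, ℤ)) (x : OnePoint (ZMod p)) (τ : ℍ) :
    conjFun p f x (g • τ) = conjFun p f (hPerm p g x) τ := by
  obtain ⟨g', h⟩ := hRep_mul p g x
  unfold conjFun
  rw [ModularGroup.sl_moeb, coe_eq_mapGL, ← mul_smul, h, mul_smul, ← coe_eq_mapGL,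
    ← ModularGroup.sl_moeb, hf]

/-- **Permutation of the units.** -/
theorem unitFun_smul (D : ℍ → ℂ) (hD : ∀ g : SL(2, ℤ), D ∣[(12 : ℤ)] g = D)
    (g : SL(2, ℤ)) (x : OnePoint (ZMod p)) (τ : ℍ) :
    unitFun p D x (g • τ) = unitFun p D (hPerm p g x) τ := by
  obtain ⟨g', h⟩ := hRep_mul p g x
  have hden : (denom g τ) ^ (12 : ℤ) ≠ 0 := zpow_ne_zero _ (denom_ne_zero _ _)
  have key : ∀ (F : ℍ → ℂ), F (g • τ) = (F ∣[(12 : ℤ)] g) τ * (denom g τ) ^ (12 : ℤ) := by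
    intro F
    rw [ModularForm.SL_slash_apply, mul_assoc, ← zpow_add₀ (denom_ne_zero _ _)]
    simp
  have h1 : (D ∣[(12 : ℤ)] hRep p x) ∣[(12 : ℤ)] g = D ∣[(12 : ℤ)] hRep p (hPerm p g x) := by
    rw [ModularForm.SL_slash, ← SlashAction.slash_mul, coe_eq_mapGL, h, SlashAction.slash_mul,
      ← coe_eq_mapGL, ← ModularForm.SL_slash, hD]
  unfold unitFun
  rw [key (D ∣[(12 : ℤ)] hRep p x), key D, h1, hD]
  field_simp

end perm

/-! ### The three polynomials -/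

section polys

variable (p : ℕ) [NeZero p]

/-- `Φ^an_τ(Y) = ∏_x (Y - r_x(τ))`. -/
def PhiAn (f : ℍ → ℂ) (τ : ℍ) : ℂ[X] :=
  ∏ x : OnePoint (ZMod p), (X - C (conjFun p f x τ))

/-- `Ψ^an_τ(Y) = ∏_x (Y - u_x(τ))`. -/
def PsiAn (D : ℍ → ℂ) (τ : ℍ) : ℂ[X] :=
  ∏ x : OnePoint (ZMod p), (X - C (unitFun p D x τ))

open Classical in
/-- `L^an_τ(Y) = ∑_x u_x(τ) ∏_{y ≠ x} (Y - r_y(τ))` (Lagrange interpolation numerator). -/
def LAn (f D : ℍ → ℂ) (τ : ℍ) : ℂ[X] :=
  ∑ x : OnePoint (ZMod p), C (unitFun p D x τ) *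
    ∏ y ∈ Finset.univ.erase x, (X - C (conjFun p f y τ))

variable [Fact p.Prime]

/-- Any sum over the index set of an expression in the pairs `(r_x, u_x)` is invariant. -/
theorem sum_pairs_smul {M : Type*} [AddCommMonoid M] (E : ℂ → ℂ → M) (f D : ℍ → ℂ)
    (hf : ∀ (g : SL(2, ℤ)) (τ : ℍ), f (g • τ) = f τ)
    (hD : ∀ g : SL(2, ℤ), D ∣[(12 : ℤ)] g = D) (g : SL(2, ℤ)) (τ : ℍ) :
    ∑ x : OnePoint (ZMod p), E (conjFun p f x (g • τ)) (unitFun p D x (g • τ)) =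
      ∑ x : OnePoint (ZMod p), E (conjFun p f x τ) (unitFun p D x τ) := by
  simp_rw [conjFun_smul p f hf g, unitFun_smul p D hD g]
  exact Equiv.sum_comp (hPerm p g) (fun x => E (conjFun p f x τ) (unitFun p D x τ))

/-- Any product over the index set of an expression in the pairs `(r_x, u_x)` is invariant. -/
theorem prod_pairs_smul {M : Type*} [CommMonoid M] (E : ℂ → ℂ → M) (f D : ℍ → ℂ)
    (hf : ∀ (g : SL(2, ℤ)) (τ : ℍ), f (g • τ) = f τ)
    (hD : ∀ g : SL(2, ℤ), D ∣[(12 : ℤ)] g = D) (g : SL(2, ℤ)) (τ : ℍ) :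
    ∏ x : OnePoint (ZMod p), E (conjFun p f x (g • τ)) (unitFun p D x (g • τ)) =
      ∏ x : OnePoint (ZMod p), E (conjFun p f x τ) (unitFun p D x τ) := by
  simp_rw [conjFun_smul p f hf g, unitFun_smul p D hD g]
  exact Equiv.prod_comp (hPerm p g) (fun x => E (conjFun p f x τ) (unitFun p D x τ))

theorem PhiAn_smul (f : ℍ → ℂ) (hf : ∀ (g : SL(2, ℤ)) (τ : ℍ), f (g • τ) = f τ)
    (g : SL(2, ℤ)) (τ : ℍ) : PhiAn p f (g • τ) = PhiAn p f τ := by
  unfold PhiAn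
  simp_rw [conjFun_smul p f hf g]
  exact Equiv.prod_comp (hPerm p g) (fun x => X - C (conjFun p f x τ))

theorem PsiAn_smul (D : ℍ → ℂ) (hD : ∀ g : SL(2, ℤ), D ∣[(12 : ℤ)] g = D)
    (g : SL(2, ℤ)) (τ : ℍ) : PsiAn p D (g • τ) = PsiAn p D τ := by
  unfold PsiAn
  simp_rw [unitFun_smul p D hD g]
  exact Equiv.prod_comp (hPerm p g) (fun x => X - C (unitFun p D x τ))

theorem LAn_smul (f D : ℍ → ℂ) (hf : ∀ (g : SL(2, ℤ)) (τ : ℍ), f (g • τ) = f τ)
    (hD : ∀ g : SL(2, ℤ), D ∣[(12 : ℤ)] g = D)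
    (g : SL(2, ℤ)) (τ : ℍ) : LAn p f D (g • τ) = LAn p f D τ := by
  classical
  unfold LAn
  simp_rw [conjFun_smul p f hf g, unitFun_smul p D hD g]
  have inner : ∀ x : OnePoint (ZMod p),
      ∏ y ∈ Finset.univ.erase x, (X - C (conjFun p f (hPerm p g y) τ)) =
      ∏ y ∈ Finset.univ.erase (hPerm p g x), (X - C (conjFun p f y τ)) := by
    intro x
    refine Finset.prod_bij (fun y _ => hPerm p g y) ?_ ?_ ?_ ?_
    · intro y hy
      simp only [Finset.mem_erase, Finset.mem_univ, and_true] at hy ⊢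
      exact fun h => hy ((hPerm p g).injective h)
    · intro y₁ _ y₂ _ h
      exact (hPerm p g).injective h
    · intro y hy
      refine ⟨(hPerm p g).symm y, ?_, by simp⟩
      simp only [Finset.mem_erase, Finset.mem_univ, and_true] at hy ⊢
      intro h
      apply hy
      rw [← h]
      simp
    · intro y _
      rfl
  simp_rw [inner]
  exact Equiv.sum_comp (hPerm p g)
    (fun x => C (unitFun p D x τ) * ∏ y ∈ Finset.univ.erase x, (X - C (conjFun p f y τ)))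

end polys

/-! ### Holomorphy -/

section holo

theorem det_hRep_pos (p : ℕ) (x : OnePoint (ZMod p)) : 0 < (hRep p x).det.val := by
  induction x using OnePoint.rec with
  | infty => exact ModularForm.det_heckeDiagMatrix_pos p
  | coe b => exact ModularForm.det_heckeMatrix_pos p b.val

theorem mdiff_conjFun (p : ℕ) (f : ℍ → ℂ) (hf : MDiff f) (x : OnePoint (ZMod p)) :
    MDiff (conjFun p f x) :=
  hf.comp (mdifferentiable_smul (det_hRep_pos p x))

theorem mdiff_unitFun {p : ℕ} (hp : p ≠ 0) (D : ℍ → ℂ) (hD : MDiff D) (hD0 : ∀ τ, D τ ≠ 0)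
    (x : OnePoint (ZMod p)) : MDiff (unitFun p D x) := by
  have h1 : MDiff (fun τ : ℍ => D (hRep p x • τ)) := hD.comp (mdifferentiable_smul (det_hRep_pos p x))
  induction x using OnePoint.rec with
  | infty =>
    have : unitFun p D OnePoint.infty =
        fun τ => ((p : ℂ) ^ 12 * D (hRep p OnePoint.infty • τ)) / D τ := by
      funext τ
      rw [unitFun_infty hp]
      rfl
    rw [this]
    exact (mdifferentiable_const.mul h1).div hD hD0
  | coe b =>
    have : unitFun p D (b : OnePoint (ZMod p)) =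
        fun τ => D (hRep p (b : OnePoint (ZMod p)) • τ) / D τ := by
      funext τ
      rw [unitFun_coe hp]
      rfl
    rw [this]
    exact h1.div hD hD0

/-- Coefficients of `∏_{i ∈ s} (X - C (r i τ))` are holomorphic in `τ`. -/
theorem mdiff_coeff_prod_X_sub_C {ι : Type*} (s : Finset ι) (r : ι → ℍ → ℂ)
    (hr : ∀ i ∈ s, MDiff (r i)) (n : ℕ) :
    MDifferentiable 𝓘(ℂ) 𝓘(ℂ) (fun τ : ℍ => (∏ i ∈ s, (X - C (r i τ))).coeff n) := by
  classical
  induction s using Finset.induction_on generalizing n with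
  | empty =>
    simp only [Finset.prod_empty]
    exact mdifferentiable_const
  | insert a s ha ih =>
    have ih' := fun n => ih (fun i hi => hr i (Finset.mem_insert_of_mem hi)) n
    have hra := hr a (Finset.mem_insert_self a s)
    simp only [Finset.prod_insert ha, sub_mul, coeff_sub, coeff_C_mul]
    cases n with
    | zero =>
      simp only [coeff_X_mul_zero, zero_sub]
      exact (hra.mul (ih' 0)).neg
    | succ n =>
      simp only [coeff_X_mul]
      exact (ih' n).sub (hra.mul (ih' (n + 1)))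

theorem mdiff_PhiAn_coeff (p : ℕ) [NeZero p] (f : ℍ → ℂ) (hf : MDiff f) (n : ℕ) :
    MDifferentiable 𝓘(ℂ) 𝓘(ℂ) (fun τ : ℍ => (PhiAn p f τ).coeff n) :=
  mdiff_coeff_prod_X_sub_C _ _ (fun x _ => mdiff_conjFun p f hf x) n

theorem mdiff_PsiAn_coeff (p : ℕ) [NeZero p] (D : ℍ → ℂ) (hD : MDiff D) (hD0 : ∀ τ, D τ ≠ 0)
    (n : ℕ) : MDifferentiable 𝓘(ℂ) 𝓘(ℂ) (fun τ : ℍ => (PsiAn p D τ).coeff n) :=
  mdiff_coeff_prod_X_sub_C _ _ (fun x _ => mdiff_unitFun (NeZero.ne p) D hD hD0 x) n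

theorem mdiff_LAn_coeff (p : ℕ) [NeZero p] (f D : ℍ → ℂ) (hf : MDiff f) (hD : MDiff D)
    (hD0 : ∀ τ, D τ ≠ 0) (n : ℕ) : MDifferentiable 𝓘(ℂ) 𝓘(ℂ) (fun τ : ℍ => (LAn p f D τ).coeff n) := by
  classical
  unfold LAn
  simp only [finsetSum_coeff, coeff_C_mul]
  have : ∀ x ∈ (Finset.univ : Finset (OnePoint (ZMod p))),
      MDifferentiable 𝓘(ℂ) 𝓘(ℂ) (fun τ : ℍ => unitFun p D x τ *
        (∏ y ∈ Finset.univ.erase x, (X - C (conjFun p f y τ))).coeff n) := by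
    intro x _
    exact (mdiff_unitFun (NeZero.ne p) D hD hD0 x).mul
      (mdiff_coeff_prod_X_sub_C _ _ (fun y _ => mdiff_conjFun p f hf y) n)
  have h := MDifferentiable.sum this
  convert h using 1
  funext τ
  simp [Finset.sum_apply]

end holo

end Fermat.Agent.H42
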