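import Mathlib.NumberTheory.ModularForms.Discriminant
import Mathlib.NumberTheory.ModularForms.EisensteinSeries.Basic
import Mathlib.NumberTheory.ModularForms.LevelOne.Basic
import Fermat.Agent.H42.HeckePerm

/-!
# P-IGUSA, IG-M [M-perm], part 2: the concrete case `f = j`, `D = Δ`

`jAn τ = E₄(τ)³ / Δ(τ)`.  We show that the coefficients of `PhiAn p jAn`, `PsiAn p Δ`,
`LAn p jAn Δ` are holomorphic, `SL(2, ℤ)`-invariant and have a pole of bounded order at `i∞`
(`IsBoundedAtImInfty (fun z => Δ z ^ n * coeff z)`), i.e. exactly the hypotheses of the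
polynomial-in-`j` lemma.
-/

set_option autoImplicit false

noncomputable section

namespace Fermat.Agent.H42

open UpperHalfPlane Matrix.SpecialLinearGroup Polynomial Filter
open scoped MatrixGroups ModularForm Manifold

/-- The analytic `j`-function `E₄³ / Δ`. -/
def jAn (τ : ℍ) : ℂ := ModularForm.E₄ τ ^ 3 / ModularForm.discriminant τ

theorem jAn_def (τ : ℍ) : jAn τ = ModularForm.E₄ τ ^ 3 / ModularForm.discriminant τ := rfl

theorem discriminant_slash (g : SL(2, ℤ)) :
    ModularForm.discriminant ∣[(12 : ℤ)] g = ModularForm.discriminant := by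
  have h := CuspForm.discriminant.slash_action_eq' (mapGL ℝ g) ⟨g, rfl⟩
  exact h

theorem discriminant_smul (g : SL(2, ℤ)) (τ : ℍ) :
    ModularForm.discriminant (g • τ) = denom g τ ^ (12 : ℤ) * ModularForm.discriminant τ := by
  have h := congrFun (discriminant_slash g) τ
  rw [ModularForm.SL_slash_apply] at h
  have hd : denom g τ ≠ 0 := denom_ne_zero _ _
  rw [← h, mul_comm, mul_assoc, ← zpow_add₀ hd]
  simp

theorem E₄_smul (g : SL(2, ℤ)) (τ : ℍ) :
    ModularForm.E₄ (g • τ) = denom g τ ^ (4 : ℤ) * ModularForm.E₄ τ := by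
  have h0 : (ModularForm.E₄ : ℍ → ℂ) ∣[(4 : ℤ)] g = ModularForm.E₄ :=
    ModularForm.E₄.slash_action_eq' (mapGL ℝ g) ⟨g, rfl⟩
  have h := congrFun h0 τ
  rw [ModularForm.SL_slash_apply] at h
  have hd : denom g τ ≠ 0 := denom_ne_zero _ _
  rw [← h, mul_comm, mul_assoc, ← zpow_add₀ hd]
  simp

theorem jAn_smul (g : SL(2, ℤ)) (τ : ℍ) : jAn (g • τ) = jAn τ := by
  have hd : denom g τ ≠ 0 := denom_ne_zero _ _
  have hΔ : ModularForm.discriminant τ ≠ 0 := ModularForm.discriminant_ne_zero τ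
  rw [jAn, jAn, discriminant_smul, E₄_smul]
  have h4 : denom g τ ^ (4 : ℤ) = denom g τ ^ 4 := by
    rw [← zpow_natCast]; rfl
  have h12 : denom g τ ^ (12 : ℤ) = denom g τ ^ 12 := by
    rw [← zpow_natCast]; rfl
  rw [h4, h12]
  field_simp

theorem mdiff_discriminant : MDiff (ModularForm.discriminant : ℍ → ℂ) :=
  CuspForm.discriminant.holo'

theorem mdiff_jAn : MDiff jAn := by
  have h : MDiff (fun τ : ℍ => ModularForm.E₄ τ ^ 3 / ModularForm.discriminant τ) :=
    (ModularForm.E₄.holo'.pow 3).div mdiff_discriminant ModularForm.discriminant_ne_zero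
  exact h

/-! ### Pole order at `i∞` -/

/-- `F` has a pole of order at most `n` at `i∞`: `Δ ^ n * F` is bounded at `i∞`. -/
def PoleLE (n : ℕ) (F : ℍ → ℂ) : Prop :=
  IsBoundedAtImInfty (fun z => ModularForm.discriminant z ^ n * F z)

theorem poleLE_iff (n : ℕ) (F : ℍ → ℂ) :
    PoleLE n F ↔ IsBoundedAtImInfty (fun z => ModularForm.discriminant z ^ n * F z) := Iff.rfl

theorem discriminant_bdd : IsBoundedAtImInfty (ModularForm.discriminant : ℍ → ℂ) :=
  ModularForm.discriminant_isZeroAtImInfty.isBoundedAtImInfty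

theorem PoleLE.const (c : ℂ) : PoleLE 0 (fun _ => c) := by
  unfold PoleLE
  simp only [pow_zero, one_mul]
  exact const_boundedAtFilter _ c

theorem PoleLE.succ {n : ℕ} {F : ℍ → ℂ} (h : PoleLE n F) : PoleLE (n + 1) F := by
  unfold PoleLE at h ⊢
  have := BoundedAtFilter.mul discriminant_bdd h
  refine this.congr' ?_ ?_ <;> first
    | exact Filter.EventuallyEq.rfl
    | (refine Filter.Eventually.of_forall fun z => ?_
       simp only [Pi.mul_apply]
       ring)

theorem PoleLE.mono {n m : ℕ} {F : ℍ → ℂ} (h : PoleLE n F) (hnm : n ≤ m) : PoleLE m F := by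
  induction hnm with
  | refl => exact h
  | step _ ih => exact ih.succ

theorem PoleLE.add {n : ℕ} {F G : ℍ → ℂ} (hF : PoleLE n F) (hG : PoleLE n G) :
    PoleLE n (fun z => F z + G z) := by
  unfold PoleLE at hF hG ⊢
  have := BoundedAtFilter.add hF hG
  refine this.congr' ?_ ?_ <;> first
    | exact Filter.EventuallyEq.rfl
    | (refine Filter.Eventually.of_forall fun z => ?_
       simp only [Pi.add_apply]
       ring)

theorem PoleLE.neg {n : ℕ} {F : ℍ → ℂ} (hF : PoleLE n F) : PoleLE n (fun z => - F z) := by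
  unfold PoleLE at hF ⊢
  have := BoundedAtFilter.neg hF
  refine this.congr' ?_ ?_ <;> first
    | exact Filter.EventuallyEq.rfl
    | (refine Filter.Eventually.of_forall fun z => ?_
       simp only [Pi.neg_apply]
       ring)

theorem PoleLE.sub {n : ℕ} {F G : ℍ → ℂ} (hF : PoleLE n F) (hG : PoleLE n G) :
    PoleLE n (fun z => F z - G z) := by
  have := hF.add hG.neg
  simpa [sub_eq_add_neg] using this

theorem PoleLE.mul {n m : ℕ} {F G : ℍ → ℂ} (hF : PoleLE n F) (hG : PoleLE m G) :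
    PoleLE (n + m) (fun z => F z * G z) := by
  unfold PoleLE at hF hG ⊢
  have := BoundedAtFilter.mul hF hG
  refine this.congr' ?_ ?_ <;> first
    | exact Filter.EventuallyEq.rfl
    | (refine Filter.Eventually.of_forall fun z => ?_
       simp only [Pi.mul_apply]
       ring)

theorem PoleLE.sum {ι : Type*} (s : Finset ι) {n : ℕ} {F : ι → ℍ → ℂ}
    (hF : ∀ i ∈ s, PoleLE n (F i)) : PoleLE n (fun z => ∑ i ∈ s, F i z) := by
  classical
  induction s using Finset.induction_on with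
  | empty =>
    simp only [Finset.sum_empty]
    exact (PoleLE.const 0).mono (Nat.zero_le n)
  | insert a s ha ih =>
    simp only [Finset.sum_insert ha]
    exact (hF a (Finset.mem_insert_self a s)).add
      (ih fun i hi => hF i (Finset.mem_insert_of_mem hi))

/-- Coefficients of `∏_{i ∈ s} (X - C (r i τ))` have pole order at most `m * #s` if all `r i`
have pole order at most `m`. -/
theorem poleLE_coeff_prod_X_sub_C {ι : Type*} (s : Finset ι) (r : ι → ℍ → ℂ) (m : ℕ)
    (hr : ∀ i ∈ s, PoleLE m (r i)) (n : ℕ) :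
    PoleLE (m * s.card) (fun τ : ℍ => (∏ i ∈ s, (X - C (r i τ))).coeff n) := by
  classical
  induction s using Finset.induction_on generalizing n with
  | empty =>
    simp only [Finset.prod_empty, Finset.card_empty, mul_zero]
    exact PoleLE.const _
  | insert a s ha ih =>
    have ih' := fun n => ih (fun i hi => hr i (Finset.mem_insert_of_mem hi)) n
    have hra := hr a (Finset.mem_insert_self a s)
    have hcard : m * (insert a s).card = m + m * s.card := by
      rw [Finset.card_insert_of_notMem ha]; ring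
    rw [hcard]
    simp only [Finset.prod_insert ha, sub_mul, coeff_sub, coeff_C_mul]
    cases n with
    | zero =>
      simp only [coeff_X_mul_zero, zero_sub]
      exact (hra.mul (ih' 0)).neg
    | succ n =>
      simp only [coeff_X_mul]
      exact ((ih' n).mono (Nat.le_add_left _ _)).sub (hra.mul (ih' (n + 1)))

/-! ### Base cases -/

theorem im_hRep_smul_infty {p : ℕ} (hp : p ≠ 0) (τ : ℍ) :
    (hRep p OnePoint.infty • τ).im = p * τ.im := by
  have h := congrArg Complex.im (ModularForm.coe_heckeDiagMatrix_smul hp τ)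
  rw [hRep_infty]
  simpa using h

theorem im_hRep_smul_coe {p : ℕ} (hp : p ≠ 0) (b : ZMod p) (τ : ℍ) :
    (hRep p (b : OnePoint (ZMod p)) • τ).im = τ.im / p := by
  have h := congrArg Complex.im (ModularForm.coe_heckeMatrix_smul hp b.val τ)
  rw [hRep_coe]
  have h2 : (((τ : ℂ) + (b.val : ℂ)) / (p : ℂ)).im = τ.im / p := by
    rw [show ((τ : ℂ) + (b.val : ℂ)) / (p : ℂ) = ((τ : ℂ) + ((b.val : ℝ) : ℂ)) / ((p : ℝ) : ℂ) by
      push_cast; rfl, Complex.div_ofReal_im]
    simp
  rw [← h2]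
  exact h

theorem im_hRep_smul_le {p : ℕ} (hp : p ≠ 0) (x : OnePoint (ZMod p)) (τ : ℍ) :
    (hRep p x • τ).im ≤ p * τ.im := by
  have hp1 : (1 : ℝ) ≤ p := by exact_mod_cast Nat.one_le_iff_ne_zero.mpr hp
  have hτ := τ.im_pos
  induction x using OnePoint.rec with
  | infty => rw [im_hRep_smul_infty hp]
  | coe b =>
    rw [im_hRep_smul_coe hp, div_le_iff₀ (by linarith)]
    have hpp : 1 ≤ (p : ℝ) * p := by nlinarith
    have := mul_le_mul_of_nonneg_right hpp hτ.le
    linarith

theorem le_im_hRep_smul {p : ℕ} (hp : p ≠ 0) (x : OnePoint (ZMod p)) (τ : ℍ) :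
    τ.im / p ≤ (hRep p x • τ).im := by
  have hp1 : (1 : ℝ) ≤ p := by exact_mod_cast Nat.one_le_iff_ne_zero.mpr hp
  have hτ := τ.im_pos
  induction x using OnePoint.rec with
  | infty =>
    rw [im_hRep_smul_infty hp, div_le_iff₀ (by linarith)]
    have hpp : 1 ≤ (p : ℝ) * p := by nlinarith
    have := mul_le_mul_of_nonneg_right hpp hτ.le
    linarith
  | coe b => rw [im_hRep_smul_coe hp]

/-- Explicit two-sided bounds for `Δ` and a bound for `E₄` near `i∞`. -/
theorem exists_bounds : ∃ A C₁ C₃ : ℝ, 0 ≤ A ∧ 0 ≤ C₁ ∧ 0 ≤ C₃ ∧ ∀ z : ℍ, A ≤ z.im →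
    ‖ModularForm.discriminant z‖ ≤ C₁ * Real.exp (-2 * Real.pi * z.im) ∧
    Real.exp (-2 * Real.pi * z.im) ≤ 2 * ‖ModularForm.discriminant z‖ ∧
    ‖ModularForm.E₄ z‖ ≤ C₃ := by
  have hU : (CuspForm.discriminant : ℍ → ℂ) =O[atImInfty]
      fun τ ↦ Real.exp (-2 * Real.pi * τ.im / 1) :=
    CuspFormClass.exp_decay_atImInfty (h := 1) CuspForm.discriminant one_pos
      one_mem_strictPeriods_SL
  obtain ⟨C₁, hC₁, hU'⟩ := hU.exists_pos
  have hL : ∀ᶠ z in atImInfty, Real.exp (-2 * Real.pi * z.im) ≤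
      2 * ‖ModularForm.discriminant z‖ := by
    have hprod := ModularForm.tendsto_atImInfty_tprod_one_sub_eta_q_pow.eventually
      (Metric.ball_mem_nhds 1 (by norm_num : (0 : ℝ) < 1/2))
    filter_upwards [hprod] with τ hτ
    rw [ModularForm.discriminant_eq_q_prod, norm_mul]
    have hq_norm : ‖Function.Periodic.qParam 1 τ‖ = Real.exp (-2 * Real.pi * τ.im) := by
      simp [Function.Periodic.qParam, Complex.norm_exp]
    rw [← hq_norm]
    have hprod_bound : 1 / 2 ≤ ‖∏' n, (1 - ModularForm.eta_q n τ) ^ 24‖ := by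
      have hsub : ‖∏' n, (1 - ModularForm.eta_q n τ) ^ 24 - 1‖ < 1 / 2 := by
        rwa [Complex.dist_eq] at hτ
      have h1 := norm_sub_norm_le 1 (∏' n, (1 - ModularForm.eta_q n τ) ^ 24)
      rw [norm_one, norm_sub_rev] at h1
      linarith
    nlinarith [norm_nonneg (Function.Periodic.qParam 1 τ),
      mul_le_mul_of_nonneg_left hprod_bound (norm_nonneg (Function.Periodic.qParam 1 τ))]
  have hE : IsBoundedAtImInfty (ModularForm.E₄ : ℍ → ℂ) :=
    ModularFormClass.bdd_at_infty ModularForm.E₄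
  obtain ⟨C₃, A₃, hE'⟩ := isBoundedAtImInfty_iff.mp hE
  have hall := (hU'.bound.and hL)
  obtain ⟨A₁, hA₁⟩ := (atImInfty_mem _).mp hall
  refine ⟨max (max A₁ A₃) 0, C₁, max C₃ 0, le_max_right _ _, hC₁.le, le_max_right _ _, ?_⟩
  intro z hz
  have hz1 : A₁ ≤ z.im := le_trans (le_trans (le_max_left _ _) (le_max_left _ _)) hz
  have hz3 : A₃ ≤ z.im := le_trans (le_trans (le_max_right _ _) (le_max_left _ _)) hz
  obtain ⟨h1, h2⟩ := hA₁ z hz1
  refine ⟨?_, h2, le_trans (hE' z hz3) (le_max_left _ _)⟩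
  have : ‖(CuspForm.discriminant : ℍ → ℂ) z‖ ≤ C₁ * ‖Real.exp (-2 * Real.pi * z.im / 1)‖ := h1
  rw [Real.norm_of_nonneg (Real.exp_pos _).le, div_one] at this
  exact this

theorem poleLE_conjFun_jAn {p : ℕ} (hp : p ≠ 0) (x : OnePoint (ZMod p)) :
    PoleLE p (conjFun p jAn x) := by
  obtain ⟨A, C₁, C₃, hA, hC₁, hC₃, hb⟩ := exists_bounds
  have hp1 : (1 : ℝ) ≤ p := by exact_mod_cast Nat.one_le_iff_ne_zero.mpr hp
  have hp0 : (0 : ℝ) < p := by linarith
  rw [PoleLE, isBoundedAtImInfty_iff]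
  refine ⟨C₁ ^ p * 2 * C₃ ^ 3, p * A, fun τ hτ => ?_⟩
  set w := hRep p x • τ with hw
  have hτA : A ≤ τ.im := by nlinarith
  have hwA : A ≤ w.im := by
    refine le_trans ?_ (le_im_hRep_smul hp x τ)
    rw [le_div_iff₀ hp0]
    linarith
  obtain ⟨hU, -, -⟩ := hb τ hτA
  obtain ⟨-, hL, hE⟩ := hb w hwA
  have hΔw : 0 < ‖ModularForm.discriminant w‖ :=
    norm_pos_iff.mpr (ModularForm.discriminant_ne_zero w)
  have h1 : ‖ModularForm.discriminant τ‖ ^ p ≤ C₁ ^ p * Real.exp (-2 * Real.pi * (p * τ.im)) := by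
    calc ‖ModularForm.discriminant τ‖ ^ p ≤ (C₁ * Real.exp (-2 * Real.pi * τ.im)) ^ p :=
          pow_le_pow_left₀ (norm_nonneg _) hU p
      _ = C₁ ^ p * Real.exp (-2 * Real.pi * (p * τ.im)) := by
          rw [mul_pow, ← Real.exp_nat_mul]
          congr 2
          ring
  have h2 : Real.exp (-2 * Real.pi * (p * τ.im)) ≤ 2 * ‖ModularForm.discriminant w‖ := by
    refine le_trans (Real.exp_le_exp.mpr ?_) hL
    have := im_hRep_smul_le hp x τ
    have hpi := Real.pi_pos
    nlinarith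
  have h3 : ‖ModularForm.E₄ w‖ ^ 3 ≤ C₃ ^ 3 := pow_le_pow_left₀ (norm_nonneg _) hE 3
  have hval : ModularForm.discriminant τ ^ p * conjFun p jAn x τ =
      ModularForm.discriminant τ ^ p * (ModularForm.E₄ w ^ 3 / ModularForm.discriminant w) := rfl
  rw [hval, norm_mul, norm_div, norm_pow, norm_pow, ← mul_div_assoc, div_le_iff₀ hΔw]
  have hC1p : 0 ≤ C₁ ^ p := pow_nonneg hC₁ p
  calc ‖ModularForm.discriminant τ‖ ^ p * ‖ModularForm.E₄ w‖ ^ 3
      ≤ (C₁ ^ p * (2 * ‖ModularForm.discriminant w‖)) * C₃ ^ 3 := by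
        refine mul_le_mul ?_ h3 (pow_nonneg (norm_nonneg _) 3) ?_
        · exact le_trans h1 (mul_le_mul_of_nonneg_left h2 hC1p)
        · exact mul_nonneg hC1p (by positivity)
    _ = C₁ ^ p * 2 * C₃ ^ 3 * ‖ModularForm.discriminant w‖ := by ring

theorem poleLE_unitFun_discriminant {p : ℕ} (hp : p ≠ 0) (x : OnePoint (ZMod p)) :
    PoleLE 1 (unitFun p ModularForm.discriminant x) := by
  obtain ⟨A, C₁, C₃, hA, hC₁, hC₃, hb⟩ := exists_bounds
  have hp1 : (1 : ℝ) ≤ p := by exact_mod_cast Nat.one_le_iff_ne_zero.mpr hp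
  have hp0 : (0 : ℝ) < p := by linarith
  rw [PoleLE, isBoundedAtImInfty_iff]
  refine ⟨(p : ℝ) ^ 12 * C₁, p * A, fun τ hτ => ?_⟩
  set w := hRep p x • τ with hw
  have hwA : A ≤ w.im := by
    refine le_trans ?_ (le_im_hRep_smul hp x τ)
    rw [le_div_iff₀ hp0]
    linarith
  obtain ⟨hU, -, -⟩ := hb w hwA
  have hΔτ : ModularForm.discriminant τ ≠ 0 := ModularForm.discriminant_ne_zero τ
  have hexp : Real.exp (-2 * Real.pi * w.im) ≤ 1 := by
    rw [Real.exp_le_one_iff]
    have := w.im_pos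
    have hpi := Real.pi_pos
    nlinarith
  have hw1 : ‖ModularForm.discriminant w‖ ≤ C₁ := by
    refine le_trans hU ?_
    calc C₁ * Real.exp (-2 * Real.pi * w.im) ≤ C₁ * 1 := mul_le_mul_of_nonneg_left hexp hC₁
      _ = C₁ := mul_one _
  have hp12 : (1 : ℝ) ≤ (p : ℝ) ^ 12 := one_le_pow₀ hp1
  induction x using OnePoint.rec with
  | infty =>
    have hval : ModularForm.discriminant τ ^ 1 * unitFun p ModularForm.discriminant OnePoint.infty τ
        = (p : ℂ) ^ 12 * ModularForm.discriminant w := by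
      rw [unitFun_infty hp, pow_one]
      field_simp
      rfl
    rw [hval, norm_mul, norm_pow, Complex.norm_natCast]
    exact mul_le_mul_of_nonneg_left hw1 (by positivity)
  | coe b =>
    have hval : ModularForm.discriminant τ ^ 1 *
        unitFun p ModularForm.discriminant (b : OnePoint (ZMod p)) τ
        = ModularForm.discriminant w := by
      rw [unitFun_coe hp, pow_one]
      field_simp
      rfl
    rw [hval]
    calc ‖ModularForm.discriminant w‖ ≤ C₁ := hw1
      _ = 1 * C₁ := (one_mul _).symm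
      _ ≤ (p : ℝ) ^ 12 * C₁ := mul_le_mul_of_nonneg_right hp12 hC₁

end Fermat.Agent.H42
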