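import Fermat.Agent.H17.MDefs
import Fermat.Agent.H42.HeckeGrowth

/-!
# IG-M target [T1]: `SL(2, ℤ)` permutes the pairs `(rAn, uAn)` of `Fermat.Agent.H17.MDefs`
-/

set_option autoImplicit false

noncomputable section

namespace Fermat.Agent.H42

open UpperHalfPlane Matrix.SpecialLinearGroup
open scoped MatrixGroups ModularForm

theorem hRep_eq_H17 (p : ℕ) (x : OnePoint (ZMod p)) : Fermat.Agent.H17.hRep p x = hRep p x := rfl

theorem rAn_eq_conjFun (p : ℕ) (x : OnePoint (ZMod p)) (τ : ℍ) :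
    Fermat.Agent.H17.rAn p x τ = conjFun p jAn x τ := rfl

theorem uAn_eq_unitFun (p : ℕ) (x : OnePoint (ZMod p)) (τ : ℍ) :
    Fermat.Agent.H17.uAn p x τ = unitFun p ModularForm.discriminant x τ := rfl

theorem jFun_eq_jAn : Fermat.Agent.H17.jFun = jAn := rfl

/-- **[T1]** with the explicit permutation `hPerm p g = (redMatrix p g • ·)`. -/
theorem perm_rAn_uAn (p : ℕ) [Fact p.Prime] (g : SL(2, ℤ)) (x : OnePoint (ZMod p)) (τ : ℍ) :
    Fermat.Agent.H17.rAn p x (g • τ) = Fermat.Agent.H17.rAn p (hPerm p g x) τ ∧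
      Fermat.Agent.H17.uAn p x (g • τ) = Fermat.Agent.H17.uAn p (hPerm p g x) τ := by
  refine ⟨?_, ?_⟩
  · rw [rAn_eq_conjFun, rAn_eq_conjFun]
    exact conjFun_smul p jAn jAn_smul g x τ
  · rw [uAn_eq_unitFun, uAn_eq_unitFun]
    exact unitFun_smul p ModularForm.discriminant discriminant_slash g x τ

/-- **[T1]** (exact interface statement). -/
theorem exists_perm (p : ℕ) [Fact p.Prime] (g : SL(2, ℤ)) :
    ∃ σ : Equiv.Perm (OnePoint (ZMod p)), ∀ (x : OnePoint (ZMod p)) (τ : ℍ),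
      Fermat.Agent.H17.rAn p x (g • τ) = Fermat.Agent.H17.rAn p (σ x) τ ∧
        Fermat.Agent.H17.uAn p x (g • τ) = Fermat.Agent.H17.uAn p (σ x) τ :=
  ⟨hPerm p g, fun x τ => perm_rAn_uAn p g x τ⟩

end Fermat.Agent.H42
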