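import Fermat.Agent.H42.HeckeCoeffs
import Fermat.Agent.H91.HeckeFormal

/-!
# IG-M: `HasHeckeData ℂ`

Assembly of the analytic input of the Igusa project: T1 (`H42.perm_rAn_uAn`), T2 (`H17`),
T3 (`H44.formal_integrality`) and the formal packaging `H91.hasHeckeData_of_polyInJ`.
-/

set_option autoImplicit false

noncomputable section

namespace Fermat.Agent.H42

open Polynomial Fermat.Agent.H17 Fermat.Agent.H27 Fermat.Agent.H91 ModularCurve

section generic

variable {R : Type*} [CommRing R] {α : Type*} [Fintype α]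

theorem erase_none_eq_map [DecidableEq (Option α)] :
    (Finset.univ : Finset (Option α)).erase none =
      (Finset.univ : Finset α).map Function.Embedding.some := by
  ext y
  cases y <;> simp

theorem erase_some_eq_cons [DecidableEq (Option α)] [DecidableEq α] (a : α) :
    (Finset.univ : Finset (Option α)).erase (some a) =
      insert none (((Finset.univ : Finset α).erase a).map Function.Embedding.some) := by
  ext y
  cases y with
  | none => simp
  | some b => simp

theorem prod_erase_none {M : Type*} [CommMonoid M] [DecidableEq (Option α)] (F : Option α → M) :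
    ∏ y ∈ (Finset.univ : Finset (Option α)).erase none, F y = ∏ a, F (some a) := by
  rw [erase_none_eq_map, Finset.prod_map]
  rfl

theorem prod_erase_some {M : Type*} [CommMonoid M] [DecidableEq (Option α)] [DecidableEq α]
    (F : Option α → M) (a : α) :
    ∏ y ∈ (Finset.univ : Finset (Option α)).erase (some a), F y =
      F none * ∏ b ∈ (Finset.univ : Finset α).erase a, F (some b) := by
  rw [erase_some_eq_cons, Finset.prod_insert (by simp), Finset.prod_map]
  rfl

theorem symPhi_option (r : Option α → R) :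
    symPhi r = (X - C (r none)) * symPhi (fun a => r (some a)) := by
  unfold symPhi
  exact Fintype.prod_option _

theorem symL_option (r u : Option α → R) :
    symL r u = C (u none) * symPhi (fun a => r (some a)) +
      (X - C (r none)) * symL (fun a => r (some a)) (fun a => u (some a)) := by
  unfold symL symPhi
  beta_reduce
  have key1 := @prod_erase_none α _ (Polynomial R) _
    (fun a b => Classical.propDecidable (a = b)) (fun y => X - C (r y))
  rw [Fintype.sum_option, key1, Finset.mul_sum]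
  congr 1
  refine Finset.sum_congr rfl (fun a _ => ?_)
  have key2 := @prod_erase_some α _ (Polynomial R) _
    (fun a b => Classical.propDecidable (a = b)) (fun a b => Classical.propDecidable (a = b))
    (fun y => X - C (r y)) a
  rw [key2]
  ring

end generic

section zmod

variable {R : Type*} [CommRing R] (p : ℕ) [NeZero p]

theorem prod_zmod_val {M : Type*} [CommMonoid M] (F : ℕ → M) :
    ∏ b : ZMod p, F b.val = ∏ b ∈ Finset.range p, F b := by
  symm
  refine Finset.prod_nbij' (fun j : ℕ ↦ (j : ZMod p)) (fun x : ZMod p ↦ x.val)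
    (fun _ _ ↦ Finset.mem_univ _) (fun x _ ↦ Finset.mem_range.mpr x.val_lt) (fun j hj ↦ ?_)
    (fun x _ ↦ ?_) (fun j hj ↦ ?_)
  · exact ZMod.val_cast_of_lt (Finset.mem_range.mp hj)
  · exact ZMod.natCast_zmod_val x
  · rw [ZMod.val_cast_of_lt (Finset.mem_range.mp hj)]

theorem prod_zmod_erase_val {M : Type*} [CommMonoid M] [DecidableEq (ZMod p)] (F : ℕ → M)
    (b : ZMod p) :
    ∏ h ∈ (Finset.univ : Finset (ZMod p)).erase b, F h.val =
      ∏ h ∈ (Finset.range p).erase b.val, F h := by
  symm
  refine Finset.prod_nbij' (fun j : ℕ ↦ (j : ZMod p)) (fun x : ZMod p ↦ x.val)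
    (fun j hj ↦ ?_) (fun x hx ↦ ?_) (fun j hj ↦ ?_) (fun x _ ↦ ?_) (fun j hj ↦ ?_)
  · rw [Finset.mem_erase] at hj ⊢
    refine ⟨fun h => hj.1 ?_, Finset.mem_univ _⟩
    rw [← h, ZMod.val_cast_of_lt (Finset.mem_range.mp hj.2)]
  · rw [Finset.mem_erase] at hx ⊢
    exact ⟨fun h => hx.1 (ZMod.val_injective p h), Finset.mem_range.mpr x.val_lt⟩
  · exact ZMod.val_cast_of_lt (Finset.mem_range.mp (Finset.mem_erase.mp hj).2)
  · exact ZMod.natCast_zmod_val x
  · rw [ZMod.val_cast_of_lt (Finset.mem_range.mp (Finset.mem_erase.mp hj).2)]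

theorem symPhi_zmod (f : ℕ → R) :
    symPhi (fun b : ZMod p => f b.val) = ∏ b ∈ Finset.range p, (X - C (f b)) := by
  unfold symPhi
  exact prod_zmod_val p (fun b => X - C (f b))

theorem symL_zmod (f g : ℕ → R) :
    symL (fun b : ZMod p => f b.val) (fun b : ZMod p => g b.val) =
      ∑ b ∈ Finset.range p, C (g b) * ∏ h ∈ (Finset.range p).erase b, (X - C (f h)) := by
  unfold symL
  beta_reduce
  have h1 : ∀ b : ZMod p,
      C (g b.val) * ∏ y ∈ @Finset.erase (ZMod p) (fun a b => Classical.propDecidable (a = b))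
        (Finset.univ : Finset (ZMod p)) b, (X - C (f y.val)) =
      (fun n : ℕ => C (g n) * ∏ h ∈ (Finset.range p).erase n, (X - C (f h))) b.val := by
    intro b
    beta_reduce
    rw [@prod_zmod_erase_val p _ (Polynomial R) _ (fun a b => Classical.propDecidable (a = b))
      (fun h => X - C (f h)) b]
  rw [Finset.sum_congr rfl (fun b _ => h1 b)]
  exact prod_zmod_val (M := Multiplicative (Polynomial R)) p
    (fun n : ℕ => Multiplicative.ofAdd
      (C (g n) * ∏ h ∈ (Finset.range p).erase n, (X - C (f h))))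

end zmod

section final

variable {k : Type*} [CommRing k] (p : ℕ) [NeZero p] (ζ : kˣ)

theorem PhiF_eq_symPhi : PhiF p ζ = symPhi (rFo p ζ) := by
  have h1 := symPhi_option (α := ZMod p) (rFo p ζ)
  have h2 := symPhi_zmod (R := LaurentSeries k) p (fun n => rootFin (ζ ^ n))
  rw [PhiF, ← h2]
  exact h1.symm

theorem PsiF_eq_symPhi : PsiF p ζ = symPhi (uFo p ζ) := by
  have h1 := symPhi_option (α := ZMod p) (uFo p ζ)
  have h2 := symPhi_zmod (R := LaurentSeries k) p (fun n => unitFin p (ζ ^ n))
  rw [PsiF, ← h2]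
  exact h1.symm

theorem LF_eq_symL : LF p ζ = symL (rFo p ζ) (uFo p ζ) := by
  have h1 := symL_option (α := ZMod p) (rFo p ζ) (uFo p ζ)
  have h2 := symPhi_zmod (R := LaurentSeries k) p (fun n => rootFin (ζ ^ n))
  have h3 := symL_zmod (R := LaurentSeries k) p (fun n => rootFin (ζ ^ n))
    (fun n => unitFin p (ζ ^ n))
  rw [LF, ← h2, ← h3]
  exact h1.symm

end final

/-- Every coefficient of the three formal Hecke polynomials over `ℂ` is a polynomial in
`j(t^p)`. -/
theorem polyInJ_complex (p : ℕ) [NeZero p] (hp : p.Prime) (ζ : ℂˣ)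
    (hζ : IsPrimitiveRoot (ζ : ℂ) p) :
    PolyInJ p (PhiF p ζ) ∧ PolyInJ p (PsiF p ζ) ∧ PolyInJ p (LF p ζ) := by
  obtain ⟨h1, h2, h3⟩ := exists_intPoly_coeffs_of_primitive p hp ζ hζ
  refine ⟨fun i => ?_, fun i => ?_, fun i => ?_⟩
  · obtain ⟨P, hP⟩ := h1 i
    exact ⟨P.map (Int.castRingHom ℂ), by rw [PhiF_eq_symPhi, hP, evalAt_eq_aeval_map]⟩
  · obtain ⟨P, hP⟩ := h2 i
    exact ⟨P.map (Int.castRingHom ℂ), by rw [PsiF_eq_symPhi, hP, evalAt_eq_aeval_map]⟩
  · obtain ⟨P, hP⟩ := h3 i
    exact ⟨P.map (Int.castRingHom ℂ), by rw [LF_eq_symL, hP, evalAt_eq_aeval_map]⟩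

/-- **IG-M: Hecke data exist over `ℂ`.** -/
theorem hasHeckeData_complex : HasHeckeData ℂ :=
  hasHeckeData_of_polyInJ (fun p _ hp ζ hζ => polyInJ_complex p hp ζ hζ)

end Fermat.Agent.H42
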