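/-
P-ES (Eichler-Shimura gateway), item (5): Kronecker's congruence, unconditional form (helper42).

* `exists_heckeDataOver_complex p` : Hecke data at `p` over `ℂ` (from IG-M);
* `kronecker_complex` : for any Hecke data `D` over `ℂ`, `D.Φ ≡ (Y - X^p)(Y^p - X) mod p`;
* `eval₂_evalAtJ_jqN_eq_zero` : `D.Φ (j(q), j(q^p)) = 0` in `ℚ((q))`;
* `exists_modularPolynomialData_kronecker` : a prelude `ModularPolynomialData p` whose polynomial
  satisfies Kronecker's congruence.
-/
import Mathlib
import Fermat.Agent.H42.KroneckerFormal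
import Fermat.Agent.H42.HeckeDataComplex

set_option autoImplicit false

noncomputable section

open ModularCurve Polynomial

namespace Fermat.Agent.H42

open Fermat.Agent.H27

variable (p : ℕ) [hp : Fact p.Prime]

/-- the standard primitive `p`-th root of unity of `ℂ`, as a unit -/
def kroZeta : ℂˣ :=
  (Complex.isPrimitiveRoot_exp p hp.out.ne_zero).isUnit hp.out.ne_zero |>.unit

theorem kroZeta_isPrimitiveRoot : IsPrimitiveRoot ((kroZeta p : ℂˣ) : ℂ) p := by
  rw [kroZeta, IsUnit.unit_spec]
  exact Complex.isPrimitiveRoot_exp p hp.out.ne_zero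

/-- Hecke data at `p` over `ℂ` exist (IG-M). -/
theorem exists_heckeDataOver_complex : Nonempty (HeckeDataOver p ℂ (kroZeta p)) :=
  hasHeckeData_complex p hp.out (kroZeta p) (kroZeta_isPrimitiveRoot p)

/-- **Kronecker's congruence** for the modular polynomial of any Hecke data over `ℂ`. -/
theorem kronecker_complex (ζ : ℂˣ) (hζ : IsPrimitiveRoot (ζ : ℂ) p) (D : HeckeDataOver p ℂ ζ) :
    D.Φ.map (Polynomial.mapRingHom (Int.castRingHom (ZMod p))) = kroneckerPoly p (ZMod p) :=
  kronecker_of_heckeDataOver_charZero p ζ hζ D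

theorem evalAtJ_eq_evalAt : evalAtJ = evalAt (k := ℚ) jq := by
  apply Polynomial.ringHom_ext
  · intro a
    simp [evalAtJ, evalAt]
  · simp [evalAtJ, evalAt]

theorem qExpand_comp_evalAt {k : Type*} [CommRing k] (n : ℕ) [NeZero n] (x : LaurentSeries k) :
    (qExpand k n).comp (evalAt x) = evalAt (qExpand k n x) := by
  apply Polynomial.ringHom_ext
  · intro a
    simp [evalAt]
  · simp [evalAt]

/-- the modular equation `Φ(j(q), j(q^p)) = 0` over any coefficient ring in which the data live -/
theorem eval₂_evalAt_eq_zero {k : Type*} [CommRing k] (ζ : kˣ) (D : HeckeDataOver p k ζ) :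
    D.Φ.eval₂ (evalAt (jqModC k)) (qExpand k p (jqModC k)) = 0 := by
  apply qExpand_injective (R := k) p
  rw [map_zero, Polynomial.hom_eval₂, qExpand_comp_evalAt, Polynomial.eval₂_eq_eval_map]
  have h := congrArg (Polynomial.eval (rootInf k p)) D.Φ_factor
  rw [Polynomial.eval_mul, Polynomial.eval_sub, Polynomial.eval_X, Polynomial.eval_C, sub_self,
    zero_mul] at h
  exact h

/-- **the modular equation in the prelude's form**: `Φ(j(q), j(q^p)) = 0` in `ℚ((q))`. -/
theorem eval₂_evalAtJ_jqN_eq_zero (ζ : ℂˣ) (D : HeckeDataOver p ℂ ζ) :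
    D.Φ.eval₂ evalAtJ (jqN p) = 0 := by
  have h := eval₂_evalAt_eq_zero p ζ D
  apply Fermat.Agent.H67.coeffMap_injective_of_injective (algebraMap ℚ ℂ)
    (algebraMap ℚ ℂ).injective
  rw [map_zero, Polynomial.hom_eval₂, evalAtJ_eq_evalAt, Fermat.Agent.H67.coeffMap_comp_evalAt,
    jqN, ModularCurve.coeffMap_qExpand, ← jqModC_rat, ModularCurve.coeffMap_jqModC]
  exact h

theorem dedekindPsi_prime : dedekindPsi p = p + 1 := by
  rw [dedekindPsi, Nat.Prime.divisors hp.out]
  rw [Finset.filter_true_of_mem]
  · rw [Finset.sum_pair hp.out.one_lt.ne]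
    simp [Nat.div_self hp.out.pos]
  · intro d hd
    rcases Finset.mem_insert.mp hd with rfl | hd
    · exact squarefree_one
    · rw [Finset.mem_singleton] at hd
      subst hd
      exact hp.out.squarefree

/-- the prelude's modular polynomial data attached to Hecke data over `ℂ` -/
def modularPolynomialDataOf (ζ : ℂˣ) (D : HeckeDataOver p ℂ ζ) : ModularPolynomialData p where
  Φ := D.Φ
  monic := D.Φ_monic
  natDegree_eq := by rw [D.Φ_natDegree, dedekindPsi_prime]
  eval_eq_zero := eval₂_evalAtJ_jqN_eq_zero p ζ D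

/-- **Kronecker's congruence, existence form**: there is a modular polynomial of level `p`
(monic of degree `p + 1` in `Y`, with `Φ(j(q), j(q^p)) = 0`) which is congruent to
`(Y - X^p) (Y^p - X)` modulo `p`. -/
theorem exists_modularPolynomialData_kronecker :
    ∃ M : ModularPolynomialData p,
      M.Φ.map (Polynomial.mapRingHom (Int.castRingHom (ZMod p))) = kroneckerPoly p (ZMod p) := by
  obtain ⟨D⟩ := exists_heckeDataOver_complex p
  exact ⟨modularPolynomialDataOf p _ D, kronecker_complex p _ (kroZeta_isPrimitiveRoot p) D⟩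

end Fermat.Agent.H42
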