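/-
P-ES / ES-E, item E3 (helper42): abstract extension lemma.

Let `g : σ → E` be a family in a field extension `E / K` and `s : σ → σ` an involution such
that the kernel of `aeval g` is stable under `rename s`.  Then there is an involutive
`K`-automorphism of `K(g)` with `g i ↦ g (s i)`.
-/
import Mathlib

set_option autoImplicit false

noncomputable section

open MvPolynomial IntermediateField

namespace Fermat.Agent.H42

section Abstract

variable {K E σ : Type*} [Field K] [Field E] [Algebra K E]

open scoped IntermediateField.algebraAdjoinAdjoin in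
/-- extension of an index swap to the generated field -/
theorem exists_algHom_adjoin_of_kernel_swap (g : σ → E) (s : σ → σ) (hs : ∀ i, s (s i) = i)
    (hker : ∀ P : MvPolynomial σ K, aeval g P = 0 → aeval g (rename s P) = 0) :
    ∃ W : adjoin K (Set.range g) →ₐ[K] adjoin K (Set.range g),
      ∀ i, (W ⟨g i, subset_adjoin K _ ⟨i, rfl⟩⟩ : E) = g (s i) := by
  classical
  have hmemA : ∀ P : MvPolynomial σ K, aeval g P ∈ Algebra.adjoin K (Set.range g) := by
    intro P
    rw [Algebra.adjoin_range_eq_range_aeval]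
    exact ⟨P, rfl⟩
  have hmemF : ∀ P : MvPolynomial σ K,
      aeval g P ∈ (adjoin K (Set.range g)).toSubalgebra := fun P =>
    algebra_adjoin_le_adjoin K _ (hmemA P)
  let φ : MvPolynomial σ K →ₐ[K] Algebra.adjoin K (Set.range g) :=
    (aeval g).codRestrict _ hmemA
  have hφ : Function.Surjective φ := by
    rintro ⟨a, ha⟩
    have ha' := ha
    rw [Algebra.adjoin_range_eq_range_aeval] at ha'
    obtain ⟨P, hP⟩ := ha'
    exact ⟨P, Subtype.ext hP⟩
  let ψ : MvPolynomial σ K →ₐ[K] adjoin K (Set.range g) :=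
    ((aeval g).comp (rename s)).codRestrict (adjoin K (Set.range g)).toSubalgebra
      (fun P => hmemF _)
  have hφ_apply : ∀ P, (φ P : E) = aeval g P := fun P => rfl
  have hψ_apply : ∀ P, (ψ P : E) = aeval g (rename s P) := fun P => rfl
  have hrr : ∀ P : MvPolynomial σ K, rename s (rename s P) = P := by
    intro P
    rw [rename_rename]
    have : s ∘ s = id := funext hs
    rw [this, rename_id_apply]
  have H : RingHom.ker φ.toRingHom ≤ RingHom.ker ψ.toRingHom := by
    intro P hP
    rw [RingHom.mem_ker] at hP ⊢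
    have h1 : aeval g P = 0 := by
      have := congrArg Subtype.val hP
      exact this
    apply Subtype.ext
    show aeval g (rename s P) = 0
    exact hker P h1
  let w₀ : Algebra.adjoin K (Set.range g) →ₐ[K] adjoin K (Set.range g) :=
    AlgHom.liftOfSurjective φ hφ ψ H
  have hw₀ : ∀ P, w₀ (φ P) = ψ P := fun P => AlgHom.liftOfSurjective_apply φ hφ ψ H P
  have hinj : Function.Injective w₀ := by
    rw [injective_iff_map_eq_zero]
    intro a ha
    obtain ⟨P, rfl⟩ := hφ a
    rw [hw₀] at ha
    have h1 : aeval g (rename s P) = 0 := by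
      have := congrArg Subtype.val ha
      exact this
    have h2 := hker _ h1
    rw [hrr] at h2
    apply Subtype.ext
    show aeval g P = 0
    exact h2
  refine ⟨IsFractionRing.liftAlgHom hinj, fun i => ?_⟩
  have h3 : (⟨g i, subset_adjoin K _ ⟨i, rfl⟩⟩ : adjoin K (Set.range g)) =
      algebraMap (Algebra.adjoin K (Set.range g)) (adjoin K (Set.range g)) (φ (X i)) := by
    apply Subtype.ext
    show g i = aeval g (X i)
    rw [aeval_X]
  rw [h3, IsFractionRing.liftAlgHom_apply, IsFractionRing.lift_algebraMap]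
  show ((w₀ (φ (X i)) : adjoin K (Set.range g)) : E) = g (s i)
  rw [hw₀, hψ_apply, rename_X, aeval_X]

/-- extension of an index swap to an involutive automorphism of the generated field -/
theorem exists_algEquiv_adjoin_of_kernel_swap (g : σ → E) (s : σ → σ) (hs : ∀ i, s (s i) = i)
    (hker : ∀ P : MvPolynomial σ K, aeval g P = 0 → aeval g (rename s P) = 0) :
    ∃ W : adjoin K (Set.range g) ≃ₐ[K] adjoin K (Set.range g),
      (∀ i, (W ⟨g i, subset_adjoin K _ ⟨i, rfl⟩⟩ : E) = g (s i)) ∧ ∀ x, W (W x) = x := by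
  obtain ⟨W, hW⟩ := exists_algHom_adjoin_of_kernel_swap g s hs hker
  have hWW : W.comp W = AlgHom.id K _ := by
    apply adjoin_algHom_ext
    rintro x ⟨i, rfl⟩
    apply Subtype.ext
    have h1 : W ⟨g i, subset_adjoin K _ ⟨i, rfl⟩⟩ =
        ⟨g (s i), subset_adjoin K _ ⟨s i, rfl⟩⟩ := Subtype.ext (hW i)
    show ((W (W ⟨g i, _⟩) : adjoin K (Set.range g)) : E) = g i
    rw [h1, hW, hs]
  refine ⟨AlgEquiv.ofAlgHom W W hWW hWW, fun i => hW i, fun x => ?_⟩
  exact congrArg (fun f : adjoin K (Set.range g) →ₐ[K] adjoin K (Set.range g) => f x) hWW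

/-- the same for an intermediate field which is *equal* to the generated field -/
theorem exists_algEquiv_of_eq_adjoin_of_kernel_swap (F : IntermediateField K E) (g : σ → E)
    (hF : F = adjoin K (Set.range g)) (s : σ → σ) (hs : ∀ i, s (s i) = i)
    (hker : ∀ P : MvPolynomial σ K, aeval g P = 0 → aeval g (rename s P) = 0) :
    ∃ W : F ≃ₐ[K] F,
      (∀ (i : σ) (hi : g i ∈ F), (W ⟨g i, hi⟩ : E) = g (s i)) ∧ ∀ x, W (W x) = x := by
  subst hF
  obtain ⟨W, hW, hinv⟩ := exists_algEquiv_adjoin_of_kernel_swap g s hs hker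
  exact ⟨W, fun i _ => hW i, hinv⟩

end Abstract

end Fermat.Agent.H42
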