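/-
P-ES / ES-E, item E3 (helper42): the Atkin-Lehner symmetry `W` of `F_{Nℓ}`.

For a prime `ℓ` not dividing `N` and a field `L` of characteristic zero with an embedding into
`ℂ` (e.g. `L = AlgebraicClosure ℚ`), the field
`F' = laurentBaseChange L (modularFunctionFieldFull (N * ℓ))` has an involutive
`L`-automorphism `W` with `W ∘ α = β` and `W ∘ β = α`, where `α = heckeAlphaBar` (inclusion)
and `β = heckeBetaBar` (`q ↦ q^ℓ`).
-/
import Mathlib
import Fermat.Agent.H42.ESEAtkinAnalytic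
import Fermat.Agent.H42.ESEAtkinAbstract
import Fermat.Prelude.Def_ModularCurve_HeckeOperator

set_option autoImplicit false

noncomputable section

open ModularCurve HahnSeries IntermediateField MvPolynomial

namespace Fermat.Agent.H42

/-! ### Step 1: transfer of the kernel statement along `ι : L →+* ℂ` -/

section Transfer

theorem coeffMap_injective_h42 {R S : Type*} [CommRing R] [CommRing S] (f : R →+* S)
    (hf : Function.Injective f) : Function.Injective (coeffMap f) := by
  intro x y h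
  ext k
  apply hf
  rw [← coeffMap_coeff, ← coeffMap_coeff, h]

theorem coeffMap_comp_algebraMap_h42 {L L' : Type*} [Field L] [Field L'] (f : L →+* L') :
    (coeffMap f).comp (algebraMap L (LaurentSeries L)) =
      (algebraMap L' (LaurentSeries L')).comp f := by
  refine RingHom.ext fun c => ?_
  rw [RingHom.comp_apply, RingHom.comp_apply, algebraMap_laurentSeries_eq_single,
    algebraMap_laurentSeries_eq_single, coeffMap_single]

variable {L L' : Type*} [Field L] [Field L'] {N : ℕ} (ℓ : ℕ)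

theorem coeffMap_aeval_alGen (f : L →+* L') (P : MvPolynomial (ALIndex N) L) :
    coeffMap f (aeval (alGen ℓ L) P) = aeval (alGen ℓ L') (MvPolynomial.map f P) := by
  rw [aeval_def, aeval_def, eval₂_comp_left, eval₂_map, coeffMap_comp_algebraMap_h42]
  congr 1
  funext i
  exact coeffMap_jqd f _

variable {ℓ}

theorem aeval_rename_alSwap_eq_zero (ι : L →+* ℂ) (hℓ : ℓ ≠ 0) (hN : N ≠ 0)
    (hcop : Nat.Coprime ℓ N) (P : MvPolynomial (ALIndex N) L)
    (hP : aeval (alGen ℓ L) P = 0) : aeval (alGen ℓ L) (rename alSwap P) = 0 := by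
  apply coeffMap_injective_h42 ι ι.injective
  rw [map_zero, coeffMap_aeval_alGen, MvPolynomial.map_rename]
  apply aeval_rename_alSwap_eq_zero_complex hℓ hN hcop
  rw [← coeffMap_aeval_alGen, hP, map_zero]

end Transfer

/-! ### Step 2: generators of the base-changed full field -/

section Generators

variable (L : Type*) [Field L] [Algebra ℚ L]

theorem coeffEmb_jqd (m : ℕ) : coeffEmb L (jqd ℚ m) = jqd L m :=
  coeffMap_jqd _ m

theorem jqd_rat_eq (m : ℕ) [NeZero m] : jqd ℚ m = qExpand ℚ m jq := by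
  rw [jqd_eq, jqModC_rat]

theorem coeffEmb_algebraMap_h42 (c : ℚ) :
    coeffEmb L (algebraMap ℚ (LaurentSeries ℚ) c) =
      algebraMap L (LaurentSeries L) (algebraMap ℚ L c) := by
  rw [coeffEmb, algebraMap_laurentSeries_eq_single, algebraMap_laurentSeries_eq_single,
    coeffMap_single]

/-- the base change of the full field of level `M` is generated over `L` by the `j(q^d)`,
`d ∣ M` -/
theorem laurentBaseChange_full_eq_adjoin (M : ℕ) [NeZero M] :
    laurentBaseChange L (modularFunctionFieldFull M) =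
      adjoin L (Set.range (fun d : {d : ℕ // d ∣ M} => jqd L d.1)) := by
  apply le_antisymm
  · have key : ∀ x ∈ adjoin ℚ (divisorExpansions M),
        coeffEmb L x ∈ adjoin L (Set.range (fun d : {d : ℕ // d ∣ M} => jqd L d.1)) := by
      intro x hx
      induction hx using IntermediateField.adjoin_induction with
      | mem y hy =>
          obtain ⟨d, hd, hdM, rfl⟩ := hy
          haveI := hd
          rw [← jqd_rat_eq, coeffEmb_jqd]
          exact subset_adjoin L _ ⟨⟨d, hdM⟩, rfl⟩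
      | algebraMap c =>
          rw [coeffEmb_algebraMap_h42]
          exact IntermediateField.algebraMap_mem _ _
      | add x y _ _ hx hy =>
          rw [map_add]
          exact add_mem hx hy
      | inv x _ hx =>
          rw [map_inv₀]
          exact inv_mem hx
      | mul x y _ _ hx hy =>
          rw [map_mul]
          exact mul_mem hx hy
    rw [laurentBaseChange, adjoin_le_iff]
    rintro _ ⟨x, hx, rfl⟩
    exact key x hx
  · rw [adjoin_le_iff]
    rintro _ ⟨⟨d, hd⟩, rfl⟩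
    have hd0 : d ≠ 0 := fun h => NeZero.ne M (by rw [h] at hd; exact zero_dvd_iff.mp hd)
    haveI : NeZero d := ⟨hd0⟩
    show jqd L d ∈ _
    rw [← coeffEmb_jqd, jqd_rat_eq]
    exact coeffEmb_mem_laurentBaseChange L (jqd_mem_full M hd)

variable {N : ℕ} {ℓ : ℕ}

omit [Algebra ℚ L] in
theorem range_alGen (hℓ : ℓ.Prime) :
    Set.range (alGen ℓ L (N := N)) =
      Set.range (fun d : {d : ℕ // d ∣ N * ℓ} => jqd L d.1) := by
  apply Set.eq_of_subset_of_subset
  · rintro _ ⟨⟨⟨d, hd⟩, b⟩, rfl⟩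
    cases b
    · exact ⟨⟨d, hd.trans (dvd_mul_right N ℓ)⟩, by simp [alGen, alLevel]⟩
    · exact ⟨⟨d * ℓ, mul_dvd_mul_right hd ℓ⟩, by simp [alGen, alLevel]⟩
  · rintro _ ⟨⟨d, hd⟩, rfl⟩
    by_cases h : ℓ ∣ d
    · obtain ⟨e, rfl⟩ := h
      have he : e ∣ N := by
        rw [mul_comm N ℓ] at hd
        exact (Nat.mul_dvd_mul_iff_left hℓ.pos).mp hd
      exact ⟨(⟨e, he⟩, true), by simp [alGen, alLevel, mul_comm]⟩
    · have hcop : Nat.Coprime d ℓ := ((Nat.Prime.coprime_iff_not_dvd hℓ).mpr h).symm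
      exact ⟨(⟨d, hcop.dvd_of_dvd_mul_right hd⟩, false), by simp [alGen, alLevel]⟩

theorem laurentBaseChange_full_mul_eq_adjoin [NeZero N] [NeZero ℓ] (hℓ : ℓ.Prime) :
    laurentBaseChange L (modularFunctionFieldFull (N * ℓ)) =
      adjoin L (Set.range (alGen ℓ L (N := N))) := by
  rw [laurentBaseChange_full_eq_adjoin, range_alGen L hℓ]

end Generators

/-! ### Step 3: the Atkin-Lehner symmetry -/

section Main

variable (L : Type*) [Field L] [Algebra ℚ L] (N ℓ : ℕ) [NeZero N] [NeZero ℓ]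

/-- The Atkin-Lehner statement at level `N ℓ` over `L`: an involutive `L`-automorphism of
`F_{Nℓ}(L)` exchanging the two degeneracy maps. -/
def AtkinLehnerStatement : Prop :=
  ∃ W : laurentBaseChange L (modularFunctionFieldFull (N * ℓ)) ≃ₐ[L]
      laurentBaseChange L (modularFunctionFieldFull (N * ℓ)),
    (∀ x, W (heckeAlphaBar L N ℓ x) = heckeBetaBar L N ℓ x) ∧
    (∀ x, W (heckeBetaBar L N ℓ x) = heckeAlphaBar L N ℓ x) ∧
    ∀ y, W (W y) = y

variable {L N ℓ}

omit [Algebra ℚ L] [NeZero N] in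
theorem qExpand_jqd (d : ℕ) (hd : d ≠ 0) : qExpand L ℓ (jqd L d) = jqd L (d * ℓ) := by
  haveI : NeZero d := ⟨hd⟩
  haveI : NeZero (d * ℓ) := ⟨Nat.mul_ne_zero hd (NeZero.ne ℓ)⟩
  rw [jqd_eq, jqd_eq, qExpand_qExpand]
  exact qExpand_congr (mul_comm ℓ d) _

theorem jqd_mem_laurentBaseChange_full {M d : ℕ} [NeZero M] (hd : d ∣ M) :
    jqd L d ∈ laurentBaseChange L (modularFunctionFieldFull M) := by
  rw [laurentBaseChange_full_eq_adjoin]
  exact subset_adjoin L _ ⟨⟨d, hd⟩, rfl⟩

omit [Algebra ℚ L] [NeZero N] [NeZero ℓ] in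
theorem alGen_false (d : {d : ℕ // d ∣ N}) : alGen ℓ L (d, false) = jqd L d.1 := by
  simp [alGen, alLevel]

omit [Algebra ℚ L] [NeZero N] [NeZero ℓ] in
theorem alGen_true (d : {d : ℕ // d ∣ N}) : alGen ℓ L (d, true) = jqd L (d.1 * ℓ) := by
  simp [alGen, alLevel]

omit [NeZero N] in
theorem alSwap_false (d : {d : ℕ // d ∣ N}) : alSwap (d, false) = (d, true) := rfl

omit [NeZero N] in
theorem alSwap_true (d : {d : ℕ // d ∣ N}) : alSwap (d, true) = (d, false) := rfl

/-- the Atkin-Lehner symmetry exists as soon as `L` embeds into `ℂ` -/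
theorem atkinLehnerStatement_of_embedding (ι : L →+* ℂ) (hℓ : ℓ.Prime) (hℓN : ¬ ℓ ∣ N) :
    AtkinLehnerStatement L N ℓ := by
  have hcop : Nat.Coprime ℓ N := (Nat.Prime.coprime_iff_not_dvd hℓ).mpr hℓN
  have hFull : laurentBaseChange L (modularFunctionFieldFull (N * ℓ)) =
      adjoin L (Set.range (alGen ℓ L (N := N))) := laurentBaseChange_full_mul_eq_adjoin L hℓ
  have hN : laurentBaseChange L (modularFunctionFieldFull N) =
      adjoin L (Set.range (fun d : {d : ℕ // d ∣ N} => jqd L d.1)) :=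
    laurentBaseChange_full_eq_adjoin L N
  obtain ⟨W, hW, hinv⟩ := exists_algEquiv_of_eq_adjoin_of_kernel_swap (K := L) _
    (alGen ℓ L (N := N)) hFull alSwap alSwap_alSwap
    (aeval_rename_alSwap_eq_zero ι (NeZero.ne ℓ) (NeZero.ne N) hcop)
  have hα : (W : _ →ₐ[L] _).comp (heckeAlphaBar L N ℓ) = heckeBetaBar L N ℓ := by
    apply algHom_ext_of_eq_adjoin L hN
    rintro x ⟨d, rfl⟩
    have hd0 : d.1 ≠ 0 := fun h => NeZero.ne N (by
      have := d.2; rw [h] at this; exact zero_dvd_iff.mp this)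
    apply Subtype.ext
    rw [coe_heckeBetaBar, AlgHom.comp_apply]
    have h1 : heckeAlphaBar L N ℓ ⟨jqd L d.1, hN.ge (subset_adjoin _ _ ⟨d, rfl⟩)⟩ =
        ⟨alGen ℓ L (d, false), hFull.ge (subset_adjoin L _ ⟨_, rfl⟩)⟩ := by
      apply Subtype.ext
      rw [coe_heckeAlphaBar]
      exact (alGen_false d).symm
    rw [h1]
    erw [hW (d, false)]
    rw [alSwap_false, alGen_true, qExpand_jqd d.1 hd0]
  have hβ : (W : _ →ₐ[L] _).comp (heckeBetaBar L N ℓ) = heckeAlphaBar L N ℓ := by
    apply algHom_ext_of_eq_adjoin L hN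
    rintro x ⟨d, rfl⟩
    have hd0 : d.1 ≠ 0 := fun h => NeZero.ne N (by
      have := d.2; rw [h] at this; exact zero_dvd_iff.mp this)
    apply Subtype.ext
    rw [coe_heckeAlphaBar, AlgHom.comp_apply]
    have h1 : heckeBetaBar L N ℓ ⟨jqd L d.1, hN.ge (subset_adjoin _ _ ⟨d, rfl⟩)⟩ =
        ⟨alGen ℓ L (d, true), hFull.ge (subset_adjoin L _ ⟨_, rfl⟩)⟩ := by
      apply Subtype.ext
      rw [coe_heckeBetaBar]
      exact (qExpand_jqd d.1 hd0).trans (alGen_true d).symm
    rw [h1]
    erw [hW (d, true)]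
    rw [alSwap_true, alGen_false]
  refine ⟨W, fun x => ?_, fun x => ?_, hinv⟩
  · exact congrArg (fun f : _ →ₐ[L] _ => f x) hα
  · exact congrArg (fun f : _ →ₐ[L] _ => f x) hβ

/-- the Atkin-Lehner symmetry over `ℂ` -/
theorem atkinLehnerStatement_complex (hℓ : ℓ.Prime) (hℓN : ¬ ℓ ∣ N) :
    AtkinLehnerStatement ℂ N ℓ :=
  atkinLehnerStatement_of_embedding (RingHom.id ℂ) hℓ hℓN

/-- the Atkin-Lehner symmetry over `Q̄` -/
theorem atkinLehnerStatement_algebraicClosure (hℓ : ℓ.Prime) (hℓN : ¬ ℓ ∣ N) :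
    AtkinLehnerStatement (AlgebraicClosure ℚ) N ℓ :=
  haveI : Algebra.IsAlgebraic ℚ (AlgebraicClosure ℚ) := AlgebraicClosure.isAlgebraic ℚ
  atkinLehnerStatement_of_embedding
    ((IsAlgClosed.lift : AlgebraicClosure ℚ →ₐ[ℚ] ℂ).toRingHom) hℓ hℓN

end Main

end Fermat.Agent.H42
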