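/-
P-ES / ES-E (helper42): norm and characteristic polynomial as products over explicitly given
embeddings.

Let `F'/F` be a finite extension of fields of degree `n`, `E` a field, `ι₀ : F →+* E` and
`τ_i : F' →+* E` (`i` in a type with `n` elements) pairwise distinct ring homomorphisms
extending `ι₀`.  Then `ι₀ (N_{F'/F} y) = ∏ τ_i y` and the characteristic polynomial of the
multiplication by `y`, mapped to `E`, is `∏ (X - τ_i y)`.  No algebraic closure is needed:
the matrix `(τ_i b_j)` is invertible by Dedekind's independence of characters and conjugates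
the multiplication matrix to a diagonal matrix.
-/
import Mathlib

set_option autoImplicit false

noncomputable section

open Matrix Polynomial

namespace Fermat.Agent.H42

section NormEmb

variable {F F' E ι : Type*} [Field F] [Field F'] [Field E] [Algebra F F']
  [Fintype ι] [DecidableEq ι]

/-- the matrix `(τ_i (b_j))` -/
def embMatrix (τ : ι → (F' →+* E)) (b : Module.Basis ι F F') : Matrix ι ι E :=
  Matrix.of fun i j => τ i (b j)

theorem embMatrix_det_ne_zero (ι₀ : F →+* E) (τ : ι → (F' →+* E))
    (hτ : ∀ i, (τ i).comp (algebraMap F F') = ι₀) (hinj : Function.Injective τ)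
    (b : Module.Basis ι F F') : (embMatrix τ b).det ≠ 0 := by
  intro hdet
  obtain ⟨v, hv0, hv⟩ := (Matrix.exists_vecMul_eq_zero_iff).mpr hdet
  -- the combination `∑ v_i τ_i` vanishes on the basis, hence everywhere
  have hb : ∀ j, ∑ i, v i * τ i (b j) = 0 := by
    intro j
    have := congrFun hv j
    simpa [Matrix.vecMul, dotProduct, embMatrix] using this
  have hall : ∀ x : F', ∑ i, v i * τ i x = 0 := by
    intro x
    have hx : x = ∑ j, b.repr x j • b j := (b.sum_repr x).symm
    have h1 : ∀ i, τ i x = ∑ j, ι₀ (b.repr x j) * τ i (b j) := by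
      intro i
      conv_lhs => rw [hx]
      rw [map_sum]
      refine Finset.sum_congr rfl fun j _ => ?_
      rw [Algebra.smul_def, map_mul, ← hτ i]
      rfl
    calc ∑ i, v i * τ i x = ∑ i, ∑ j, ι₀ (b.repr x j) * (v i * τ i (b j)) := by
          refine Finset.sum_congr rfl fun i _ => ?_
          rw [h1 i, Finset.mul_sum]
          refine Finset.sum_congr rfl fun j _ => ?_
          ring
      _ = ∑ j, ι₀ (b.repr x j) * ∑ i, v i * τ i (b j) := by
          rw [Finset.sum_comm]
          refine Finset.sum_congr rfl fun j _ => ?_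
          rw [Finset.mul_sum]
      _ = 0 := by
          refine Finset.sum_eq_zero fun j _ => ?_
          rw [hb j, mul_zero]
  -- Dedekind
  have hli := linearIndependent_monoidHom F' E
  have hli' : LinearIndependent E (fun i : ι => ((τ i : F' →* E) : F' → E)) := by
    have hinj' : Function.Injective (fun i : ι => (τ i : F' →* E)) := by
      intro i j hij
      apply hinj
      ext x
      exact congrArg (fun f : F' →* E => f x) hij
    exact hli.comp _ hinj'
  rw [Fintype.linearIndependent_iff] at hli'
  have hzero : ∑ i, v i • ((τ i : F' →* E) : F' → E) = 0 := by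
    funext x
    simp only [Finset.sum_apply, Pi.smul_apply, smul_eq_mul, Pi.zero_apply]
    exact hall x
  exact hv0 (funext fun i => hli' v hzero i)

theorem diagonal_mul_embMatrix (ι₀ : F →+* E) (τ : ι → (F' →+* E))
    (hτ : ∀ i, (τ i).comp (algebraMap F F') = ι₀) (b : Module.Basis ι F F') (y : F') :
    Matrix.diagonal (fun i => τ i y) * embMatrix τ b =
      embMatrix τ b * (Algebra.leftMulMatrix b y).map ι₀ := by
  ext i j
  rw [Matrix.diagonal_mul, Matrix.mul_apply]
  simp only [embMatrix, Matrix.of_apply, Matrix.map_apply]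
  have h1 : y * b j = ∑ k, Algebra.leftMulMatrix b y k j • b k := by
    conv_lhs => rw [← b.sum_repr (y * b j)]
    refine Finset.sum_congr rfl fun k _ => ?_
    rw [Algebra.leftMulMatrix_eq_repr_mul]
  rw [← map_mul, h1, map_sum]
  refine Finset.sum_congr rfl fun k _ => ?_
  rw [Algebra.smul_def, map_mul, ← hτ i, mul_comm]
  rfl

omit [DecidableEq ι] in
/-- a basis indexed by `ι` when `card ι = [F':F] > 0` -/
theorem exists_basis_of_card_eq (hcard : Fintype.card ι = Module.finrank F F')
    (h0 : Module.finrank F F' ≠ 0) : Nonempty (Module.Basis ι F F') := by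
  haveI : FiniteDimensional F F' := Module.finite_of_finrank_pos (Nat.pos_of_ne_zero h0)
  exact ⟨(Module.finBasis F F').reindex (Fintype.equivFinOfCardEq hcard).symm⟩

/-- the norm is the product over `n = [F':F]` distinct embeddings -/
theorem map_norm_eq_prod_of_card_eq (ι₀ : F →+* E) (τ : ι → (F' →+* E))
    (hτ : ∀ i, (τ i).comp (algebraMap F F') = ι₀) (hinj : Function.Injective τ)
    (hcard : Fintype.card ι = Module.finrank F F') (y : F') :
    ι₀ (Algebra.norm F y) = ∏ i, τ i y := by
  by_cases h0 : Module.finrank F F' = 0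
  · haveI : IsEmpty ι := Fintype.card_eq_zero_iff.mp (hcard.trans h0)
    rw [Finset.prod_of_isEmpty, Algebra.norm_eq_one_of_not_exists_basis, map_one]
    rintro ⟨s, ⟨bs⟩⟩
    have h1 : Module.finrank F F' = Fintype.card s := Module.finrank_eq_card_basis bs
    haveI : Module.Finite F F' := Module.Finite.of_basis bs
    exact (Module.finrank_pos (R := F) (M := F')).ne' h0
  · obtain ⟨b⟩ := exists_basis_of_card_eq hcard h0
    have hM := embMatrix_det_ne_zero ι₀ τ hτ hinj b
    have hD := congrArg Matrix.det (diagonal_mul_embMatrix ι₀ τ hτ b y)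
    rw [Matrix.det_mul, Matrix.det_mul, Matrix.det_diagonal, mul_comm] at hD
    have h2 := mul_left_cancel₀ hM hD
    rw [Algebra.norm_eq_matrix_det b y, RingHom.map_det]
    exact h2.symm

/-- the characteristic polynomial is the product over `n = [F':F]` distinct embeddings -/
theorem map_charpoly_eq_prod_of_card_eq (ι₀ : F →+* E) (τ : ι → (F' →+* E))
    (hτ : ∀ i, (τ i).comp (algebraMap F F') = ι₀) (hinj : Function.Injective τ)
    (b : Module.Basis ι F F') (y : F') :
    ((Algebra.leftMulMatrix b y).charpoly).map ι₀ = ∏ i, (X - C (τ i y)) := by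
  have hM := embMatrix_det_ne_zero ι₀ τ hτ hinj b
  have hD := diagonal_mul_embMatrix ι₀ τ hτ b y
  have hunit : IsUnit (embMatrix τ b).det := isUnit_iff_ne_zero.mpr hM
  have hMinv : (embMatrix τ b)⁻¹ * embMatrix τ b = 1 := Matrix.nonsing_inv_mul _ hunit
  have hMinv' : embMatrix τ b * (embMatrix τ b)⁻¹ = 1 := Matrix.mul_nonsing_inv _ hunit
  have h3 : (Algebra.leftMulMatrix b y).map ι₀ =
      (embMatrix τ b)⁻¹ * (Matrix.diagonal (fun i => τ i y) * embMatrix τ b) := by
    rw [hD, ← Matrix.mul_assoc, hMinv, Matrix.one_mul]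
  have h4 : ((Algebra.leftMulMatrix b y).map ι₀).charpoly =
      (Matrix.diagonal (fun i => τ i y)).charpoly := by
    rw [h3, Matrix.charpoly_mul_comm, Matrix.mul_assoc, hMinv', Matrix.mul_one]
  rw [← Matrix.charpoly_map, h4, Matrix.charpoly_diagonal]

end NormEmb

end Fermat.Agent.H42
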