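/-
P-ES / ES-E, row Q-ES-1 (helper42): the `q`-expansion of the multiplicative Hecke operator.

For a prime `ℓ ∤ N`, `α, β : F_N → F_{Nℓ}` the two degeneracy maps, `W` the Atkin-Lehner
symmetry of `F_{Nℓ}` and `ζ` a primitive `ℓ`-th root of unity, the `ℓ + 1` ring homomorphisms
`τ_∞ = (q ↦ q^ℓ)` and `τ_b = (q ↦ ζ^b q) ∘ W` from `F_{Nℓ}` to `L((q))` all restrict to
`x ↦ x(q^ℓ)` on `α F_N`, and they are pairwise distinct.  If `[F_{Nℓ} : α F_N] = ℓ + 1` they
are all the embeddings, whence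
`(N_α (β f))(q^ℓ) = f(q^{ℓ²}) ∏_{b < ℓ} f(ζ^b q)`.
-/
import Mathlib
import Fermat.Agent.H42.ESEAtkinLehner
import Fermat.Agent.H42.ESENormEmb
import Fermat.Agent.H27.Igusa.Defs
import Fermat.Prelude.Thm_ModularCurve_coeff_jqModC_neg_one

set_option autoImplicit false

noncomputable section

open ModularCurve HahnSeries IntermediateField AlgebraicCurve

namespace Fermat.Agent.H42

open Fermat.Agent.H27

section Twist

variable {L : Type*} [Field L] (ℓ : ℕ) [NeZero ℓ]

theorem twist_qExpand_of_pow_eq_one (ζ : Lˣ) (hζ : ζ ^ ℓ = 1) (x : LaurentSeries L) :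
    twist ζ (qExpand L ℓ x) = qExpand L ℓ x := by
  ext n
  rw [twist_coeff]
  by_cases hn : (ℓ : ℤ) ∣ n
  · obtain ⟨m, rfl⟩ := hn
    have h1 : ζ ^ ((ℓ : ℤ) * m) = 1 := by
      rw [zpow_mul, zpow_natCast, hζ, one_zpow]
    rw [h1, Units.val_one, one_mul]
  · rw [qExpand_coeff_of_not_dvd ℓ x hn, mul_zero]

theorem twist_jqModC_coeff_neg_one (ζ : Lˣ) :
    (twist ζ (jqModC L)).coeff (-1) = ((ζ⁻¹ : Lˣ) : L) := by
  rw [twist_coeff, coeff_jqModC_neg_one, mul_one, zpow_neg_one]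

theorem qExpand_qExpand_jqModC_coeff_neg_one (hℓ : 2 ≤ ℓ) :
    (qExpand L ℓ (qExpand L ℓ (jqModC L))).coeff (-1) = 0 := by
  apply qExpand_coeff_of_not_dvd
  intro h
  have h1 : (ℓ : ℤ) ∣ 1 := (dvd_neg.mp h)
  have h2 : (ℓ : ℤ) ≤ 1 := Int.le_of_dvd one_pos h1
  omega

end Twist

section Main

variable {L : Type*} [Field L] [Algebra ℚ L] {N ℓ : ℕ} [NeZero N] [NeZero ℓ]

local notation "FN" => laurentBaseChange L (modularFunctionFieldFull N)
local notation "FNl" => laurentBaseChange L (modularFunctionFieldFull (N * ℓ))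

/-- `j` as an element of `F_N` -/
def jFull (L : Type*) [Field L] [Algebra ℚ L] (N : ℕ) [NeZero N] :
    laurentBaseChange L (modularFunctionFieldFull N) :=
  ⟨jqModC L, by
    have h := jqd_mem_laurentBaseChange_full (L := L) (M := N) (d := 1) (one_dvd N)
    rwa [jqd_eq, qExpand_one_apply] at h⟩

@[simp] theorem coe_jFull : ((jFull L N : FN) : LaurentSeries L) = jqModC L := rfl

/-- the embedding `τ_∞ : y ↦ y(q^ℓ)` -/
def tauInf (L : Type*) [Field L] [Algebra ℚ L] (N ℓ : ℕ) [NeZero N] [NeZero ℓ] :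
    laurentBaseChange L (modularFunctionFieldFull (N * ℓ)) →+* LaurentSeries L :=
  (qExpand L ℓ).comp (laurentBaseChange L (modularFunctionFieldFull (N * ℓ))).val.toRingHom

/-- the embeddings `τ_b : y ↦ (W y)(ζ^b q)` -/
def tauFin (W : FNl ≃ₐ[L] FNl) (ζ : Lˣ) (b : ℕ) : FNl →+* LaurentSeries L :=
  ((twist (ζ ^ b)).comp
    (laurentBaseChange L (modularFunctionFieldFull (N * ℓ))).val.toRingHom).comp
      (W : FNl →+* FNl)

/-- the family of all `ℓ + 1` embeddings -/
def tauAll (W : FNl ≃ₐ[L] FNl) (ζ : Lˣ) : Option (Fin ℓ) → (FNl →+* LaurentSeries L)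
  | none => tauInf L N ℓ
  | some b => tauFin W ζ b.1

/-- the base embedding `x ↦ x(q^ℓ)` of `F_N` -/
def iotaBase (L : Type*) [Field L] [Algebra ℚ L] (N ℓ : ℕ) [NeZero N] [NeZero ℓ] :
    laurentBaseChange L (modularFunctionFieldFull N) →+* LaurentSeries L :=
  (qExpand L ℓ).comp (laurentBaseChange L (modularFunctionFieldFull N)).val.toRingHom

theorem tauInf_apply (y : FNl) : tauInf L N ℓ y = qExpand L ℓ (y : LaurentSeries L) := rfl

omit [NeZero N] [NeZero ℓ] in
theorem tauFin_apply (W : FNl ≃ₐ[L] FNl) (ζ : Lˣ) (b : ℕ) (y : FNl) :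
    tauFin W ζ b y = twist (ζ ^ b) ((W y : FNl) : LaurentSeries L) := rfl

theorem iotaBase_apply (x : FN) : iotaBase L N ℓ x = qExpand L ℓ (x : LaurentSeries L) := rfl

theorem tauAll_comp_alpha (W : FNl ≃ₐ[L] FNl)
    (hWα : ∀ x, W (heckeAlphaBar L N ℓ x) = heckeBetaBar L N ℓ x) (ζ : Lˣ)
    (hζ : ζ ^ ℓ = 1) (i : Option (Fin ℓ)) :
    (tauAll W ζ i).comp (heckeAlphaBar L N ℓ).toRingHom = iotaBase L N ℓ := by
  refine RingHom.ext fun x => ?_
  cases i with
  | none =>
      show tauInf L N ℓ (heckeAlphaBar L N ℓ x) = _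
      rw [tauInf_apply, coe_heckeAlphaBar, iotaBase_apply]
  | some b =>
      show tauFin W ζ b.1 (heckeAlphaBar L N ℓ x) = _
      rw [tauFin_apply, hWα, coe_heckeBetaBar, iotaBase_apply]
      apply twist_qExpand_of_pow_eq_one
      rw [← pow_mul, mul_comm, pow_mul, hζ, one_pow]

theorem tauAll_beta (W : FNl ≃ₐ[L] FNl)
    (hWβ : ∀ x, W (heckeBetaBar L N ℓ x) = heckeAlphaBar L N ℓ x) (ζ : Lˣ)
    (i : Option (Fin ℓ)) (f : FN) :
    tauAll W ζ i (heckeBetaBar L N ℓ f) =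
      match i with
      | none => qExpand L ℓ (qExpand L ℓ (f : LaurentSeries L))
      | some b => twist (ζ ^ b.1) (f : LaurentSeries L) := by
  cases i with
  | none =>
      show tauInf L N ℓ (heckeBetaBar L N ℓ f) = _
      rw [tauInf_apply, coe_heckeBetaBar]
  | some b =>
      show tauFin W ζ b.1 (heckeBetaBar L N ℓ f) = _
      rw [tauFin_apply, hWβ, coe_heckeAlphaBar]

theorem tauAll_injective (W : FNl ≃ₐ[L] FNl)
    (hWβ : ∀ x, W (heckeBetaBar L N ℓ x) = heckeAlphaBar L N ℓ x) (ζ : Lˣ)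
    (hℓ : 2 ≤ ℓ) (hζ : IsPrimitiveRoot (ζ : L) ℓ) :
    Function.Injective (tauAll W ζ (N := N) (ℓ := ℓ)) := by
  have hval : ∀ i : Option (Fin ℓ),
      (tauAll W ζ i (heckeBetaBar L N ℓ (jFull L N))).coeff (-1) =
        match i with
        | none => 0
        | some b => (((ζ ^ b.1)⁻¹ : Lˣ) : L) := by
    intro i
    rw [tauAll_beta W hWβ ζ i]
    cases i with
    | none => exact qExpand_qExpand_jqModC_coeff_neg_one ℓ hℓ
    | some b => exact twist_jqModC_coeff_neg_one _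
  intro i i' hii'
  have h1 := hval i
  rw [hii', hval i'] at h1
  cases i with
  | none =>
      cases i' with
      | none => rfl
      | some b' => exact absurd h1 (Units.ne_zero _)
  | some b =>
      cases i' with
      | none => exact absurd h1.symm (Units.ne_zero _)
      | some b' =>
          have h2 : (ζ ^ b'.1)⁻¹ = (ζ ^ b.1)⁻¹ := Units.ext h1
          have h3 : ζ ^ b'.1 = ζ ^ b.1 := inv_injective h2
          have h4 : (ζ : L) ^ b'.1 = (ζ : L) ^ b.1 := by
            have := congrArg (fun u : Lˣ => (u : L)) h3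
            simpa using this
          have h5 := hζ.pow_inj b'.2 b.2 h4
          exact congrArg some (Fin.ext h5.symm)

/-- **Q-ES-1**, conditional on the degree: the `q`-expansion of the norm of `β f` along `α`. -/
theorem qExpand_norm_beta_eq (W : FNl ≃ₐ[L] FNl)
    (hWα : ∀ x, W (heckeAlphaBar L N ℓ x) = heckeBetaBar L N ℓ x)
    (hWβ : ∀ x, W (heckeBetaBar L N ℓ x) = heckeAlphaBar L N ℓ x) (ζ : Lˣ)
    (hℓ : ℓ.Prime) (hζ : IsPrimitiveRoot (ζ : L) ℓ)
    (hdeg : finrankAlong L (heckeAlphaBar L N ℓ) = ℓ + 1) (f : FN) :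
    qExpand L ℓ
        (((letI := algebraAlong (heckeAlphaBar L N ℓ)
          Algebra.norm (laurentBaseChange L (modularFunctionFieldFull N))
            (heckeBetaBar L N ℓ f)) : FN) : LaurentSeries L) =
      qExpand L ℓ (qExpand L ℓ (f : LaurentSeries L)) *
        ∏ b ∈ Finset.range ℓ, twist (ζ ^ b) (f : LaurentSeries L) := by
  letI := algebraAlong (heckeAlphaBar L N ℓ)
  have hζ1 : ζ ^ ℓ = 1 := Units.ext (by simpa using hζ.pow_eq_one)
  have hcard : Fintype.card (Option (Fin ℓ)) = Module.finrank FN FNl := by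
    rw [Fintype.card_option, Fintype.card_fin]
    exact hdeg.symm
  have key := map_norm_eq_prod_of_card_eq (F := FN) (F' := FNl) (iotaBase L N ℓ)
    (tauAll W ζ) (fun i => tauAll_comp_alpha W hWα ζ hζ1 i)
    (tauAll_injective W hWβ ζ hℓ.two_le hζ) hcard (heckeBetaBar L N ℓ f)
  rw [iotaBase_apply] at key
  rw [key, Fintype.prod_option, tauAll_beta W hWβ ζ none f]
  congr 1
  rw [← Fin.prod_univ_eq_prod_range (fun b => twist (ζ ^ b) (f : LaurentSeries L)) ℓ]
  refine Finset.prod_congr rfl fun b _ => ?_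
  exact tauAll_beta W hWβ ζ (some b) f

end Main

end Fermat.Agent.H42
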