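/-
P-ES (Eichler-Shimura gateway), item (5): Kronecker's congruence
`Φ_p(X, Y) ≡ (Y - X^p) (Y^p - X)  (mod p)`,
as a formal corollary of the Hecke data of P-IGUSA (helper42).
-/
import Mathlib
import Fermat.Agent.H27.Igusa.Defs
import Fermat.Agent.H67.IgusaTransfer
import Fermat.Agent.H74.IgusaPolyJ

set_option autoImplicit false

noncomputable section

open ModularCurve Polynomial

namespace Fermat.Agent.H42

open Fermat.Agent.H27

/-! ### Frobenius on Laurent series over `𝔽_p` -/

section Frobenius

variable (p : ℕ) [hp : Fact p.Prime]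

/-- `q ↦ q^p` on power series, seen inside Laurent series. -/
theorem qExpand_ofPowerSeries_eq_expand {R : Type*} [CommRing R] (n : ℕ) [NeZero n]
    (f : PowerSeries R) :
    qExpand R n (HahnSeries.ofPowerSeries ℤ R f) =
      HahnSeries.ofPowerSeries ℤ R (PowerSeries.expand n (NeZero.ne n) f) := by
  ext k
  by_cases hk : (n : ℤ) ∣ k
  · obtain ⟨m, rfl⟩ := hk
    rw [qExpand_coeff_mul]
    rcases le_or_gt 0 m with hm | hm
    · lift m to ℕ using hm
      rw [HahnSeries.ofPowerSeries_apply_coeff,
        show ((n : ℤ) * (m : ℤ)) = ((n * m : ℕ) : ℤ) by push_cast; rfl,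
        HahnSeries.ofPowerSeries_apply_coeff, PowerSeries.coeff_expand_mul]
    · rw [ofPowerSeries_coeff_of_neg _ hm, ofPowerSeries_coeff_of_neg]
      have hn : (0 : ℤ) < n := by exact_mod_cast Nat.pos_of_ne_zero (NeZero.ne n)
      exact mul_neg_of_pos_of_neg hn hm
  · rw [qExpand_coeff_of_not_dvd n _ hk]
    rcases le_or_gt 0 k with hk0 | hk0
    · lift k to ℕ using hk0
      rw [HahnSeries.ofPowerSeries_apply_coeff, PowerSeries.coeff_expand_of_not_dvd]
      intro h
      exact hk (by exact_mod_cast h)
    · rw [ofPowerSeries_coeff_of_neg _ hk0]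

/-- Frobenius on power series over `𝔽_p`. -/
theorem powerSeries_pow_eq_expand (f : PowerSeries (ZMod p)) :
    f ^ p = PowerSeries.expand p hp.out.ne_zero f := by
  have h := MvPowerSeries.map_frobenius_expand (σ := Unit) (R := ZMod p) p hp.out.ne_zero (f := f)
  rw [← h]
  have hfrob : frobenius (ZMod p) p = RingHom.id (ZMod p) := by
    ext x
    simp
  rw [hfrob, MvPowerSeries.map_id]
  rfl

/-- **Frobenius on `𝔽_p((t))`**: `x^p = x(t^p)`. -/
theorem laurent_pow_eq_qExpand (x : LaurentSeries (ZMod p)) :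
    x ^ p = qExpand (ZMod p) p x := by
  have hx := LaurentSeries.single_order_mul_powerSeriesPart x
  rw [← hx, mul_pow, map_mul, HahnSeries.single_pow, one_pow, qExpand_single, ← map_pow,
    powerSeries_pow_eq_expand, qExpand_ofPowerSeries_eq_expand, nsmul_eq_mul]

end Frobenius

/-! ### The Kronecker polynomial -/

section Kronecker

variable (p : ℕ) [hp : Fact p.Prime]

/-- The Kronecker polynomial `(Y - X^p) (Y^p - X)` in `R[X][Y]` (outer variable `Y`). -/
def kroneckerPoly (R : Type*) [CommRing R] : Polynomial (Polynomial R) :=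
  (X - C (X ^ p)) * (X ^ p - C X)

omit hp in
theorem kroneckerPoly_map {R S : Type*} [CommRing R] [CommRing S] (f : R →+* S) :
    (kroneckerPoly p R).map (Polynomial.mapRingHom f) = kroneckerPoly p S := by
  simp [kroneckerPoly, Polynomial.map_mul, Polynomial.map_sub, Polynomial.map_pow]

/-- evaluation of the inner variable at a Laurent series, over `𝔽_p` -/
def evalZ (x : LaurentSeries (ZMod p)) : Polynomial (ZMod p) →+* LaurentSeries (ZMod p) :=
  (Polynomial.aeval (R := ZMod p) x).toRingHom

theorem evalZ_comp_map (x : LaurentSeries (ZMod p)) :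
    (evalZ p x).comp (Polynomial.mapRingHom (Int.castRingHom (ZMod p))) = evalAt x := by
  apply Polynomial.ringHom_ext
  · intro a
    simp [evalZ, evalAt]
  · simp [evalZ, evalAt]

theorem transcendental_baseS_zmod : Transcendental (ZMod p) (baseS (ZMod p) p) := by
  have h := Fermat.Agent.H74.transcendental_jq (ZMod p)
  rw [transcendental_iff_injective] at h ⊢
  intro P Q hPQ
  apply h
  apply qExpand_injective (R := ZMod p) p
  have e : ∀ P : Polynomial (ZMod p),
      qExpand (ZMod p) p (Polynomial.aeval (jqModC (ZMod p)) P) =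
        Polynomial.aeval (baseS (ZMod p) p) P := by
    intro P
    have := Polynomial.aeval_algHom_apply (qExpandAlgHomC (ZMod p) p) (jqModC (ZMod p)) P
    simpa [baseS] using this.symm
  rw [e, e, hPQ]

theorem evalZ_baseS_injective : Function.Injective (evalZ p (baseS (ZMod p) p)) := by
  have h := transcendental_baseS_zmod p
  rw [transcendental_iff_injective] at h
  exact h

/-- **Kronecker's congruence**, formal version: for Hecke data over `𝔽_p` with `ζ = 1`,
`Φ_p(X, Y) ≡ (Y - X^p) (Y^p - X)`. -/
theorem kronecker_of_heckeDataOver_zmod (D : HeckeDataOver p (ZMod p) 1) :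
    D.Φ.map (Polynomial.mapRingHom (Int.castRingHom (ZMod p))) = kroneckerPoly p (ZMod p) := by
  apply Polynomial.map_injective _ (evalZ_baseS_injective p)
  rw [Polynomial.map_map, evalZ_comp_map, D.Φ_factor]
  have hroot : ∀ b ∈ Finset.range p, (X - C (rootFin ((1 : (ZMod p)ˣ) ^ b)) :
      Polynomial (LaurentSeries (ZMod p))) = X - C (jqModC (ZMod p)) := by
    intro b _
    have : rootFin ((1 : (ZMod p)ˣ) ^ b) = jqModC (ZMod p) := by
      rw [one_pow, rootFin]
      ext n
      simp
    rw [this]
  rw [Finset.prod_congr rfl hroot, Finset.prod_const, Finset.card_range]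
  have hchar : CharP (LaurentSeries (ZMod p)) p := by
    have : CharP (ZMod p) p := ZMod.charP p
    exact (RingHom.charP_iff (HahnSeries.C : ZMod p →+* LaurentSeries (ZMod p))
      HahnSeries.C_injective p).mp this
  have : CharP (Polynomial (LaurentSeries (ZMod p))) p := by
    exact (RingHom.charP_iff (Polynomial.C : LaurentSeries (ZMod p) →+* _)
      Polynomial.C_injective p).mp hchar
  rw [sub_pow_char, ← C_pow, laurent_pow_eq_qExpand]
  have hinf : rootInf (ZMod p) p = (baseS (ZMod p) p) ^ p := by
    rw [laurent_pow_eq_qExpand, rootInf, baseS]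
  rw [hinf, kroneckerPoly, Polynomial.map_mul, Polynomial.map_sub, Polynomial.map_sub,
    Polynomial.map_pow, Polynomial.map_X, Polynomial.map_C, Polynomial.map_C]
  simp [evalZ, baseS]

/-- variant with an arbitrary unit which happens to be `1` -/
theorem kronecker_of_heckeDataOver_zmod' (ζ : (ZMod p)ˣ) (hζ : ζ = 1)
    (D : HeckeDataOver p (ZMod p) ζ) :
    D.Φ.map (Polynomial.mapRingHom (Int.castRingHom (ZMod p))) = kroneckerPoly p (ZMod p) := by
  subst hζ
  exact kronecker_of_heckeDataOver_zmod p D

/-- `Φ_p(1) = p = 0` in `𝔽_p` -/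
theorem eval₂_cyclotomic_one_zmod :
    Polynomial.eval₂ (Int.castRingHom (ZMod p)) 1 (Polynomial.cyclotomic p ℤ) = 0 := by
  rw [Polynomial.eval₂_eq_eval_map, Polynomial.map_cyclotomic_int,
    Polynomial.eval_one_cyclotomic_prime]
  exact ZMod.natCast_self p

/-- **Kronecker's congruence** for Hecke data over the cyclotomic ring `ℤ[ζ_p]`. -/
theorem kronecker_of_heckeDataOver_adjoinRoot
    (u : (AdjoinRoot (Polynomial.cyclotomic p ℤ))ˣ)
    (hu : (u : AdjoinRoot (Polynomial.cyclotomic p ℤ)) =
      AdjoinRoot.root (Polynomial.cyclotomic p ℤ))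
    (D : HeckeDataOver p (AdjoinRoot (Polynomial.cyclotomic p ℤ)) u) :
    D.Φ.map (Polynomial.mapRingHom (Int.castRingHom (ZMod p))) = kroneckerPoly p (ZMod p) := by
  have h := kronecker_of_heckeDataOver_zmod' p _ ?_
    (Fermat.Agent.H67.heckeDataOverMap
      (AdjoinRoot.lift (Int.castRingHom (ZMod p)) 1 (eval₂_cyclotomic_one_zmod p)) u D)
  · exact h
  · apply Units.ext
    rw [Units.coe_map, Units.val_one]
    show (AdjoinRoot.lift (Int.castRingHom (ZMod p)) 1 (eval₂_cyclotomic_one_zmod p)) (u : _) = 1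
    rw [hu, AdjoinRoot.lift_root]

/-- transport along an injective map out of the cyclotomic ring -/
theorem kronecker_of_heckeDataOver_of_injective {K : Type*} [CommRing K]
    (f : AdjoinRoot (Polynomial.cyclotomic p ℤ) →+* K) (hf : Function.Injective f)
    (u : (AdjoinRoot (Polynomial.cyclotomic p ℤ))ˣ)
    (hu : (u : AdjoinRoot (Polynomial.cyclotomic p ℤ)) =
      AdjoinRoot.root (Polynomial.cyclotomic p ℤ))
    (ζ : Kˣ) (e : Units.map (f : _ →* K) u = ζ) (D : HeckeDataOver p K ζ) :
    D.Φ.map (Polynomial.mapRingHom (Int.castRingHom (ZMod p))) = kroneckerPoly p (ZMod p) := by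
  subst e
  exact kronecker_of_heckeDataOver_adjoinRoot p u hu
    (Fermat.Agent.H67.heckeDataOverOfInjective f hf u D)

/-- **Kronecker's congruence** for Hecke data over a field of characteristic zero. -/
theorem kronecker_of_heckeDataOver_charZero {K : Type*} [Field K] [CharZero K] (ζ : Kˣ)
    (hζ : IsPrimitiveRoot (ζ : K) p) (D : HeckeDataOver p K ζ) :
    D.Φ.map (Polynomial.mapRingHom (Int.castRingHom (ZMod p))) = kroneckerPoly p (ZMod p) := by
  have hpos : 0 < p := hp.out.pos
  have hunit : IsUnit (AdjoinRoot.root (Polynomial.cyclotomic p ℤ)) :=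
    IsUnit.of_pow_eq_one (Fermat.Agent.H67.adjoinRoot_cyclotomic_root_pow p) hp.out.ne_zero
  have h0 := Fermat.Agent.H67.eval₂_cyclotomic_eq_zero p hpos _ hζ
  have ha := Fermat.Agent.H67.adjoinRoot_cyclotomic_lift_injective p hpos _ hζ h0
  have e : Units.map (AdjoinRoot.lift (Int.castRingHom K) _ h0 : _ →* K) hunit.unit = ζ := by
    apply Units.ext
    rw [Units.coe_map, IsUnit.unit_spec]
    simp
  exact kronecker_of_heckeDataOver_of_injective p _ ha hunit.unit (IsUnit.unit_spec hunit) ζ e D

end Kronecker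

end Fermat.Agent.H42
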