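/-
P-ES / ES-E, item E5 (helper42): the generalised Kronecker congruence.

For a Laurent series `x` over a ring `R` with an `ℓ`-th root of unity `ζ`, and a ring
homomorphism `π : R → k` to a ring of characteristic `ℓ` with `π ζ = 1`:

  `∏_{b < ℓ} (X - x(ζ^b q))  ↦  X^ℓ - (φ x̄)(q^ℓ)`     (`φ` = Frobenius on coefficients),

and the full "Hecke polynomial" `(X - x(q^{ℓ²})) ∏_b (X - x(ζ^b q))` reduces to
`(X - x̄(q^{ℓ²})) (X^ℓ - (φ x̄)(q^ℓ))`.
-/
import Mathlib
import Fermat.Agent.H27.Igusa.Defs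
import Fermat.Agent.H67.IgusaTransfer
import Fermat.Agent.H42.KroneckerFormal

set_option autoImplicit false

noncomputable section

open ModularCurve Polynomial

namespace Fermat.Agent.H42

open Fermat.Agent.H27

section FrobeniusGeneral

variable (ℓ : ℕ) [hℓ : Fact ℓ.Prime] {k : Type*} [CommRing k] [CharP k ℓ]

/-- Frobenius on power series over a ring of characteristic `ℓ`. -/
theorem powerSeries_pow_char (f : PowerSeries k) :
    f ^ ℓ = PowerSeries.expand ℓ hℓ.out.ne_zero (f.map (frobenius k ℓ)) := by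
  have h := MvPowerSeries.map_frobenius_expand (σ := Unit) (R := k) ℓ hℓ.out.ne_zero (f := f)
  rw [← h]
  exact (PowerSeries.map_expand ℓ hℓ.out.ne_zero (frobenius k ℓ) f)

/-- **Frobenius on `k((q))`**, `char k = ℓ`: `x^ℓ = (φ x)(q^ℓ)` with `φ` the coefficientwise
Frobenius. -/
theorem laurent_pow_char (x : LaurentSeries k) :
    x ^ ℓ = qExpand k ℓ (coeffMap (frobenius k ℓ) x) := by
  have key : ∀ (n : ℤ) (f : PowerSeries k),
      (HahnSeries.single n (1 : k) * HahnSeries.ofPowerSeries ℤ k f) ^ ℓ =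
        qExpand k ℓ (coeffMap (frobenius k ℓ)
          (HahnSeries.single n (1 : k) * HahnSeries.ofPowerSeries ℤ k f)) := by
    intro n f
    have h1 : (HahnSeries.single n (1 : k)) ^ ℓ = HahnSeries.single ((ℓ : ℤ) * n) (1 : k) := by
      rw [HahnSeries.single_pow, one_pow, nsmul_eq_mul]
    have h2 : coeffMap (frobenius k ℓ) (HahnSeries.single n (1 : k)) =
        HahnSeries.single n (1 : k) := by
      rw [coeffMap_single, map_one]
    rw [mul_pow, map_mul, map_mul, h1, h2, qExpand_single, ← map_pow, powerSeries_pow_char,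
      coeffMap_ofPowerSeries, qExpand_ofPowerSeries_eq_expand]
  have hx := LaurentSeries.single_order_mul_powerSeriesPart x
  rw [← hx]
  exact key _ _

end FrobeniusGeneral

section Kron

variable (ℓ : ℕ) [hℓ : Fact ℓ.Prime] {R k : Type*} [CommRing R] [CommRing k] [CharP k ℓ]

theorem twist_one' {S : Type*} [CommRing S] (x : LaurentSeries S) : twist (1 : Sˣ) x = x := by
  ext n
  simp

omit hℓ in
/-- `CharP` for polynomials over Laurent series. -/
theorem charP_polynomial_laurent : CharP (Polynomial (LaurentSeries k)) ℓ := by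
  have h1 : CharP (LaurentSeries k) ℓ :=
    (RingHom.charP_iff (HahnSeries.C : k →+* LaurentSeries k) HahnSeries.C_injective ℓ).mp
      inferInstance
  exact (RingHom.charP_iff (Polynomial.C : LaurentSeries k →+* _) Polynomial.C_injective ℓ).mp h1

/-- **E-kron**: the product over the `ℓ` twists reduces to `X^ℓ - (φ x̄)(q^ℓ)`. -/
theorem map_prod_twist (π : R →+* k) (ζ : Rˣ) (hζ : π (ζ : R) = 1) (x : LaurentSeries R) :
    (∏ b ∈ Finset.range ℓ, (X - C (twist (ζ ^ b) x))).map (coeffMap π) =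
      X ^ ℓ - C (qExpand k ℓ (coeffMap (frobenius k ℓ) (coeffMap π x))) := by
  have hu : Units.map (π : R →* k) ζ = 1 := by
    apply Units.ext
    rw [Units.coe_map]
    exact hζ
  have hroot : ∀ b ∈ Finset.range ℓ,
      (X - C (twist (ζ ^ b) x)).map (coeffMap π) = X - C (coeffMap π x) := by
    intro b _
    rw [Polynomial.map_sub, Polynomial.map_X, Polynomial.map_C,
      Fermat.Agent.H67.coeffMap_twist, map_pow, hu, one_pow, twist_one']
  rw [Polynomial.map_prod, Finset.prod_congr rfl hroot, Finset.prod_const, Finset.card_range]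
  have := charP_polynomial_laurent ℓ (k := k)
  rw [sub_pow_char, ← C_pow, laurent_pow_char]

/-- the Hecke polynomial of a Laurent series `x` at `ℓ`:
`(X - x(q^{ℓ²})) ∏_{b<ℓ} (X - x(ζ^b q))`; for `x ∈ F_N` it is the characteristic polynomial of
`x(q)` over the subfield `{ y(q^ℓ) }`. -/
def heckePoly (ζ : Rˣ) (x : LaurentSeries R) : Polynomial (LaurentSeries R) :=
  (X - C (qExpand R ℓ (qExpand R ℓ x))) * ∏ b ∈ Finset.range ℓ, (X - C (twist (ζ ^ b) x))

/-- **generalised Kronecker congruence**: the Hecke polynomial of `x` reduces to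
`(X - x̄(q^{ℓ²})) (X^ℓ - (φ x̄)(q^ℓ))`. -/
theorem map_heckePoly (π : R →+* k) (ζ : Rˣ) (hζ : π (ζ : R) = 1) (x : LaurentSeries R) :
    (heckePoly ℓ ζ x).map (coeffMap π) =
      (X - C (qExpand k ℓ (qExpand k ℓ (coeffMap π x)))) *
        (X ^ ℓ - C (qExpand k ℓ (coeffMap (frobenius k ℓ) (coeffMap π x)))) := by
  rw [heckePoly, Polynomial.map_mul, map_prod_twist ℓ π ζ hζ, Polynomial.map_sub, Polynomial.map_X,
    Polynomial.map_C, ModularCurve.coeffMap_qExpand, ModularCurve.coeffMap_qExpand]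

/-- the same, written as the image under `q ↦ q^ℓ` of a polynomial over `k((q))`:
`(X - x̄(q^ℓ)) (X^ℓ - φ x̄)`. -/
theorem map_heckePoly_eq_map_qExpand (π : R →+* k) (ζ : Rˣ) (hζ : π (ζ : R) = 1)
    (x : LaurentSeries R) :
    (heckePoly ℓ ζ x).map (coeffMap π) =
      ((X - C (qExpand k ℓ (coeffMap π x))) *
        (X ^ ℓ - C (coeffMap (frobenius k ℓ) (coeffMap π x)))).map (qExpand k ℓ) := by
  rw [map_heckePoly ℓ π ζ hζ]
  simp [Polynomial.map_mul, Polynomial.map_sub, Polynomial.map_pow]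

/-- if `k` is perfect-like in the sense that `x̄ = φ z`, then `x̄(q^ℓ) = z^ℓ`: the reduced Hecke
polynomial is `(X - z^ℓ) (X^ℓ - φ² z)` pushed along `q ↦ q^ℓ`; in particular for coefficients in
`𝔽_ℓ` it is `(X - x̄^ℓ) (X^ℓ - x̄)`. -/
theorem map_heckePoly_zmod (π : R →+* ZMod ℓ) (ζ : Rˣ) (hζ : π (ζ : R) = 1)
    (x : LaurentSeries R) :
    (heckePoly ℓ ζ x).map (coeffMap π) =
      ((X - C ((coeffMap π x) ^ ℓ)) * (X ^ ℓ - C (coeffMap π x))).map (qExpand (ZMod ℓ) ℓ) := by
  rw [map_heckePoly_eq_map_qExpand ℓ π ζ hζ, laurent_pow_eq_qExpand]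
  have hfrob : frobenius (ZMod ℓ) ℓ = RingHom.id (ZMod ℓ) := by
    ext a
    simp
  rw [hfrob, coeffMap_id]

end Kron

end Fermat.Agent.H42
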