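/-
P-ES / ES-E, item E5 supplement (helper42): Galois descent of the twist product to `q^ℓ`.

For a domain `R` with a primitive `ℓ`-th root of unity `ζ` and a Laurent series `f` over `R`,
the polynomial `∏_{b<ℓ} (X - f(ζ^b q))` has all its coefficients in `R((q^ℓ))`:
it is `P.map (qExpand R ℓ)` for a (unique) `P ∈ R((q))[X]`, and `P` reduces to `X^ℓ - φ f̄`
under any `π : R → k`, `char k = ℓ`, with `π ζ = 1`.
-/
import Mathlib
import Fermat.Agent.H42.ESEKron

set_option autoImplicit false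

noncomputable section

open ModularCurve Polynomial

namespace Fermat.Agent.H42

open Fermat.Agent.H27

section Descent

variable (ℓ : ℕ) [hℓ : Fact ℓ.Prime] {R : Type*} [CommRing R]

/-- the inverse of `q ↦ q^ℓ` on series supported on multiples of `ℓ` (junk otherwise) -/
def qContract (x : LaurentSeries R) : LaurentSeries R :=
  HahnSeries.ofSuppBddBelow (fun n : ℤ => x.coeff ((ℓ : ℤ) * n)) (by
    have hpos : (0 : ℤ) < ℓ := by exact_mod_cast hℓ.out.pos
    by_cases hx : x = 0
    · refine ⟨0, ?_⟩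
      intro n hn
      simp [hx] at hn
    · refine ⟨-|x.order|, ?_⟩
      intro n hn
      simp only [Function.mem_support, ne_eq] at hn
      have h1 : x.order ≤ (ℓ : ℤ) * n := HahnSeries.order_le_of_coeff_ne_zero hn
      by_contra hlt
      push Not at hlt
      have habs : -|x.order| ≤ x.order := neg_abs_le _
      have habs0 : 0 ≤ |x.order| := abs_nonneg _
      have hn0 : n < 0 := by omega
      have h2 : (ℓ : ℤ) * n ≤ 1 * n := by
        have h1l : (1 : ℤ) ≤ ℓ := by omega
        nlinarith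
      omega)

@[simp] theorem qContract_coeff (x : LaurentSeries R) (n : ℤ) :
    (qContract ℓ x).coeff n = x.coeff ((ℓ : ℤ) * n) := by
  simp [qContract]

/-- a series supported on multiples of `ℓ` is in the range of `q ↦ q^ℓ` -/
theorem qExpand_qContract (x : LaurentSeries R) (hx : ∀ n : ℤ, ¬ (ℓ : ℤ) ∣ n → x.coeff n = 0) :
    qExpand R ℓ (qContract ℓ x) = x := by
  ext n
  by_cases hn : (ℓ : ℤ) ∣ n
  · obtain ⟨m, rfl⟩ := hn
    rw [qExpand_coeff_mul, qContract_coeff]
  · rw [qExpand_coeff_of_not_dvd ℓ _ hn, hx n hn]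

variable [IsDomain R]

omit hℓ in
/-- a series fixed by the twist by a primitive `ℓ`-th root of unity is supported on multiples of
`ℓ` -/
theorem coeff_eq_zero_of_twist_eq (ζ : Rˣ) (hζ : IsPrimitiveRoot (ζ : R) ℓ) (x : LaurentSeries R)
    (hx : twist ζ x = x) (n : ℤ) (hn : ¬ (ℓ : ℤ) ∣ n) : x.coeff n = 0 := by
  have h := congrArg (fun y => y.coeff n) hx
  simp only [twist_coeff] at h
  have h1 : (((ζ ^ n : Rˣ) : R) - 1) * x.coeff n = 0 := by
    rw [sub_mul, one_mul, h, sub_self]
  rcases mul_eq_zero.mp h1 with h2 | h2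
  · exfalso
    apply hn
    have h3 : ((ζ ^ n : Rˣ) : R) = 1 := sub_eq_zero.mp h2
    have h4 : ζ ^ n = 1 := Units.ext h3
    have hζ' : IsPrimitiveRoot ζ ℓ := IsPrimitiveRoot.coe_units_iff.mp hζ
    exact (hζ'.zpow_eq_one_iff_dvd n).mp h4
  · exact h2

omit [IsDomain R] in
/-- the twist by `ζ` permutes the factors of the twist product -/
theorem map_twist_prod_twist (ζ : Rˣ) (hζ : (ζ : R) ^ ℓ = 1) (f : LaurentSeries R) :
    (∏ b ∈ Finset.range ℓ, (X - C (twist (ζ ^ b) f))).map (twist ζ) =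
      ∏ b ∈ Finset.range ℓ, (X - C (twist (ζ ^ b) f)) := by
  have hζu : ζ ^ ℓ = 1 := Units.ext (by rw [Units.val_pow_eq_pow_val, hζ, Units.val_one])
  have htw : ∀ b : ℕ, twist ζ (twist (ζ ^ b) f) = twist (ζ ^ (b + 1)) f := by
    intro b
    ext n
    simp only [twist_coeff]
    rw [← mul_assoc, ← Units.val_mul, ← mul_zpow, pow_succ']
  rw [Polynomial.map_prod]
  have h1 : ∀ b ∈ Finset.range ℓ, (X - C (twist (ζ ^ b) f)).map (twist ζ) =
      X - C (twist (ζ ^ (b + 1)) f) := by
    intro b _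
    rw [Polynomial.map_sub, Polynomial.map_X, Polynomial.map_C, htw]
  rw [Finset.prod_congr rfl h1]
  obtain ⟨m, hm⟩ : ∃ m, ℓ = m + 1 := ⟨ℓ - 1, by have := hℓ.out.pos; omega⟩
  have hlast : twist (ζ ^ (m + 1)) f = twist (ζ ^ 0) f := by
    rw [← hm, hζu, pow_zero]
  rw [hm, Finset.prod_range_succ, hlast,
    Finset.prod_range_succ' (fun b => (X - C (twist (ζ ^ b) f)))]

/-- **E5, descent form**: the twist product is the image under `q ↦ q^ℓ` of a polynomial over
`R((q))`. -/
theorem exists_prod_twist_eq_map_qExpand (ζ : Rˣ) (hζ : IsPrimitiveRoot (ζ : R) ℓ)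
    (f : LaurentSeries R) :
    ∃ P : Polynomial (LaurentSeries R),
      ∏ b ∈ Finset.range ℓ, (X - C (twist (ζ ^ b) f)) = P.map (qExpand R ℓ) := by
  set Q := ∏ b ∈ Finset.range ℓ, (X - C (twist (ζ ^ b) f)) with hQ
  have hfix : Q.map (twist ζ) = Q := map_twist_prod_twist ℓ ζ hζ.pow_eq_one f
  have hcoef : ∀ i, qExpand R ℓ (qContract ℓ (Q.coeff i)) = Q.coeff i := by
    intro i
    apply qExpand_qContract
    intro n hn
    apply coeff_eq_zero_of_twist_eq ℓ ζ hζ _ _ n hn
    have := congrArg (fun P => P.coeff i) hfix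
    simpa [Polynomial.coeff_map] using this
  refine ⟨∑ i ∈ Finset.range (Q.natDegree + 1), C (qContract ℓ (Q.coeff i)) * X ^ i, ?_⟩
  rw [Polynomial.map_sum]
  simp only [Polynomial.map_mul, Polynomial.map_C, Polynomial.map_pow, Polynomial.map_X, hcoef]
  exact Q.as_sum_range_C_mul_X_pow

omit [IsDomain R] in
/-- **E5, reduced descent form**: any `P` with `∏_b (X - f(ζ^b q)) = P(q^ℓ)` reduces to
`X^ℓ - φ f̄`. -/
theorem map_eq_of_prod_twist_eq {k : Type*} [CommRing k] [CharP k ℓ] (π : R →+* k) (ζ : Rˣ)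
    (hζ : π (ζ : R) = 1) (f : LaurentSeries R) (P : Polynomial (LaurentSeries R))
    (hP : ∏ b ∈ Finset.range ℓ, (X - C (twist (ζ ^ b) f)) = P.map (qExpand R ℓ)) :
    P.map (coeffMap π) = X ^ ℓ - C (coeffMap (frobenius k ℓ) (coeffMap π f)) := by
  apply Polynomial.map_injective (qExpand k ℓ) (qExpand_injective (R := k) ℓ)
  have h := map_prod_twist ℓ π ζ hζ f
  rw [hP, Polynomial.map_map] at h
  rw [Polynomial.map_map]
  have hcomm : (qExpand k ℓ).comp (coeffMap π) = (coeffMap π).comp (qExpand R ℓ) := by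
    ext x : 1
    simp [ModularCurve.coeffMap_qExpand]
  rw [hcomm, h]
  simp [Polynomial.map_sub, Polynomial.map_pow]

end Descent

end Fermat.Agent.H42
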