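/-
P-CFT, row CFT-F3 (helper42): permutation-module induction principle, core constructions.

`U ≤ G` a subgroup of finite index, `k` a field.  For a representation `W` of `U` let
`T W = Rep.coind U.subtype W` (functions `F : G → W` with `F (u x) = u F x`, `G` acting by right
translation).

* a `U`-fixed vector `w ≠ 0` of `W` gives a short exact sequence
  `0 → k[G/U] → T W → T (W / k w) → 0`;
* `T W` is finite-dimensional if `W` is, and a normal subgroup `N ≤ U` acting trivially on `W`
  acts trivially on `T W`;
* if `[G : U]` is invertible in `k`, every representation `M` of `G` is a retract of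
  `T (res M)`.
-/
import Mathlib

set_option autoImplicit false

noncomputable section

open CategoryTheory

namespace Fermat.Agent.H42.Cft

variable {k : Type} [Field k] {G : Type} [Group G] (U : Subgroup G)

section CoindBasics

variable {W : Type} [AddCommGroup W] [Module k W] (ρ : Representation k U W)

theorem coind_val_apply (g x : G) (F : Representation.coindV U.subtype ρ) :
    ((Representation.coind U.subtype ρ g F : Representation.coindV U.subtype ρ) : G → W) x =
      (F : G → W) (x * g) := rfl

theorem coindV_apply_mul (F : Representation.coindV U.subtype ρ) (u : U) (x : G) :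
    (F : G → W) ((u : G) * x) = ρ u ((F : G → W) x) := F.2 u x

end CoindBasics

section PermMap

variable {W : Type} [AddCommGroup W] [Module k W]

/-- the `k`-linear map `k[G/U] → (G → W)`, `a ↦ (y ↦ a(y⁻¹U) • w)` -/
def permToFun (w : W) : MonoidAlgebra k (G ⧸ U) →ₗ[k] (G → W) where
  toFun a := fun y => a.coeff ((y⁻¹ : G) : G ⧸ U) • w
  map_add' a b := by
    funext y
    simp only [MonoidAlgebra.coeff_add, Finsupp.coe_add, Pi.add_apply, add_smul]
  map_smul' c a := by
    funext y
    simp only [MonoidAlgebra.coeff_smul, Finsupp.coe_smul, Pi.smul_apply, smul_eq_mul,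
      RingHom.id_apply, mul_smul]

@[simp] theorem permToFun_apply (w : W) (a : MonoidAlgebra k (G ⧸ U)) (y : G) :
    permToFun U w a y = a.coeff ((y⁻¹ : G) : G ⧸ U) • w := rfl

variable (ρ : Representation k U W)

theorem permToFun_mem_coindV (w : W) (hw : ∀ u : U, ρ u w = w) (a : MonoidAlgebra k (G ⧸ U)) :
    permToFun U w a ∈ Representation.coindV U.subtype ρ := by
  intro u y
  rw [permToFun_apply, permToFun_apply, map_smul, hw]
  congr 2
  rw [Subgroup.coe_subtype, mul_inv_rev]
  exact QuotientGroup.mk_mul_of_mem _ (U.inv_mem u.2)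

/-- the intertwining map `k[G/U] → T W` attached to a `U`-fixed vector -/
def permToCoind (w : W) (hw : ∀ u : U, ρ u w = w) :
    (Representation.ofMulAction k G (G ⧸ U)).IntertwiningMap
      (Representation.coind U.subtype ρ) where
  toLinearMap := LinearMap.codRestrict _ (permToFun U w) (permToFun_mem_coindV U ρ w hw)
  isIntertwining' g := by
    refine LinearMap.ext fun a => Subtype.ext (funext fun y => ?_)
    rw [LinearMap.comp_apply, LinearMap.comp_apply, coind_val_apply]
    simp only [LinearMap.codRestrict_apply, permToFun_apply, Representation.coeff_ofMulAction]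
    congr 2
    rw [mul_inv_rev]
    rfl

theorem permToFun_injective (w : W) (hw0 : w ≠ 0) : Function.Injective (permToFun (k := k) U w) := by
  rw [injective_iff_map_eq_zero]
  intro a ha
  apply MonoidAlgebra.coeff_injective
  ext q
  obtain ⟨x, rfl⟩ := QuotientGroup.mk_surjective q
  have h1 := congrFun ha x⁻¹
  rw [permToFun_apply, inv_inv, Pi.zero_apply, smul_eq_zero] at h1
  rcases h1 with h1 | h1
  · simpa using h1
  · exact absurd h1 hw0

theorem exists_permToFun_eq [Finite (G ⧸ U)] (w : W) (hw0 : w ≠ 0) (hw : ∀ u : U, ρ u w = w)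
    (F : Representation.coindV U.subtype ρ)
    (hF : ∀ y, (F : G → W) y ∈ Submodule.span k {w}) :
    ∃ a : MonoidAlgebra k (G ⧸ U), permToFun U w a = (F : G → W) := by
  classical
  have hc : ∀ y, ∃ c : k, c • w = (F : G → W) y := fun y => Submodule.mem_span_singleton.mp (hF y)
  choose c hc using hc
  have hinv : ∀ (u : U) (y : G), c ((u : G) * y) = c y := by
    intro u y
    have h1 : c ((u : G) * y) • w = c y • w := by
      rw [hc, coindV_apply_mul, ← hc y, map_smul, hw]
    exact smul_left_injective k hw0 h1
  refine ⟨MonoidAlgebra.ofCoeff (Finsupp.equivFunOnFinite.symm fun q : G ⧸ U => c (q.out⁻¹)), ?_⟩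
  funext y
  rw [permToFun_apply, MonoidAlgebra.coeff_ofCoeff, Finsupp.equivFunOnFinite_symm_apply_apply,
    ← hc y]
  congr 1
  obtain ⟨u, hu⟩ := QuotientGroup.mk_out_eq_mul U y⁻¹
  rw [hu, mul_inv_rev, inv_inv]
  exact hinv u⁻¹ y

end PermMap

section ShortExactSeq

variable (W : Rep.{0} k U) (w : W) (hw : ∀ u : U, W.ρ u w = w)

include hw in
theorem span_le_comap (u : U) :
    Submodule.span k {w} ≤ (Submodule.span k {w}).comap (W.ρ u) := by
  rw [Submodule.span_le]
  intro x hx
  rw [Set.mem_singleton_iff] at hx
  subst hx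
  show W.ρ u x ∈ Submodule.span k {x}
  rw [hw]
  exact Submodule.mem_span_singleton_self _

/-- the quotient representation `W / k w` -/
abbrev quotFixed : Rep.{0} k U :=
  Rep.quotient W (Submodule.span k {w}) (span_le_comap U W w hw)

/-- the short complex `k[G/U] → T W → T (W / k w)` -/
def permShortComplex : ShortComplex (Rep.{0} k G) where
  X₁ := Rep.ofMulAction k G (G ⧸ U)
  X₂ := Rep.coind U.subtype W
  X₃ := Rep.coind U.subtype (quotFixed U W w hw)
  f := Rep.ofHom (permToCoind U W.ρ w hw)
  g := Rep.coindMap U.subtype (Rep.mkQ W _ (span_le_comap U W w hw))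
  zero := by
    refine Rep.hom_ext (Representation.IntertwiningMap.ext
      (LinearMap.ext fun a => Subtype.ext (funext fun y => ?_)))
    show Submodule.Quotient.mk (a.coeff ((y⁻¹ : G) : G ⧸ U) • w) = 0
    rw [Submodule.Quotient.mk_eq_zero]
    exact Submodule.smul_mem _ _ (Submodule.mem_span_singleton_self _)

theorem permShortComplex_shortExact [U.FiniteIndex] (hw0 : w ≠ 0) :
    (permShortComplex U W w hw).ShortExact where
  exact := by
    refine (forget₂ (Rep.{0} k G) (ModuleCat k)).reflects_exact_of_faithful _ <|
      (ShortComplex.moduleCat_exact_iff _).2 fun x hx => ?_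
    haveI : Finite (G ⧸ U) := Subgroup.finite_quotient_of_finiteIndex
    have key : ∀ x' : Representation.coindV U.subtype W.ρ,
        (∀ y, (Submodule.span k {w}).mkQ ((x' : G → W) y) = 0) →
        ∃ a : MonoidAlgebra k (G ⧸ U), permToFun U w a = (x' : G → W) := by
      intro x' hx'
      exact exists_permToFun_eq U W.ρ w hw0 hw x'
        (fun y => (Submodule.Quotient.mk_eq_zero _).1 (hx' y))
    obtain ⟨a, ha⟩ := key x (fun y => congrFun (congrArg Subtype.val hx) y)
    exact ⟨a, Subtype.ext ha⟩
  mono_f := by
    refine (Rep.mono_iff_injective _).2 ?_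
    intro a b hab
    apply permToFun_injective U w hw0
    exact congrArg Subtype.val hab
  epi_g := by
    haveI : Epi (Rep.mkQ W (Submodule.span k {w}) (span_le_comap U W w hw)) :=
      (Rep.epi_iff_surjective _).2 (Submodule.mkQ_surjective _)
    exact (Rep.coindFunctor k U.subtype).map_epi
      (Rep.mkQ W (Submodule.span k {w}) (span_le_comap U W w hw))

end ShortExactSeq

section Good

variable {W : Type} [AddCommGroup W] [Module k W] (ρ : Representation k U W)

/-- evaluation at the inverses of coset representatives -/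
def coindEval : Representation.coindV U.subtype ρ →ₗ[k] ((G ⧸ U) → W) where
  toFun F := fun q => (F : G → W) (q.out⁻¹)
  map_add' _ _ := rfl
  map_smul' _ _ := rfl

theorem coindEval_injective : Function.Injective (coindEval U ρ) := by
  rw [injective_iff_map_eq_zero]
  intro F hF
  apply Subtype.ext
  funext y
  obtain ⟨u, hu⟩ := QuotientGroup.mk_out_eq_mul U y⁻¹
  have h1 : y = (u : G) * ((y⁻¹ : G) : G ⧸ U).out⁻¹ := by
    rw [hu, mul_inv_rev, inv_inv, ← mul_assoc, mul_inv_cancel, one_mul]
  have h2 : (F : G → W) (((y⁻¹ : G) : G ⧸ U).out⁻¹) = 0 := congrFun hF _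
  rw [h1, coindV_apply_mul, h2, map_zero]
  rfl

theorem coind_finite [Finite (G ⧸ U)] [Module.Finite k W] :
    Module.Finite k (Representation.coindV U.subtype ρ) :=
  Module.Finite.of_injective (coindEval U ρ) (coindEval_injective U ρ)

theorem coind_trivial_of_normal (N : Subgroup G) [N.Normal] (hNU : N ≤ U)
    (hN : ∀ (n : G) (hn : n ∈ N), ρ ⟨n, hNU hn⟩ = 1) (n : G) (hn : n ∈ N) :
    Representation.coind U.subtype ρ n = 1 := by
  refine LinearMap.ext fun F => Subtype.ext (funext fun x => ?_)
  rw [coind_val_apply]
  have hc : x * n * x⁻¹ ∈ N := Subgroup.Normal.conj_mem ‹N.Normal› n hn x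
  have h1 : x * n = ((⟨x * n * x⁻¹, hNU hc⟩ : U) : G) * x := by
    simp
  rw [h1, coindV_apply_mul, hN _ hc]
  rfl

end Good

section Retract

variable (M : Rep.{0} k G)

/-- the unit `M → T (res M)`, `m ↦ (x ↦ x m)` -/
def retractI : M.ρ.IntertwiningMap (Representation.coind U.subtype (M.ρ.comp U.subtype)) where
  toLinearMap := LinearMap.codRestrict _
    { toFun := fun m => fun x => M.ρ x m
      map_add' := fun a b => by funext x; simp
      map_smul' := fun c a => by funext x; simp }
    (fun m u x => by
      show M.ρ ((u : G) * x) m = M.ρ (u : G) (M.ρ x m)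
      rw [map_mul]; rfl)
  isIntertwining' g := by
    refine LinearMap.ext fun m => Subtype.ext (funext fun x => ?_)
    rw [LinearMap.comp_apply, LinearMap.comp_apply, coind_val_apply]
    show M.ρ x (M.ρ g m) = M.ρ (x * g) m
    rw [map_mul]; rfl

theorem retractI_apply (m : M) (x : G) :
    ((retractI U M m : Representation.coindV U.subtype (M.ρ.comp U.subtype)) : G → M) x =
      M.ρ x m := rfl

/-- the summand `y F(y⁻¹)` -/
def retractTerm (F : Representation.coindV U.subtype (M.ρ.comp U.subtype)) (q : G ⧸ U) : M :=
  M.ρ q.out ((F : G → M) (q.out⁻¹))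

theorem retractTerm_mk (F : Representation.coindV U.subtype (M.ρ.comp U.subtype)) (y : G) :
    retractTerm U M F (y : G ⧸ U) = M.ρ y ((F : G → M) y⁻¹) := by
  obtain ⟨u, hu⟩ := QuotientGroup.mk_out_eq_mul U y
  rw [retractTerm, hu, mul_inv_rev]
  have h1 := coindV_apply_mul U (M.ρ.comp U.subtype) F u⁻¹ y⁻¹
  rw [show ((u⁻¹ : U) : G) = (u : G)⁻¹ from rfl] at h1
  rw [h1]
  show M.ρ (y * u) (M.ρ ((u⁻¹ : U) : G) ((F : G → M) y⁻¹)) = _
  rw [← Module.End.mul_apply, ← map_mul]
  congr 2
  simp

theorem retractTerm_add (F F' : Representation.coindV U.subtype (M.ρ.comp U.subtype))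
    (q : G ⧸ U) :
    retractTerm U M (F + F') q = retractTerm U M F q + retractTerm U M F' q := by
  simp [retractTerm]

theorem retractTerm_smul (a : k) (F : Representation.coindV U.subtype (M.ρ.comp U.subtype))
    (q : G ⧸ U) :
    retractTerm U M (a • F) q = a • retractTerm U M F q := by
  simp [retractTerm]

variable [Fintype (G ⧸ U)]

/-- the averaging map `T (res M) → M`, `F ↦ c ∑_{yU} y F(y⁻¹)` -/
def retractR (c : k) :
    (Representation.coind U.subtype (M.ρ.comp U.subtype)).IntertwiningMap M.ρ where
  toLinearMap :=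
    { toFun := fun F => c • ∑ q : G ⧸ U, retractTerm U M F q
      map_add' := fun F F' => by
        simp only [retractTerm_add]
        rw [Finset.sum_add_distrib, smul_add]
      map_smul' := fun a F => by
        simp only [retractTerm_smul]
        rw [← Finset.smul_sum, smul_comm]
        rfl }
  isIntertwining' g := by
    refine LinearMap.ext fun F => ?_
    rw [LinearMap.comp_apply, LinearMap.comp_apply]
    show c • ∑ q : G ⧸ U,
        retractTerm U M (Representation.coind U.subtype (M.ρ.comp U.subtype) g F) q =
      M.ρ g (c • ∑ q : G ⧸ U, retractTerm U M F q)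
    rw [map_smul, map_sum]
    congr 1
    rw [← Equiv.sum_comp (MulAction.toPerm g : Equiv.Perm (G ⧸ U))]
    refine Finset.sum_congr rfl fun q _ => ?_
    obtain ⟨y, rfl⟩ := QuotientGroup.mk_surjective q
    rw [MulAction.toPerm_apply, retractTerm_mk]
    show retractTerm U M _ ((g * y : G) : G ⧸ U) = _
    rw [retractTerm_mk, coind_val_apply, mul_inv_rev, inv_mul_cancel_right, map_mul]
    rfl

theorem retractR_retractI (c : k) (hc : c * (Fintype.card (G ⧸ U) : k) = 1) (m : M) :
    retractR U M c (retractI U M m) = m := by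
  show c • ∑ q : G ⧸ U, retractTerm U M (retractI U M m) q = m
  have h1 : ∀ q : G ⧸ U, retractTerm U M (retractI U M m) q = m := by
    intro q
    rw [retractTerm, retractI_apply, ← Module.End.mul_apply, ← map_mul, mul_inv_cancel, map_one]
    rfl
  rw [Finset.sum_congr rfl (fun q _ => h1 q), Finset.sum_const, Finset.card_univ,
    ← Nat.cast_smul_eq_nsmul k, smul_smul, hc, one_smul]

end Retract

end Fermat.Agent.H42.Cft
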