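/-
P-CFT, row CFT-F3 (helper42): the permutation-module induction principle
`Fermat.Agent.H76.Cft.PermInductionStatement`.

Let `U` be the preimage in `G` of a Sylow `p`-subgroup of `G/N`.
(1) For every finite-dimensional representation `W` of `U` trivial on `N`, the coinduced module
    `T W` lies in `C`: induction on `dim W`, using a nonzero `U`-fixed vector `w` and the short
    exact sequence `0 → 𝔽_p[G/U] → T W → T (W / w) → 0`.
(2) Every good `M` is a retract of `T (res M)` because `[G : U]` is invertible in `𝔽_p`.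
-/
import Mathlib
import Fermat.Agent.H42.CftPermCore
import Fermat.Agent.H76.Cft.Interfaces

set_option autoImplicit false

noncomputable section

open CategoryTheory Fermat.Agent.H76.Cft

namespace Fermat.Agent.H42.Cft

variable {p : ℕ} [Fact p.Prime] {G : Type} [Group G]

/-- good representations of the subgroup `U` -/
def IsGoodU (N U : Subgroup G) (hNU : N ≤ U) (W : Rep.{0} (ZMod p) U) : Prop :=
  Module.Finite (ZMod p) W ∧ ∀ (n : G) (hn : n ∈ N), W.ρ ⟨n, hNU hn⟩ = 1

section FixedVector

variable (N U : Subgroup G) [N.Normal] (hNU : N ≤ U)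

include hNU in
/-- a `p`-group acting on a nonzero finite `𝔽_p`-vector space has a nonzero fixed vector -/
theorem exists_fixed_vector (m : ℕ) (hidx : (N.subgroupOf U).index = p ^ m)
    (W : Rep.{0} (ZMod p) U) (hW : IsGoodU N U hNU W) (hne : Nontrivial W) :
    ∃ w : W, w ≠ 0 ∧ ∀ u : U, W.ρ u w = w := by
  obtain ⟨hfin, htriv⟩ := hW
  haveI : Module.Finite (ZMod p) W := hfin
  haveI : (N.subgroupOf U).Normal := Subgroup.normal_subgroupOf
  haveI : Representation.IsTrivial (W.ρ.comp (N.subgroupOf U).subtype) :=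
    ⟨fun s => by
      have hs : ((s : U) : G) ∈ N := Subgroup.mem_subgroupOf.mp s.2
      exact htriv _ hs⟩
  let ρQ : Representation (ZMod p) (U ⧸ N.subgroupOf U) W := W.ρ.ofQuotient (N.subgroupOf U)
  letI : MulAction (U ⧸ N.subgroupOf U) W :=
    { smul := fun q v => ρQ q v
      one_smul := fun v => by show ρQ 1 v = v; rw [map_one]; rfl
      mul_smul := fun a b v => by show ρQ (a * b) v = ρQ a (ρQ b v); rw [map_mul]; rfl }
  have hP : IsPGroup p (U ⧸ N.subgroupOf U) := by
    apply IsPGroup.of_card (n := m)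
    rw [← Subgroup.index_eq_card, hidx]
  haveI : Finite W := Module.finite_of_finite (ZMod p)
  have hcard : p ∣ Nat.card W := by
    rw [Module.natCard_eq_pow_finrank (K := ZMod p) (V := W), Nat.card_zmod]
    exact dvd_pow_self p (Module.finrank_pos (R := ZMod p) (M := W)).ne'
  have h0 : (0 : W) ∈ MulAction.fixedPoints (U ⧸ N.subgroupOf U) W := by
    rw [MulAction.mem_fixedPoints]
    intro q
    show ρQ q 0 = 0
    exact map_zero _
  obtain ⟨b, hb, hb0⟩ := hP.exists_fixed_point_of_prime_dvd_card_of_fixed_point W hcard h0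
  refine ⟨b, fun h => hb0 h.symm, fun u => ?_⟩
  rw [MulAction.mem_fixedPoints] at hb
  exact hb (u : U ⧸ N.subgroupOf U)

end FixedVector

section Good

variable (N U : Subgroup G) [N.Normal] (hNU : N ≤ U)

include hNU in
theorem isGoodRep_coind [U.FiniteIndex] (W : Rep.{0} (ZMod p) U) (hW : IsGoodU N U hNU W) :
    IsGoodRep N (Rep.coind U.subtype W) := by
  obtain ⟨hfin, htriv⟩ := hW
  haveI : Module.Finite (ZMod p) W := hfin
  haveI : Finite (G ⧸ U) := Subgroup.finite_quotient_of_finiteIndex
  exact ⟨coind_finite U W.ρ, fun n hn => coind_trivial_of_normal U W.ρ N hNU htriv n hn⟩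

include hNU in
theorem isGoodRep_perm [U.FiniteIndex] :
    IsGoodRep (p := p) N (Rep.ofMulAction (ZMod p) G (G ⧸ U)) := by
  haveI : Finite (G ⧸ U) := Subgroup.finite_quotient_of_finiteIndex
  refine ⟨inferInstanceAs (Module.Finite (ZMod p) (MonoidAlgebra (ZMod p) (G ⧸ U))), ?_⟩
  intro n hn
  refine LinearMap.ext fun a => MonoidAlgebra.coeff_injective (Finsupp.ext fun q => ?_)
  show ((Representation.ofMulAction (ZMod p) G (G ⧸ U) n) a).coeff q = a.coeff q
  rw [Representation.coeff_ofMulAction]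
  congr 1
  obtain ⟨x, rfl⟩ := QuotientGroup.mk_surjective q
  show ((n⁻¹ * x : G) : G ⧸ U) = (x : G ⧸ U)
  rw [QuotientGroup.eq]
  have h1 : (n⁻¹ * x)⁻¹ * x = x⁻¹ * n * x := by group
  rw [h1]
  have h2 : x⁻¹ * n * x⁻¹⁻¹ ∈ N := Subgroup.Normal.conj_mem ‹N.Normal› n hn x⁻¹
  rw [inv_inv] at h2
  exact hNU h2

omit [N.Normal] in
include hNU in
theorem isGoodU_quotFixed (W : Rep.{0} (ZMod p) U) (hW : IsGoodU N U hNU W) (w : W)
    (hw : ∀ u : U, W.ρ u w = w) : IsGoodU N U hNU (quotFixed U W w hw) := by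
  obtain ⟨hfin, htriv⟩ := hW
  haveI : Module.Finite (ZMod p) W := hfin
  refine ⟨inferInstanceAs (Module.Finite (ZMod p) (W ⧸ Submodule.span (ZMod p) {w})), ?_⟩
  intro n hn
  refine LinearMap.ext fun x => ?_
  obtain ⟨y, rfl⟩ := Submodule.Quotient.mk_surjective _ x
  show Submodule.Quotient.mk (W.ρ ⟨n, hNU hn⟩ y) = Submodule.Quotient.mk y
  rw [htriv n hn]
  rfl

theorem finrank_quotFixed (W : Rep.{0} (ZMod p) U) [Module.Finite (ZMod p) W] (w : W)
    (hw0 : w ≠ 0) (hw : ∀ u : U, W.ρ u w = w) (d : ℕ)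
    (hd : Module.finrank (ZMod p) W = d + 1) :
    Module.finrank (ZMod p) (quotFixed U W w hw) = d := by
  have h1 := Submodule.finrank_quotient_add_finrank (Submodule.span (ZMod p) {w})
  rw [finrank_span_singleton hw0, hd] at h1
  exact Nat.succ_injective h1

end Good

section Main

variable (N : Subgroup G) [N.Normal] (C : Rep.{0} (ZMod p) G → Prop)
  (hext : ∀ X : ShortComplex (Rep.{0} (ZMod p) G), X.ShortExact → IsGoodRep N X.X₂ →
      C X.X₁ → C X.X₃ → C X.X₂)
  (hret : ∀ (M M' : Rep.{0} (ZMod p) G) (i : M ⟶ M') (r : M' ⟶ M), i ≫ r = 𝟙 M →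
      IsGoodRep N M' → C M' → C M)

include hext hret in
/-- step (1): all coinduced modules of good `U`-modules lie in `C` -/
theorem coind_mem (U : Subgroup G) [U.FiniteIndex] (hNU : N ≤ U) (m : ℕ)
    (hidx : (N.subgroupOf U).index = p ^ m)
    (hperm : C (Rep.ofMulAction (ZMod p) G (G ⧸ U))) :
    ∀ (d : ℕ) (W : Rep.{0} (ZMod p) U), IsGoodU N U hNU W →
      Module.finrank (ZMod p) W = d → C (Rep.coind U.subtype W)
  | 0, W, hW, hd => by
      haveI : Module.Finite (ZMod p) W := hW.1
      have hsub : Subsingleton W := Module.finrank_zero_iff.mp hd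
      refine hret (Rep.coind U.subtype W) (Rep.ofMulAction (ZMod p) G (G ⧸ U)) 0 0 ?_
        (isGoodRep_perm N U hNU) hperm
      refine Rep.hom_ext (Representation.IntertwiningMap.ext
        (LinearMap.ext fun F => Subtype.ext (funext fun y => ?_)))
      exact Subsingleton.elim _ _
  | d + 1, W, hW, hd => by
      haveI : Module.Finite (ZMod p) W := hW.1
      have hne : Nontrivial W := Module.nontrivial_of_finrank_pos (R := ZMod p) (by omega)
      obtain ⟨w, hw0, hw⟩ := exists_fixed_vector N U hNU m hidx W hW hne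
      have h3 := coind_mem U hNU m hidx hperm d (quotFixed U W w hw)
        (isGoodU_quotFixed N U hNU W hW w hw) (finrank_quotFixed U W w hw0 hw d hd)
      exact hext (permShortComplex U W w hw) (permShortComplex_shortExact U W w hw hw0)
        (isGoodRep_coind N U hNU W hW) hperm h3

end Main

/-- **CFT-F3**: the permutation-module induction principle. -/
theorem permInduction : PermInductionStatement := by
  intro p _ G _ N _ _ C _ hext hret hperm M hM
  haveI : Finite (G ⧸ N) := Subgroup.finite_quotient_of_finiteIndex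
  obtain ⟨P⟩ : Nonempty (Sylow p (G ⧸ N)) := inferInstance
  set U : Subgroup G := (P : Subgroup (G ⧸ N)).comap (QuotientGroup.mk' N) with hU
  have hNU : N ≤ U := by
    intro n hn
    rw [hU, Subgroup.mem_comap]
    have : QuotientGroup.mk' N n = 1 := (QuotientGroup.eq_one_iff n).mpr hn
    rw [this]
    exact Subgroup.one_mem _
  have hUidx : U.index = (P : Subgroup (G ⧸ N)).index :=
    Subgroup.index_comap_of_surjective _ (QuotientGroup.mk'_surjective N)
  have hPidx : (P : Subgroup (G ⧸ N)).index ≠ 0 := Subgroup.index_ne_zero_of_finite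
  haveI : U.FiniteIndex := ⟨by rw [hUidx]; exact hPidx⟩
  have hcop : Nat.Coprime p U.index := by
    rw [hUidx]
    exact (Nat.Prime.coprime_iff_not_dvd Fact.out).mpr P.not_dvd_index
  obtain ⟨m, hm⟩ : ∃ n : ℕ, (N.subgroupOf U).index = p ^ n := by
    obtain ⟨n, hn⟩ := (IsPGroup.iff_card (p := p)).mp P.isPGroup'
    refine ⟨n, ?_⟩
    have h1 : N.relIndex U * U.index = N.index := Subgroup.relIndex_mul_index hNU
    have h2 : Nat.card (P : Subgroup (G ⧸ N)) * (P : Subgroup (G ⧸ N)).index =
        Nat.card (G ⧸ N) := Subgroup.card_mul_index _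
    rw [← Subgroup.index_eq_card, ← h1, hUidx] at h2
    have h3 := Nat.eq_of_mul_eq_mul_right (Nat.pos_of_ne_zero hPidx) h2
    show N.relIndex U = p ^ n
    rw [← h3, hn]
  have hpermU := hperm U hNU hcop ⟨m, hm⟩
  have hW : IsGoodU N U hNU (Rep.res U.subtype M) := ⟨hM.1, fun n hn => hM.2 n hn⟩
  have hT := coind_mem N C hext hret U hNU m hm hpermU _ (Rep.res U.subtype M) hW rfl
  letI : Fintype (G ⧸ U) := Fintype.ofFinite _
  have hcard : (Fintype.card (G ⧸ U) : ZMod p) ≠ 0 := by
    rw [← Nat.card_eq_fintype_card, ← Subgroup.index_eq_card, Ne, ZMod.natCast_eq_zero_iff]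
    exact (Nat.Prime.coprime_iff_not_dvd Fact.out).mp hcop
  refine hret M (Rep.coind U.subtype (Rep.res U.subtype M))
    (ConcreteCategory.ofHom (C := Rep.{0} (ZMod p) G) (retractI U M))
    (ConcreteCategory.ofHom (C := Rep.{0} (ZMod p) G)
      (retractR U M (Fintype.card (G ⧸ U) : ZMod p)⁻¹)) ?_
    (isGoodRep_coind N U hNU _ hW) hT
  refine Rep.hom_ext (Representation.IntertwiningMap.ext (LinearMap.ext fun x => ?_))
  exact retractR_retractI U M _ (inv_mul_cancel₀ hcard) x

end Fermat.Agent.H42.Cft
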