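import Mathlib.NumberTheory.ModularForms.CongruenceSubgroups
import Mathlib.GroupTheory.GroupAction.Quotient
import Mathlib.SetTheory.Cardinal.Finite
import Fermat.Prelude.Def_ModularCurve_GenusNumerics

/-!
# Fixed points of `S` and `S * T` on `SL(2, ℤ) ⧸ Γ₀(N)`

For `γ ∈ SL(2, ℤ)` with upper right entry `-1`, the fixed points of `γ` acting by left
multiplication on `SL(2, ℤ) ⧸ Γ₀(N)` are in bijection with the roots in `ZMod N` of
`x ^ 2 + (γ₁₁ - γ₀₀) x + γ₁₀`.  For `γ = S` and `γ = S * T` this gives the numbers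
`nuTwo N` and `nuThree N` of the genus formula.
-/

set_option autoImplicit false

open CongruenceSubgroup MatrixGroups Matrix

namespace Fermat.Agent.H42

/-- The lower unipotent matrix `[[1, 0], [m, 1]]`. -/
def lowerUni (m : ℤ) : SL(2, ℤ) :=
  ⟨!![1, 0; m, 1], by simp [Matrix.det_fin_two_of]⟩

@[simp] lemma lowerUni_apply_zero_zero (m : ℤ) : lowerUni m 0 0 = 1 := rfl
@[simp] lemma lowerUni_apply_zero_one (m : ℤ) : lowerUni m 0 1 = 0 := rfl
@[simp] lemma lowerUni_apply_one_zero (m : ℤ) : lowerUni m 1 0 = m := rfl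
@[simp] lemma lowerUni_apply_one_one (m : ℤ) : lowerUni m 1 1 = 1 := rfl

/-- The lower left entry of `g⁻¹ * h`. -/
lemma inv_mul_apply_one_zero (g h : SL(2, ℤ)) :
    (g⁻¹ * h) 1 0 = g 0 0 * h 1 0 - g 1 0 * h 0 0 := by
  rw [Matrix.SpecialLinearGroup.coe_mul, Matrix.SpecialLinearGroup.coe_inv,
    Matrix.adjugate_fin_two, Matrix.mul_apply, Fin.sum_univ_two]
  simp
  ring

/-- The lower left entry of `g⁻¹ * γ * g`. -/
lemma conj_apply_one_zero (γ g : SL(2, ℤ)) :
    (g⁻¹ * (γ * g)) 1 0 =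
      γ 1 0 * g 0 0 ^ 2 + (γ 1 1 - γ 0 0) * (g 0 0 * g 1 0) - γ 0 1 * g 1 0 ^ 2 := by
  rw [inv_mul_apply_one_zero, Matrix.SpecialLinearGroup.coe_mul, Matrix.mul_apply,
    Matrix.mul_apply, Fin.sum_univ_two, Fin.sum_univ_two]
  ring

lemma det_eq_one' (g : SL(2, ℤ)) : g 0 0 * g 1 1 - g 0 1 * g 1 0 = 1 := by
  have h := g.det_coe
  rw [Matrix.det_fin_two] at h
  exact h

lemma smul_mk_eq_mk_iff (N : ℕ) (γ g : SL(2, ℤ)) :
    γ • (g : SL(2, ℤ) ⧸ Gamma0 N) = (g : SL(2, ℤ) ⧸ Gamma0 N) ↔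
      ((γ 1 0 * g 0 0 ^ 2 + (γ 1 1 - γ 0 0) * (g 0 0 * g 1 0) - γ 0 1 * g 1 0 ^ 2 : ℤ) :
        ZMod N) = 0 := by
  rw [MulAction.Quotient.smul_mk, eq_comm, QuotientGroup.eq, smul_eq_mul, Gamma0_mem,
    conj_apply_one_zero]

lemma mk_lowerUni_eq_iff (N : ℕ) (m n : ℤ) :
    (lowerUni m : SL(2, ℤ) ⧸ Gamma0 N) = (lowerUni n : SL(2, ℤ) ⧸ Gamma0 N) ↔
      (m : ZMod N) = (n : ZMod N) := by
  rw [QuotientGroup.eq, Gamma0_mem, inv_mul_apply_one_zero]
  simp only [lowerUni_apply_zero_zero, lowerUni_apply_one_zero, one_mul, mul_one]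
  push_cast
  rw [sub_eq_zero, eq_comm]

/-- The fixed points of `γ` on `SL(2, ℤ) ⧸ Γ₀(N)` when `γ 0 1 = -1`. -/
theorem card_fixed_of_apply_zero_one (N : ℕ) (γ : SL(2, ℤ)) (hγ : γ 0 1 = -1) :
    Nat.card {q : SL(2, ℤ) ⧸ Gamma0 N // γ • q = q} =
      Nat.card {x : ZMod N //
        x ^ 2 + ((γ 1 1 - γ 0 0 : ℤ) : ZMod N) * x + ((γ 1 0 : ℤ) : ZMod N) = 0} := by
  symm
  refine Nat.card_congr (Equiv.ofBijective
    (fun x => ⟨(lowerUni (x.1.cast : ℤ) : SL(2, ℤ) ⧸ Gamma0 N), ?_⟩) ⟨?_, ?_⟩)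
  · rw [smul_mk_eq_mk_iff, hγ]
    simp only [lowerUni_apply_zero_zero, lowerUni_apply_one_zero]
    push_cast
    have h := x.2
    push_cast at h
    linear_combination h
  · rintro ⟨x, hx⟩ ⟨y, hy⟩ h
    simp only [Subtype.mk.injEq] at h
    rw [mk_lowerUni_eq_iff, ZMod.intCast_cast, ZMod.intCast_cast, ZMod.cast_id', id, id] at h
    exact Subtype.ext h
  · rintro ⟨q, hq⟩
    induction q using QuotientGroup.induction_on with
    | H g =>
      rw [smul_mk_eq_mk_iff, hγ] at hq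
      push_cast at hq
      have hdet : ((g 0 0 : ℤ) : ZMod N) * (g 1 1 : ℤ) - (g 0 1 : ℤ) * (g 1 0 : ℤ) = 1 := by
        have := congrArg (Int.cast : ℤ → ZMod N) (det_eq_one' g)
        push_cast at this
        exact this
      set a : ZMod N := ((g 0 0 : ℤ) : ZMod N) with ha
      set b : ZMod N := ((g 0 1 : ℤ) : ZMod N) with hb
      set c : ZMod N := ((g 1 0 : ℤ) : ZMod N) with hc
      set d : ZMod N := ((g 1 1 : ℤ) : ZMod N) with hd
      set r : ZMod N := ((γ 1 0 : ℤ) : ZMod N) with hr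
      set t : ZMod N := ((γ 1 1 : ℤ) : ZMod N) - ((γ 0 0 : ℤ) : ZMod N) with ht
      -- the root
      set m : ZMod N := c * d + b * (r * a + t * c) with hm
      have hcm : c = a * m := by
        rw [hm]
        linear_combination (-c) * hdet - b * hq
      have hinv : a * (d - b * m) = 1 := by
        linear_combination hdet + b * hcm
      have hroot : m ^ 2 + t * m + r = 0 := by
        have h1 : a ^ 2 * (m ^ 2 + t * m + r) = 0 := by
          linear_combination hq + (- a * m - c - t * a) * hcm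
        have h2 : (a * (d - b * m)) ^ 2 * (m ^ 2 + t * m + r) = 0 := by
          linear_combination (d - b * m) ^ 2 * h1
        rwa [hinv, one_pow, one_mul] at h2
      refine ⟨⟨m, ?_⟩, ?_⟩
      · push_cast
        exact hroot
      · apply Subtype.ext
        simp only
        rw [QuotientGroup.eq, Gamma0_mem, inv_mul_apply_one_zero]
        simp only [lowerUni_apply_zero_zero, lowerUni_apply_one_zero, one_mul]
        push_cast
        linear_combination hcm

/-- **DIM-2**: the number of fixed points of `S` on `SL(2, ℤ) ⧸ Γ₀(N)` is `nuTwo N`. -/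
theorem card_fixed_S (N : ℕ) [NeZero N] :
    Nat.card {q : SL(2, ℤ) ⧸ Gamma0 N // ModularGroup.S • q = q} = ModularCurve.nuTwo N := by
  rw [card_fixed_of_apply_zero_one N ModularGroup.S rfl, ModularCurve.nuTwo]
  refine Nat.card_congr (Equiv.subtypeEquivRight fun x => ?_)
  have h1 : ModularGroup.S 1 1 = 0 := rfl
  have h2 : ModularGroup.S 0 0 = 0 := rfl
  have h3 : ModularGroup.S 1 0 = 1 := rfl
  rw [h1, h2, h3]
  simp

/-- **DIM-3**: the number of fixed points of `S * T` on `SL(2, ℤ) ⧸ Γ₀(N)` is `nuThree N`. -/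
theorem card_fixed_ST (N : ℕ) [NeZero N] :
    Nat.card {q : SL(2, ℤ) ⧸ Gamma0 N // (ModularGroup.S * ModularGroup.T) • q = q} =
      ModularCurve.nuThree N := by
  have h0 : (ModularGroup.S * ModularGroup.T) 0 1 = -1 := by decide
  have h1 : (ModularGroup.S * ModularGroup.T) 1 1 = 1 := by decide
  have h2 : (ModularGroup.S * ModularGroup.T) 0 0 = 0 := by decide
  have h3 : (ModularGroup.S * ModularGroup.T) 1 0 = 1 := by decide
  rw [card_fixed_of_apply_zero_one N _ h0, ModularCurve.nuThree]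
  refine Nat.card_congr (Equiv.subtypeEquivRight fun x => ?_)
  rw [h1, h2, h3]
  simp

end Fermat.Agent.H42
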