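/-
P-FF, FF-C (row 509), helper42: facts about a place `A` of an algebraic extension of `ℚ`
(decomposition group, inertia group, archimedean property) used by the sup-norm closure.
-/
import Mathlib
import Fermat.Prelude.Def_FLTPrelim_Ramification

set_option autoImplicit false

noncomputable section

namespace Fermat.Agent.H42.FFC

open ValuationSubring
open scoped Pointwise

section Place

variable {K L : Type*} [Field K] [Field L] [Algebra K L]

/-- (D1) the decomposition group preserves the valuation ring -/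
theorem dec_apply_mem (A : ValuationSubring L) {σ : L ≃ₐ[K] L}
    (hσ : σ ∈ A.decompositionSubgroup K) {x : L} (hx : x ∈ A) : σ x ∈ A := by
  have h : σ • A = A := hσ
  have h1 : σ • x ∈ σ • A := ValuationSubring.smul_mem_pointwise_smul σ x A hx
  rw [h] at h1
  exact h1

/-- (D2) the inertia group is contained in the decomposition group -/
theorem inertiaIn_le_dec (A : ValuationSubring L) :
    A.inertiaSubgroupIn K ≤ A.decompositionSubgroup K := by
  rintro σ ⟨τ, _, rfl⟩
  exact τ.2

/-- (D3) the inertia group is normalised by the decomposition group -/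
theorem inertiaIn_conj_mem (A : ValuationSubring L) {σ τ : L ≃ₐ[K] L}
    (hσ : σ ∈ A.decompositionSubgroup K) (hτ : τ ∈ A.inertiaSubgroupIn K) :
    σ⁻¹ * τ * σ ∈ A.inertiaSubgroupIn K := by
  obtain ⟨τ', hτ', rfl⟩ := hτ
  have hn : (A.inertiaSubgroup K).Normal := by
    unfold ValuationSubring.inertiaSubgroup
    infer_instance
  have h1 : (⟨σ, hσ⟩ : A.decompositionSubgroup K)⁻¹ * τ' * (⟨σ, hσ⟩⁻¹)⁻¹ ∈
      A.inertiaSubgroup K := hn.conj_mem τ' hτ' _
  refine ⟨_, h1, ?_⟩
  simp

end Place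

section Arch

variable {L : Type*} [Field L] [CharZero L]

omit [CharZero L] in
/-- integers prime to `ℓ` are units of `A` -/
theorem intCast_inv_mem (A : ValuationSubring L) {ℓ : ℕ} (hℓ : ℓ.Prime)
    (hA : A.LiesOverPrime ℓ) {m : ℤ} (hm : ¬ (ℓ : ℤ) ∣ m) : ((m : L))⁻¹ ∈ A := by
  by_contra hinv
  have hv : A.valuation (m : L) < 1 := by
    by_contra hge
    rw [not_lt] at hge
    apply hinv
    rw [← ValuationSubring.valuation_le_one_iff, map_inv₀]
    exact inv_le_one_of_one_le₀ hge
  have hvl : A.valuation (ℓ : L) < 1 := (ValuationSubring.mem_nonunits_iff (A := A)).mp hA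
  have hcop : IsCoprime m (ℓ : ℤ) := by
    have hp : Prime (ℓ : ℤ) := Nat.prime_iff_prime_int.mp hℓ
    exact ((Prime.coprime_iff_not_dvd hp).mpr hm).symm
  obtain ⟨u, w, huw⟩ := hcop
  have hint : ∀ k : ℤ, A.valuation (k : L) ≤ 1 := fun k =>
    (ValuationSubring.valuation_le_one_iff A _).mpr (intCast_mem A k)
  have h1 : A.valuation ((u : L) * (m : L)) < 1 := by
    rw [map_mul]
    exact mul_lt_one_of_nonneg_of_lt_one_right (hint u) zero_le hv
  have h2 : A.valuation ((w : L) * (ℓ : L)) < 1 := by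
    rw [map_mul]
    exact mul_lt_one_of_nonneg_of_lt_one_right (hint w) zero_le hvl
  have h3 := Valuation.map_add_lt A.valuation h1 h2
  have h4 : (u : L) * (m : L) + (w : L) * (ℓ : L) = 1 := by
    have := congrArg (fun k : ℤ => (k : L)) huw
    simpa using this
  rw [h4, map_one] at h3
  exact lt_irrefl _ h3

/-- (D4) every nonzero element of `A` divides a power of `ℓ` -/
theorem exists_pow_eq_mul (A : ValuationSubring L) {ℓ : ℕ} (hℓ : ℓ.Prime)
    (hA : A.LiesOverPrime ℓ) (halg : ∀ x : L, IsAlgebraic ℤ x) {d : L} (hd : d ≠ 0) : ∃ M : ℕ, ∃ a ∈ A, (ℓ : L) ^ M = d * a := by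
  obtain ⟨n, hn0, hn⟩ := (halg d⁻¹).exists_integral_multiple
  have hint : IsIntegral A (n • d⁻¹) := hn.tower_top
  obtain ⟨y, hy⟩ := (IsIntegrallyClosed.isIntegral_iff (R := A) (K := L)).mp hint
  have hy' : (y : L) = n • d⁻¹ := hy
  have hyA : (n : L) * d⁻¹ ∈ A := by
    have := y.2
    rw [hy', zsmul_eq_mul] at this
    exact this
  have hnat : n.natAbs ≠ 0 := Int.natAbs_ne_zero.mpr hn0
  obtain ⟨e, n', hn', hnn'⟩ := Nat.exists_eq_pow_mul_and_not_dvd hnat ℓ hℓ.ne_one
  have hu : (((n' : ℤ) : L))⁻¹ ∈ A := intCast_inv_mem A hℓ hA (by exact_mod_cast hn')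
  have hn'0 : ((n' : ℤ) : L) ≠ 0 := by
    intro h
    have h0 : n' = 0 := by exact_mod_cast h
    rw [h0] at hn'
    exact hn' (dvd_zero _)
  have habs : ((n.natAbs : ℕ) : L) = (ℓ : L) ^ e * ((n' : ℤ) : L) := by
    rw [hnn']
    push_cast
    ring
  have habsA : ((n.natAbs : ℕ) : L) * d⁻¹ ∈ A := by
    rcases Int.natAbs_eq n with h | h
    · have : ((n.natAbs : ℕ) : L) = (n : L) := by
        conv_rhs => rw [h]
        simp
      rw [this]
      exact hyA
    · have : ((n.natAbs : ℕ) : L) = -(n : L) := by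
        conv_rhs => rw [h]
        simp
      rw [this, neg_mul]
      exact A.neg_mem _ hyA
  refine ⟨e, ((n.natAbs : ℕ) : L) * d⁻¹ * (((n' : ℤ) : L))⁻¹, A.mul_mem _ _ habsA hu, ?_⟩
  rw [habs]
  field_simp

theorem isAlgebraic_int_algebraicClosure (x : AlgebraicClosure ℚ) : IsAlgebraic ℤ x := by
  have h1 : IsAlgebraic ℚ x := (AlgebraicClosure.isAlgebraic ℚ).isAlgebraic x
  exact (IsFractionRing.isAlgebraic_iff ℤ ℚ (AlgebraicClosure ℚ)).mpr h1

end Arch

end Fermat.Agent.H42.FFC
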