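/-
P-FF, FF-C (row 509), helper42: pure algebra core, part 1 (Mathlib only).

* `tensSubring Hu` : the subring of functions on `Z × Z` which are finite sums of pure tensors
  `a ⊗ b`, `a, b ∈ Hu`;
* `exists_matrix_of_separates` : a subring of `Z → K` (`Z` finite, `K` a field) separating
  points contains `|Z|` functions whose value matrix is invertible;
* `cramer_tens` : the Cramer argument: an equivariant function on `Z × Z` whose values are
  sufficiently divisible is a sum of pure tensors.
-/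
import Mathlib

set_option autoImplicit false

noncomputable section

namespace Fermat.Agent.H42.FFC

open scoped BigOperators

section Tens

variable {Z : Type} {K : Type} [CommRing K]

/-- `f` is a finite sum of pure tensors of elements of `Hu`. -/
def IsTens (Hu : Subring (Z → K)) (f : Z × Z → K) : Prop :=
  ∃ (ι : Type) (_ : Fintype ι) (a b : ι → Z → K), (∀ i, a i ∈ Hu) ∧ (∀ i, b i ∈ Hu) ∧
    ∀ w : Z × Z, f w = ∑ i, a i w.1 * b i w.2

theorem isTens_pure (Hu : Subring (Z → K)) {a b : Z → K} (ha : a ∈ Hu) (hb : b ∈ Hu) :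
    IsTens Hu (fun w => a w.1 * b w.2) :=
  ⟨Unit, inferInstance, fun _ => a, fun _ => b, fun _ => ha, fun _ => hb, fun w => by simp⟩

theorem isTens_zero (Hu : Subring (Z → K)) : IsTens Hu 0 :=
  ⟨Empty, inferInstance, fun _ => 0, fun _ => 0, fun _ => Hu.zero_mem, fun _ => Hu.zero_mem,
    fun w => by simp⟩

theorem isTens_one (Hu : Subring (Z → K)) : IsTens Hu 1 :=
  ⟨Unit, inferInstance, fun _ => 1, fun _ => 1, fun _ => Hu.one_mem, fun _ => Hu.one_mem,
    fun w => by simp⟩

theorem isTens_add (Hu : Subring (Z → K)) {f f' : Z × Z → K} (hf : IsTens Hu f)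
    (hf' : IsTens Hu f') : IsTens Hu (f + f') := by
  obtain ⟨ι, _, a, b, ha, hb, h⟩ := hf
  obtain ⟨ι', _, a', b', ha', hb', h'⟩ := hf'
  refine ⟨ι ⊕ ι', inferInstance, Sum.elim a a', Sum.elim b b', ?_, ?_, ?_⟩
  · rintro (i | i)
    · exact ha i
    · exact ha' i
  · rintro (i | i)
    · exact hb i
    · exact hb' i
  · intro w
    rw [Fintype.sum_sum_type, Pi.add_apply, h w, h' w]
    simp

theorem isTens_neg (Hu : Subring (Z → K)) {f : Z × Z → K} (hf : IsTens Hu f) :
    IsTens Hu (-f) := by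
  obtain ⟨ι, _, a, b, ha, hb, h⟩ := hf
  refine ⟨ι, inferInstance, fun i => -a i, b, fun i => Hu.neg_mem (ha i), hb, ?_⟩
  intro w
  rw [Pi.neg_apply, h w]
  simp

theorem isTens_mul (Hu : Subring (Z → K)) {f f' : Z × Z → K} (hf : IsTens Hu f)
    (hf' : IsTens Hu f') : IsTens Hu (f * f') := by
  obtain ⟨ι, _, a, b, ha, hb, h⟩ := hf
  obtain ⟨ι', _, a', b', ha', hb', h'⟩ := hf'
  refine ⟨ι × ι', inferInstance, fun p => a p.1 * a' p.2, fun p => b p.1 * b' p.2,
    fun p => Hu.mul_mem (ha p.1) (ha' p.2), fun p => Hu.mul_mem (hb p.1) (hb' p.2), ?_⟩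
  intro w
  rw [Pi.mul_apply, h w, h' w, Finset.sum_mul_sum, Fintype.sum_prod_type]
  refine Finset.sum_congr rfl fun i _ => Finset.sum_congr rfl fun j _ => ?_
  simp only [Pi.mul_apply]
  ring

/-- The subring of finite sums of pure tensors. -/
def tensSubring (Hu : Subring (Z → K)) : Subring (Z × Z → K) where
  carrier := {f | IsTens Hu f}
  mul_mem' := fun hf hf' => isTens_mul Hu hf hf'
  one_mem' := isTens_one Hu
  add_mem' := fun hf hf' => isTens_add Hu hf hf'
  zero_mem' := isTens_zero Hu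
  neg_mem' := fun hf => isTens_neg Hu hf

theorem mem_tensSubring {Hu : Subring (Z → K)} {f : Z × Z → K} :
    f ∈ tensSubring Hu ↔ IsTens Hu f := Iff.rfl

theorem tens_pure_mem (Hu : Subring (Z → K)) {a b : Z → K} (ha : a ∈ Hu) (hb : b ∈ Hu) :
    (fun w : Z × Z => a w.1 * b w.2) ∈ tensSubring Hu := isTens_pure Hu ha hb

theorem tens_left_mem (Hu : Subring (Z → K)) {a : Z → K} (ha : a ∈ Hu) :
    (fun w : Z × Z => a w.1) ∈ tensSubring Hu := by
  have := tens_pure_mem Hu ha Hu.one_mem
  simpa using this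

theorem tens_right_mem (Hu : Subring (Z → K)) {b : Z → K} (hb : b ∈ Hu) :
    (fun w : Z × Z => b w.2) ∈ tensSubring Hu := by
  have := tens_pure_mem Hu Hu.one_mem hb
  simpa using this

/-- Elements of the tensor subring in the `Fin n`-indexed form used by the interfaces. -/
theorem exists_fin_of_mem_tensSubring {Hu : Subring (Z → K)} {f : Z × Z → K}
    (hf : f ∈ tensSubring Hu) :
    ∃ (n : ℕ) (a b : Fin n → Z → K), (∀ i, a i ∈ Hu) ∧ (∀ i, b i ∈ Hu) ∧
      ∀ z z' : Z, f (z, z') = ∑ i, a i z * b i z' := by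
  obtain ⟨ι, _, a, b, ha, hb, h⟩ := hf
  refine ⟨Fintype.card ι, fun k => a ((Fintype.equivFin ι).symm k),
    fun k => b ((Fintype.equivFin ι).symm k), fun k => ha _, fun k => hb _, ?_⟩
  intro z z'
  rw [h (z, z')]
  exact (Equiv.sum_comp (Fintype.equivFin ι).symm (fun i => a i z * b i z')).symm

/-- Equivariance passes to the tensor subring. -/
theorem tens_equivariant {Hu : Subring (Z → K)} (τ : K →+* K) (π : Z → Z)
    (heq : ∀ h ∈ Hu, ∀ z, h (π z) = τ (h z)) {f : Z × Z → K} (hf : f ∈ tensSubring Hu)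
    (w : Z × Z) : f (π w.1, π w.2) = τ (f w) := by
  obtain ⟨ι, _, a, b, ha, hb, h⟩ := hf
  rw [h, h, map_sum]
  refine Finset.sum_congr rfl fun i _ => ?_
  rw [map_mul, heq _ (ha i), heq _ (hb i)]

end Tens

section Lagrange

variable {Z : Type} {K : Type} [Field K]

/-- The `K`-span of a subring of functions is closed under multiplication. -/
theorem span_subring_mul_mem (Hu : Subring (Z → K)) {f f' : Z → K}
    (hf : f ∈ Submodule.span K (Hu : Set (Z → K)))
    (hf' : f' ∈ Submodule.span K (Hu : Set (Z → K))) :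
    f * f' ∈ Submodule.span K (Hu : Set (Z → K)) := by
  have h1 : f * f' ∈ Submodule.span K (Hu : Set (Z → K)) * Submodule.span K (Hu : Set (Z → K)) :=
    Submodule.mul_mem_mul hf hf'
  rw [Submodule.span_mul_span] at h1
  refine Submodule.span_mono ?_ h1
  rintro _ ⟨a, ha, b, hb, rfl⟩
  exact Hu.mul_mem ha hb

theorem span_subring_const_mem (Hu : Subring (Z → K)) (c : K) :
    (fun _ : Z => c) ∈ Submodule.span K (Hu : Set (Z → K)) := by
  have h1 : (1 : Z → K) ∈ Submodule.span K (Hu : Set (Z → K)) :=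
    Submodule.subset_span Hu.one_mem
  have h2 := Submodule.smul_mem _ c h1
  have h3 : c • (1 : Z → K) = fun _ : Z => c := by
    funext z
    simp
  rwa [h3] at h2

/-- Lagrange interpolation: a subring of functions on a finite set which separates points spans
all functions. -/
theorem span_subring_eq_top [Finite Z] (Hu : Subring (Z → K))
    (hsep : ∀ z z' : Z, z ≠ z' → ∃ h ∈ Hu, h z ≠ h z') :
    Submodule.span K (Hu : Set (Z → K)) = ⊤ := by
  classical
  cases nonempty_fintype Z
  set V := Submodule.span K (Hu : Set (Z → K)) with hV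
  -- the separating functions
  have key : ∀ P P' : Z, P' ≠ P → ∃ φ ∈ V, φ P = 1 ∧ φ P' = 0 := by
    intro P P' hne
    obtain ⟨h, hh, hne'⟩ := hsep P P' (Ne.symm hne)
    have hsub : h P - h P' ≠ 0 := sub_ne_zero.mpr hne'
    refine ⟨(h - fun _ => h P') * (fun _ => (h P - h P')⁻¹), ?_, ?_, ?_⟩
    · refine span_subring_mul_mem Hu (Submodule.sub_mem _ (Submodule.subset_span hh) ?_) ?_
      · exact span_subring_const_mem Hu _
      · exact span_subring_const_mem Hu _
    · simp only [Pi.mul_apply, Pi.sub_apply]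
      exact mul_inv_cancel₀ hsub
    · simp
  choose! φ hφV hφ1 hφ0 using key
  have hsingle : ∀ P : Z, (Pi.single P (1 : K) : Z → K) ∈ V := by
    intro P
    have h1 : (∏ P' ∈ Finset.univ.erase P, φ P P') ∈ V := by
      refine Finset.prod_induction _ (fun f => f ∈ V) (fun a b ha hb => ?_) ?_ ?_
      · exact span_subring_mul_mem Hu ha hb
      · exact Submodule.subset_span Hu.one_mem
      · intro P' hP'
        exact hφV P P' (Finset.ne_of_mem_erase hP')
    have h2 : (∏ P' ∈ Finset.univ.erase P, φ P P') = Pi.single P (1 : K) := by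
      funext Q
      rw [Finset.prod_apply]
      by_cases hQ : Q = P
      · subst hQ
        rw [Pi.single_eq_same]
        refine Finset.prod_eq_one fun P' hP' => ?_
        exact hφ1 Q P' (Finset.ne_of_mem_erase hP')
      · rw [Pi.single_eq_of_ne hQ]
        refine Finset.prod_eq_zero (Finset.mem_erase.mpr ⟨hQ, Finset.mem_univ Q⟩) ?_
        exact hφ0 P Q hQ
    rwa [h2] at h1
  rw [eq_top_iff, ← (Pi.basisFun K Z).span_eq]
  refine Submodule.span_le.mpr ?_
  rintro _ ⟨P, rfl⟩
  rw [Pi.basisFun_apply]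
  exact hsingle P

/-- A separating subring of functions on a finite set contains `|Z|` functions whose matrix of
values is invertible. -/
theorem exists_matrix_of_separates [Fintype Z] [DecidableEq Z] (Hu : Subring (Z → K))
    (hsep : ∀ z z' : Z, z ≠ z' → ∃ h ∈ Hu, h z ≠ h z') :
    ∃ a : Z → Z → K, (∀ Q, a Q ∈ Hu) ∧ (Matrix.of (fun P Q => a Q P)).det ≠ 0 := by
  have htop := span_subring_eq_top Hu hsep
  obtain ⟨b, hbH, hbspan, hbli⟩ := exists_linearIndependent K (Hu : Set (Z → K))
  rw [htop] at hbspan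
  have hsp : ⊤ ≤ Submodule.span K (Set.range (fun x : b => (x : Z → K))) := by
    rw [Subtype.range_coe_subtype]
    simpa using hbspan.ge
  let B := Module.Basis.mk hbli hsp
  let e : Z ≃ b := (Pi.basisFun K Z).indexEquiv B
  refine ⟨fun Q => (e Q : Z → K), fun Q => hbH (e Q).2, ?_⟩
  have hli : LinearIndependent K (fun Q : Z => ((e Q : b) : Z → K)) :=
    hbli.comp e e.injective
  have hrow : LinearIndependent K (Matrix.of (fun Q P => ((e Q : b) : Z → K) P)).row := hli
  have hunit := Matrix.linearIndependent_rows_iff_isUnit.mp hrow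
  have hdet := (Matrix.isUnit_iff_isUnit_det _).mp hunit
  have htr : (Matrix.of (fun P Q => ((e Q : b) : Z → K) P)) =
      Matrix.transpose (Matrix.of (fun Q P => ((e Q : b) : Z → K) P)) := rfl
  show (Matrix.of (fun P Q => ((e Q : b) : Z → K) P)).det ≠ 0
  rw [htr, Matrix.det_transpose]
  exact hdet.ne_zero

end Lagrange

section Cramer

open Matrix

variable {Z : Type} {K : Type} [Field K] [Fintype Z] [DecidableEq Z]

/-- cancellation of an invertible matrix on both sides -/
theorem matrix_sandwich_cancel (B C C' : Matrix Z Z K) (hB : B.det ≠ 0)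
    (h : B * C * Bᵀ = B * C' * Bᵀ) : C = C' := by
  have hu : IsUnit B := (Matrix.isUnit_iff_isUnit_det _).mpr (isUnit_iff_ne_zero.mpr hB)
  have hut : IsUnit Bᵀ := by
    rw [Matrix.isUnit_iff_isUnit_det, Matrix.det_transpose]
    exact isUnit_iff_ne_zero.mpr hB
  have h1 : B * C = B * C' := hut.mul_right_cancel h
  exact hu.mul_left_cancel h1

/-- **Cramer argument.** For a separating ring `Hu` of integral valued equivariant functions
there is a nonzero `d ∈ A` such that every equivariant function on `Z × Z` with values in `d A`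
is a sum of pure tensors of elements of `Hu`. -/
theorem cramer_tens (A R : Subring K) (Hu : Subring (Z → K))
    {Γ : Type*} (gal : Γ → K →+* K) (act : Γ → Z → Z)
    (hR : ∀ x ∈ A, (∀ τ, gal τ x = x) → x ∈ R)
    (hconst : ∀ c ∈ R, (fun _ : Z => c) ∈ Hu)
    (hint : ∀ h ∈ Hu, ∀ z, h z ∈ A)
    (heq : ∀ h ∈ Hu, ∀ τ z, h (act τ z) = gal τ (h z))
    (hsep : ∀ z z' : Z, z ≠ z' → ∃ h ∈ Hu, h z ≠ h z') :
    ∃ d ∈ A, d ≠ 0 ∧ ∀ F : Z × Z → K,
      (∀ τ w, F (act τ w.1, act τ w.2) = gal τ (F w)) →
      (∀ w, ∃ x ∈ A, F w = d * x) → F ∈ tensSubring Hu := by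
  obtain ⟨a, haH, hdet⟩ := exists_matrix_of_separates Hu hsep
  let BA : Matrix Z Z A := Matrix.of fun P Q => ⟨a Q P, hint _ (haH Q) P⟩
  set B : Matrix Z Z K := Matrix.of fun P Q => a Q P with hB
  have hBmap : A.subtype.mapMatrix BA = B := by
    ext P Q
    rfl
  have hdetA : ((BA.det : A) : K) = B.det := by
    rw [← hBmap]
    exact RingHom.map_det A.subtype BA
  refine ⟨B.det ^ 2, ?_, pow_ne_zero 2 hdet, ?_⟩
  · rw [← hdetA]
    exact A.pow_mem (BA.det).2 2
  intro F hFeq hFdiv
  choose x hxA hx using hFdiv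
  let XA : Matrix Z Z A := Matrix.of fun P P' => ⟨x (P, P'), hxA (P, P')⟩
  let cA : Matrix Z Z A := BA.adjugate * XA * BA.adjugateᵀ
  have hid : BA * cA * BAᵀ = (BA.det ^ 2) • XA := by
    have h1 : BA.adjugateᵀ * BAᵀ = BA.det • (1 : Matrix Z Z A) := by
      rw [← Matrix.transpose_mul, Matrix.mul_adjugate, Matrix.transpose_smul,
        Matrix.transpose_one]
    calc BA * cA * BAᵀ = (BA * BA.adjugate) * XA * (BA.adjugateᵀ * BAᵀ) := by
          simp only [cA, Matrix.mul_assoc]
      _ = (BA.det ^ 2) • XA := by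
          rw [h1, Matrix.mul_adjugate]
          simp only [Matrix.smul_mul, Matrix.mul_smul, Matrix.one_mul, Matrix.mul_one, smul_smul]
          rw [sq]
  let c : Z → Z → K := fun Q Q' => ((cA Q Q' : A) : K)
  have hcA : ∀ Q Q', c Q Q' ∈ A := fun Q Q' => (cA Q Q').2
  have hF : ∀ P P', F (P, P') = ∑ Q', (∑ Q, a Q P * c Q Q') * a Q' P' := by
    intro P P'
    have h1 := congrFun (congrFun hid P) P'
    have h2 := congrArg A.subtype h1
    simp only [Matrix.mul_apply, Matrix.transpose_apply, Matrix.smul_apply, map_sum, map_mul,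
      smul_eq_mul, map_pow] at h2
    rw [hx (P, P')]
    have h3 : A.subtype (XA P P') = x (P, P') := rfl
    have h4 : A.subtype BA.det = B.det := hdetA
    rw [h3, h4] at h2
    rw [← h2]
    rfl
  have hinv : ∀ τ Q Q', gal τ (c Q Q') = c Q Q' := by
    intro τ Q Q'
    have hdet' : ((gal τ).mapMatrix B).det ≠ 0 := by
      rw [← RingHom.map_det]
      exact (map_ne_zero (gal τ)).mpr hdet
    have hmat : (gal τ).mapMatrix B * Matrix.of c * ((gal τ).mapMatrix B)ᵀ =
        (gal τ).mapMatrix B * Matrix.of (fun Q Q' => gal τ (c Q Q')) * ((gal τ).mapMatrix B)ᵀ := by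
      ext P P'
      have hl : ((gal τ).mapMatrix B * Matrix.of c * ((gal τ).mapMatrix B)ᵀ) P P' =
          F (act τ P, act τ P') := by
        rw [hF]
        simp only [Matrix.mul_apply, Matrix.transpose_apply, RingHom.mapMatrix_apply,
          Matrix.map_apply, Matrix.of_apply, hB]
        refine Finset.sum_congr rfl fun Q' _ => ?_
        rw [heq _ (haH Q')]
        congr 1
        refine Finset.sum_congr rfl fun Q _ => ?_
        rw [heq _ (haH Q)]
      have hr : ((gal τ).mapMatrix B * Matrix.of (fun Q Q' => gal τ (c Q Q')) *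
          ((gal τ).mapMatrix B)ᵀ) P P' = gal τ (F (P, P')) := by
        rw [hF]
        simp only [Matrix.mul_apply, Matrix.transpose_apply, RingHom.mapMatrix_apply,
          Matrix.map_apply, Matrix.of_apply, hB, map_sum, map_mul]
      rw [hl, hr]
      exact hFeq τ (P, P')
    have := matrix_sandwich_cancel _ _ _ hdet' hmat
    exact (congrFun (congrFun this Q) Q').symm
  have hcR : ∀ Q Q', c Q Q' ∈ R := fun Q Q' => hR _ (hcA Q Q') fun τ => hinv τ Q Q'
  refine ⟨Z × Z, inferInstance, fun p => (fun _ => c p.1 p.2) * a p.1, fun p => a p.2,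
    fun p => Hu.mul_mem (hconst _ (hcR p.1 p.2)) (haH p.1), fun p => haH p.2, ?_⟩
  rintro ⟨P, P'⟩
  rw [hF, Fintype.sum_prod_type, Finset.sum_comm]
  refine Finset.sum_congr rfl fun Q' _ => ?_
  rw [Finset.sum_mul]
  refine Finset.sum_congr rfl fun Q _ => ?_
  simp only [Pi.mul_apply]
  ring

end Cramer

end Fermat.Agent.H42.FFC
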