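/-
P-FF, FF-C (row 509), helper42: the closure theorem.

For an additive Galois action `act` on a finite group `Z` and a set `gens` of `ℚ̄`-valued
functions on `Z` which contains the constants of `R = unrInt A`, is integral valued, inertia
equivariant, separates the points, and whose comultiplications are approximable (to every
precision `d ∈ A`, `d ≠ 0`) by sums of pure tensors, the ring generated by the conjugates of
`gens` under the decomposition group is an unramified Hopf order.
-/
import Mathlib
import Fermat.Agent.H72.FF.Interfaces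
import Fermat.Agent.H42.FFUnrTens
import Fermat.Agent.H42.FFUnrPlace

set_option autoImplicit false
set_option linter.unusedSectionVars false

noncomputable section

namespace Fermat.Agent.H42.FFC

open Fermat.Agent.H10.FF Fermat.Agent.H72.FF
open scoped BigOperators

section Closure

variable (A : ValuationSubring Qb) {Z : Type} [AddCommGroup Z] (act : GQ → Z → Z)

/-- the conjugate `h^σ = σ ∘ h ∘ σ⁻¹` of a function -/
def conjF (σ : GQ) (h : Z → Qb) : Z → Qb := fun P => σ (h (act σ⁻¹ P))

/-- the conjugates of the generators under the decomposition group -/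
def conjGens (gens : Set (Z → Qb)) : Set (Z → Qb) :=
  {f | ∃ σ ∈ A.decompositionSubgroup ℚ, ∃ h ∈ gens, f = conjF act σ h}

/-- the ring generated by the conjugates of the generators -/
def closureOrder (gens : Set (Z → Qb)) : Subring (Z → Qb) :=
  Subring.closure (conjGens A act gens)

/-- the comultiplication of a function -/
def comulF (h : Z → Qb) : Z × Z → Qb := fun w => h (w.1 + w.2)

/-- the axioms of an additive action (without instances) -/
structure IsAct (act : GQ → Z → Z) : Prop where
  one : ∀ P, act 1 P = P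
  mul : ∀ σ τ P, act (σ * τ) P = act σ (act τ P)
  add : ∀ σ P P', act σ (P + P') = act σ P + act σ P'

variable {act}

theorem conjF_one (hact : IsAct act) (h : Z → Qb) : conjF act 1 h = h := by
  funext P
  simp only [conjF, inv_one, hact.one]
  rfl

theorem conjF_mul (hact : IsAct act) (σ ρ : GQ) (h : Z → Qb) :
    conjF act σ (conjF act ρ h) = conjF act (σ * ρ) h := by
  funext P
  simp only [conjF, mul_inv_rev, hact.mul]
  rfl

theorem conjF_zero (σ : GQ) : conjF act σ (0 : Z → Qb) = 0 := by
  funext P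
  simp [conjF]

theorem conjF_one' (σ : GQ) : conjF act σ (1 : Z → Qb) = 1 := by
  funext P
  simp [conjF]

theorem conjF_add (σ : GQ) (f f' : Z → Qb) :
    conjF act σ (f + f') = conjF act σ f + conjF act σ f' := by
  funext P
  simp [conjF]

theorem conjF_neg (σ : GQ) (f : Z → Qb) : conjF act σ (-f) = -conjF act σ f := by
  funext P
  simp [conjF]

theorem conjF_mul' (σ : GQ) (f f' : Z → Qb) :
    conjF act σ (f * f') = conjF act σ f * conjF act σ f' := by
  funext P
  simp [conjF]

variable {A}

theorem gens_subset_closureOrder (hact : IsAct act) (gens : Set (Z → Qb)) {h : Z → Qb}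
    (hh : h ∈ gens) : h ∈ closureOrder A act gens :=
  Subring.subset_closure ⟨1, one_mem _, h, hh, (conjF_one hact h).symm⟩

theorem closureOrder_integral (gens : Set (Z → Qb))
    (hint : ∀ h ∈ gens, ∀ P, h P ∈ A) :
    ∀ h ∈ closureOrder A act gens, ∀ P, h P ∈ A := by
  intro h hh
  induction hh using Subring.closure_induction with
  | mem x hx =>
    obtain ⟨σ, hσ, h₀, hh₀, rfl⟩ := hx
    intro P
    exact dec_apply_mem A hσ (hint h₀ hh₀ _)
  | zero => exact fun P => A.zero_mem
  | one => exact fun P => A.one_mem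
  | add x y _ _ hx hy => exact fun P => A.add_mem _ _ (hx P) (hy P)
  | neg x _ hx => exact fun P => A.neg_mem _ (hx P)
  | mul x y _ _ hx hy => exact fun P => A.mul_mem _ _ (hx P) (hy P)

theorem closureOrder_inertia_equiv (hact : IsAct act) (gens : Set (Z → Qb))
    (heq : ∀ h ∈ gens, ∀ τ ∈ A.inertiaSubgroupIn ℚ, ∀ P, h (act τ P) = τ (h P)) :
    ∀ h ∈ closureOrder A act gens, ∀ τ ∈ A.inertiaSubgroupIn ℚ, ∀ P,
      h (act τ P) = τ (h P) := by
  intro h hh
  induction hh using Subring.closure_induction with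
  | mem x hx =>
    obtain ⟨σ, hσ, h₀, hh₀, rfl⟩ := hx
    intro τ hτ P
    have hc := inertiaIn_conj_mem A hσ hτ
    have h1 := heq h₀ hh₀ _ hc (act σ⁻¹ P)
    have h2 : act (σ⁻¹ * τ * σ) (act σ⁻¹ P) = act σ⁻¹ (act τ P) := by
      rw [← hact.mul, ← hact.mul]
      congr 1
      group
    rw [h2] at h1
    simp only [conjF, h1]
    simp [AlgEquiv.mul_apply]
  | zero => intro τ _ P; simp
  | one => intro τ _ P; simp
  | add x y _ _ hx hy => intro τ hτ P; simp [hx τ hτ P, hy τ hτ P]
  | neg x _ hx => intro τ hτ P; simp [hx τ hτ P]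
  | mul x y _ _ hx hy => intro τ hτ P; simp [hx τ hτ P, hy τ hτ P]

theorem closureOrder_dec_stable (hact : IsAct act) (gens : Set (Z → Qb)) :
    ∀ h ∈ closureOrder A act gens, ∀ σ ∈ A.decompositionSubgroup ℚ,
      conjF act σ h ∈ closureOrder A act gens := by
  intro h hh
  induction hh using Subring.closure_induction with
  | mem x hx =>
    obtain ⟨ρ, hρ, h₀, hh₀, rfl⟩ := hx
    intro σ hσ
    rw [conjF_mul hact]
    exact Subring.subset_closure ⟨σ * ρ, mul_mem hσ hρ, h₀, hh₀, rfl⟩
  | zero => intro σ _; rw [conjF_zero]; exact Subring.zero_mem _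
  | one => intro σ _; rw [conjF_one']; exact Subring.one_mem _
  | add x y _ _ hx hy => intro σ hσ; rw [conjF_add]; exact Subring.add_mem _ (hx σ hσ) (hy σ hσ)
  | neg x _ hx => intro σ hσ; rw [conjF_neg]; exact Subring.neg_mem _ (hx σ hσ)
  | mul x y _ _ hx hy => intro σ hσ; rw [conjF_mul']; exact Subring.mul_mem _ (hx σ hσ) (hy σ hσ)

/-- conjugation on `Z × Z` preserves the tensor subring of a `D`-stable ring -/
theorem tens_conj_mem (Hu : Subring (Z → Qb)) (σ : GQ)
    (hst : ∀ h ∈ Hu, conjF act σ h ∈ Hu) {F : Z × Z → Qb} (hF : F ∈ tensSubring Hu) :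
    (fun w : Z × Z => σ (F (act σ⁻¹ w.1, act σ⁻¹ w.2))) ∈ tensSubring Hu := by
  obtain ⟨ι, _, a, b, ha, hb, h⟩ := hF
  refine ⟨ι, inferInstance, fun i => conjF act σ (a i), fun i => conjF act σ (b i),
    fun i => hst _ (ha i), fun i => hst _ (hb i), ?_⟩
  intro w
  simp only [h, map_sum, map_mul, conjF]

/-- **Closure theorem.** -/
theorem isUnrHopfOrder_closureOrder [Finite Z] (hact : IsAct act) (gens : Set (Z → Qb))
    (hconst : ∀ c ∈ unrInt A, (fun _ : Z => c) ∈ gens)
    (hint : ∀ h ∈ gens, ∀ P, h P ∈ A)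
    (heq : ∀ h ∈ gens, ∀ τ ∈ A.inertiaSubgroupIn ℚ, ∀ P, h (act τ P) = τ (h P))
    (hsep : ∀ P P' : Z, P ≠ P' → ∃ h ∈ gens, h P ≠ h P')
    (happrox : ∀ h ∈ gens, ∀ d ∈ A, d ≠ 0 → ∃ F ∈ tensSubring (closureOrder A act gens),
      ∀ P P' : Z, ∃ x ∈ A, h (P + P') - F (P, P') = d * x) :
    IsUnrHopfOrder A act (closureOrder A act gens) := by
  classical
  cases nonempty_fintype Z
  set Hu := closureOrder A act gens with hHu
  have hI := closureOrder_integral (A := A) (act := act) gens hint
  have hE := closureOrder_inertia_equiv (A := A) hact gens heq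
  have hD := closureOrder_dec_stable (A := A) hact gens
  have hS : ∀ P P' : Z, P ≠ P' → ∃ h ∈ Hu, h P ≠ h P' := fun P P' hne => by
    obtain ⟨h, hh, hne'⟩ := hsep P P' hne
    exact ⟨h, gens_subset_closureOrder hact gens hh, hne'⟩
  have hC : ∀ c ∈ unrInt A, (fun _ : Z => c) ∈ Hu := fun c hc =>
    gens_subset_closureOrder hact gens (hconst c hc)
  obtain ⟨d, hdA, hd0, hcr⟩ := cramer_tens A.toSubring (unrInt A) Hu
    (Γ := ↥(A.inertiaSubgroupIn ℚ)) (fun τ => ((τ : GQ) : Qb →+* Qb)) (fun τ => act (τ : GQ))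
    (fun x hx hfix => ⟨hx, fun σ hσ => hfix ⟨σ, hσ⟩⟩) hC hI
    (fun h hh τ P => hE h hh τ.1 τ.2 P) hS
  have hgen : ∀ h ∈ gens, comulF h ∈ tensSubring Hu := by
    intro h hh
    obtain ⟨F, hF, hFx⟩ := happrox h hh d hdA hd0
    have hdiff : comulF h - F ∈ tensSubring Hu := by
      apply hcr
      · intro τ w
        have h1 := tens_equivariant ((τ : GQ) : Qb →+* Qb) (act (τ : GQ))
          (fun h' hh' P => hE h' hh' τ.1 τ.2 P) hF w
        simp only [Pi.sub_apply, comulF]
        rw [h1, ← hact.add, heq h hh τ.1 τ.2]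
        simp
      · rintro ⟨P, P'⟩
        exact hFx P P'
    have := Subring.add_mem _ hdiff hF
    simpa using this
  have hall : ∀ h ∈ Hu, comulF h ∈ tensSubring Hu := by
    intro h hh
    induction hh using Subring.closure_induction with
    | mem x hx =>
      obtain ⟨σ, hσ, h₀, hh₀, rfl⟩ := hx
      have := tens_conj_mem Hu σ (fun h' hh' => hD h' hh' σ hσ) (hgen h₀ hh₀)
      convert this using 1
      funext w
      simp [comulF, conjF, hact.add]
    | zero => exact Subring.zero_mem _
    | one => exact Subring.one_mem _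
    | add x y _ _ hx hy => exact Subring.add_mem _ hx hy
    | neg x _ hx => exact Subring.neg_mem _ hx
    | mul x y _ _ hx hy => exact Subring.mul_mem _ hx hy
  refine ⟨hC, hI, hE, hD, hS, ?_⟩
  intro h hh
  exact exists_fin_of_mem_tensSubring (hall h hh)

end Closure

end Fermat.Agent.H42.FFC
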