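/-
P-FF, FF-C (row 509), helper42: pure algebra core, part 2 (Mathlib only).

Polynomials with coefficients in a subring: evaluation stays in subrings of functions, and is
Lipschitz for the `t`-adic congruence (`t` any element).
-/
import Mathlib

set_option autoImplicit false

noncomputable section

namespace Fermat.Agent.H42.FFC

open scoped BigOperators

section Poly

variable {ι K : Type*} [CommRing K]

/-- Evaluating a polynomial with coefficients in `Rs` at functions belonging to a subring `L`
of functions which contains the constants of `Rs` gives a function belonging to `L`. -/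
theorem eval_fun_mem {X : Type*} (L : Subring (X → K)) (Rs : Set K)
    (hconst : ∀ c ∈ Rs, (fun _ : X => c) ∈ L) (p : MvPolynomial ι K)
    (hp : ∀ m, p.coeff m ∈ Rs) (x : ι → X → K) (hx : ∀ i, x i ∈ L) :
    (fun w => MvPolynomial.eval (fun i => x i w) p) ∈ L := by
  have h : (fun w => MvPolynomial.eval (fun i => x i w) p) =
      ∑ m ∈ p.support, (fun _ : X => p.coeff m) * ∏ i ∈ m.support, x i ^ m i := by
    funext w
    rw [MvPolynomial.eval_eq]
    simp [Finset.sum_apply, Finset.prod_apply]
  rw [h]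
  exact L.sum_mem fun m _ =>
    L.mul_mem (hconst _ (hp m)) (L.prod_mem fun i _ => L.pow_mem (hx i) _)

/-- The value of a polynomial with coefficients in `A` at a point of `A` belongs to `A`. -/
theorem eval_mem_of_coeff_mem (A : Subring K) (p : MvPolynomial ι K)
    (hp : ∀ m, p.coeff m ∈ A) (u : ι → K) (hu : ∀ i, u i ∈ A) :
    MvPolynomial.eval u p ∈ A := by
  rw [MvPolynomial.eval_eq]
  exact A.sum_mem fun m _ => A.mul_mem (hp m) (A.prod_mem fun i _ => A.pow_mem (hu i) _)

/-- the "ideal" `t A` -/
def TMul (A : Subring K) (t : K) (x : K) : Prop := ∃ a ∈ A, x = t * a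

theorem tMul_zero (A : Subring K) (t : K) : TMul A t 0 := ⟨0, A.zero_mem, by simp⟩

theorem tMul_add (A : Subring K) (t : K) {x y : K} (hx : TMul A t x) (hy : TMul A t y) :
    TMul A t (x + y) := by
  obtain ⟨a, ha, rfl⟩ := hx
  obtain ⟨b, hb, rfl⟩ := hy
  exact ⟨a + b, A.add_mem ha hb, by ring⟩

theorem tMul_sub (A : Subring K) (t : K) {x y : K} (hx : TMul A t x) (hy : TMul A t y) :
    TMul A t (x - y) := by
  obtain ⟨a, ha, rfl⟩ := hx
  obtain ⟨b, hb, rfl⟩ := hy
  exact ⟨a - b, A.sub_mem ha hb, by ring⟩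

theorem tMul_mul_left (A : Subring K) (t : K) {c x : K} (hc : c ∈ A) (hx : TMul A t x) :
    TMul A t (c * x) := by
  obtain ⟨a, ha, rfl⟩ := hx
  exact ⟨c * a, A.mul_mem hc ha, by ring⟩

theorem tMul_sum (A : Subring K) (t : K) {κ : Type*} (s : Finset κ) (f : κ → K)
    (h : ∀ k ∈ s, TMul A t (f k)) : TMul A t (∑ k ∈ s, f k) := by
  classical
  induction s using Finset.induction_on with
  | empty => simpa using tMul_zero A t
  | insert k s hk ih =>
    rw [Finset.sum_insert hk]
    exact tMul_add A t (h k (Finset.mem_insert_self k s))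
      (ih fun k' hk' => h k' (Finset.mem_insert_of_mem hk'))

theorem tMul_mul_sub_mul (A : Subring K) (t : K) {x y x' y' : K} (hx' : x' ∈ A) (hy : y ∈ A)
    (h : TMul A t (x - y)) (h' : TMul A t (x' - y')) : TMul A t (x * x' - y * y') := by
  have e : x * x' - y * y' = x' * (x - y) + y * (x' - y') := by ring
  rw [e]
  exact tMul_add A t (tMul_mul_left A t hx' h) (tMul_mul_left A t hy h')

theorem tMul_pow_sub_pow (A : Subring K) (t : K) {x y : K} (hx : x ∈ A) (hy : y ∈ A)
    (h : TMul A t (x - y)) (n : ℕ) : TMul A t (x ^ n - y ^ n) := by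
  induction n with
  | zero => simpa using tMul_zero A t
  | succ n ih =>
    rw [pow_succ, pow_succ]
    exact tMul_mul_sub_mul A t hx (A.pow_mem hy n) ih h

theorem tMul_prod_sub_prod (A : Subring K) (t : K) {κ : Type*} (s : Finset κ) (f f' : κ → K)
    (hf : ∀ k ∈ s, f k ∈ A) (hf' : ∀ k ∈ s, f' k ∈ A)
    (h : ∀ k ∈ s, TMul A t (f k - f' k)) : TMul A t (∏ k ∈ s, f k - ∏ k ∈ s, f' k) := by
  classical
  induction s using Finset.induction_on with
  | empty => simpa using tMul_zero A t
  | insert k s hk ih =>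
    rw [Finset.prod_insert hk, Finset.prod_insert hk]
    refine tMul_mul_sub_mul A t ?_ ?_ ?_ ?_
    · exact A.prod_mem fun k' hk' => hf k' (Finset.mem_insert_of_mem hk')
    · exact hf' k (Finset.mem_insert_self k s)
    · exact h k (Finset.mem_insert_self k s)
    · exact ih (fun k' hk' => hf k' (Finset.mem_insert_of_mem hk'))
        (fun k' hk' => hf' k' (Finset.mem_insert_of_mem hk'))
        (fun k' hk' => h k' (Finset.mem_insert_of_mem hk'))

/-- **Lipschitz property** of polynomials with coefficients in `A`. -/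
theorem eval_sub_eval_tMul (A : Subring K) (t : K) (p : MvPolynomial ι K)
    (hp : ∀ m, p.coeff m ∈ A) (u u' : ι → K) (hu : ∀ i, u i ∈ A) (hu' : ∀ i, u' i ∈ A)
    (h : ∀ i, TMul A t (u i - u' i)) :
    TMul A t (MvPolynomial.eval u p - MvPolynomial.eval u' p) := by
  rw [MvPolynomial.eval_eq, MvPolynomial.eval_eq, ← Finset.sum_sub_distrib]
  refine tMul_sum A t _ _ fun m _ => ?_
  rw [← mul_sub]
  refine tMul_mul_left A t (hp m) ?_
  exact tMul_prod_sub_prod A t _ _ _ (fun i _ => A.pow_mem (hu i) _)
    (fun i _ => A.pow_mem (hu' i) _) (fun i _ => tMul_pow_sub_pow A t (hu i) (hu' i) (h i) _)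

end Poly

end Fermat.Agent.H42.FFC
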