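/-
P-FF, FF-C (row 509), helper42: the sup-norm closure `UnrOrderOfCoordStatement`.

Generators of the order: the constants of `R = unrInt A`, the indicator functions of the cosets
of `Z ∩ J1` in `Z`, and the coordinate functions `P ↦ z_i (P - base (coset of P))`, where
`base` chooses an inertia-fixed lift for every coset.  The order is the ring generated by the
conjugates of the generators under the decomposition group (`FFUnrClosure`); its closure under
the comultiplication follows from the approximate group law and the Cramer argument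
(`FFUnrTens`).
-/
import Mathlib
import Fermat.Agent.H72.FF.Interfaces
import Fermat.Agent.H42.FFUnrClosure
import Fermat.Agent.H42.FFUnrPoly

set_option autoImplicit false
set_option linter.unusedSectionVars false
set_option linter.style.haveILetI false

noncomputable section

namespace Fermat.Agent.H42.FFC

open Fermat.Agent.H10.FF Fermat.Agent.H72.FF
open scoped BigOperators

section Order

variable {J : Type} [AddCommGroup J] [DistribMulAction GQ J]

theorem subAct_isAct (Z : AddSubgroup J) (hZ : ∀ (σ : GQ), ∀ P ∈ Z, σ • P ∈ Z) :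
    IsAct (subAct Z hZ) where
  one := fun _ => Subtype.ext (one_smul _ _)
  mul := fun _ _ _ => Subtype.ext (mul_smul _ _ _)
  add := fun _ _ _ => Subtype.ext (smul_add _ _ _)

/-- the cosets of `Z ∩ J1` in `Z` -/
abbrev Cos (J1 Z : AddSubgroup J) : Type := ↥Z ⧸ J1.addSubgroupOf Z

/-- the coset of a point -/
def cosOf (J1 Z : AddSubgroup J) (P : Z) : Cos J1 Z := QuotientAddGroup.mk P

theorem cosOf_eq_iff (J1 Z : AddSubgroup J) {P P' : Z} :
    cosOf J1 Z P = cosOf J1 Z P' ↔ (P : J) - (P' : J) ∈ J1 := by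
  unfold cosOf
  rw [QuotientAddGroup.eq_iff_sub_mem, AddSubgroup.mem_addSubgroupOf]
  simp

theorem cosOf_add (J1 Z : AddSubgroup J) (P P' : Z) :
    cosOf J1 Z (P + P') = cosOf J1 Z P + cosOf J1 Z P' := rfl

/-- a choice of inertia-fixed lifts of the cosets -/
structure IsBase (A : ValuationSubring Qb) (J1 Z : AddSubgroup J) (base : Cos J1 Z → J) :
    Prop where
  fix : ∀ C, ∀ σ ∈ A.inertiaSubgroupIn ℚ, σ • base C = base C
  mem : ∀ P : Z, (P : J) - base (cosOf J1 Z P) ∈ J1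

theorem exists_isBase (A : ValuationSubring Qb) (J1 Z : AddSubgroup J)
    (h : HasUnrLifts A J1 Z) : ∃ base : Cos J1 Z → J, IsBase A J1 Z base := by
  choose! f hf1 hf2 using h
  refine ⟨fun C => f ((Quotient.out C : Z) : J), fun C => hf1 _ (Quotient.out C).2, fun P => ?_⟩
  have h1 : cosOf J1 Z P = cosOf J1 Z (Quotient.out (cosOf J1 Z P)) :=
    (QuotientAddGroup.out_eq' (cosOf J1 Z P)).symm
  rw [cosOf_eq_iff] at h1
  have h2 := hf2 _ (Quotient.out (cosOf J1 Z P)).2
  have := J1.add_mem h1 h2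
  simpa using this

variable (J1 Z : AddSubgroup J) (base : Cos J1 Z → J) {g : ℕ} (z : J → Fin g → Qb)

/-- the point of `J1` attached to a point of `Z` -/
def cc (P : Z) : J := (P : J) - base (cosOf J1 Z P)

/-- the cocycle of the choice of lifts -/
def gam (C C' : Cos J1 Z) : J := base C + base C' - base (C + C')

/-- the coordinate functions -/
def Wf (i : Fin g) : Z → Qb := fun P => z (cc J1 Z base P) i

open Classical in
/-- the indicator functions of the cosets -/
def ef (C : Cos J1 Z) : Z → Qb := fun P => if cosOf J1 Z P = C then 1 else 0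

theorem ef_eq_one {C : Cos J1 Z} {P : Z} (h : cosOf J1 Z P = C) : ef J1 Z C P = 1 := by
  unfold ef
  rw [if_pos h]

theorem ef_eq_zero {C : Cos J1 Z} {P : Z} (h : cosOf J1 Z P ≠ C) : ef J1 Z C P = 0 := by
  unfold ef
  rw [if_neg h]

/-- the generators -/
def gens (A : ValuationSubring Qb) : Set (Z → Qb) :=
  {h | (∃ c ∈ unrInt A, h = fun _ => c) ∨ (∃ C, h = ef J1 Z C) ∨
    (∃ i, h = Wf J1 Z base z i)}

variable {J1 Z base z}
variable {ℓ : ℕ} {A : ValuationSubring Qb}

theorem cc_mem (hb : IsBase A J1 Z base) (P : Z) : cc J1 Z base P ∈ J1 := hb.mem P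

theorem cc_add (P P' : Z) : cc J1 Z base (P + P') =
    (cc J1 Z base P + cc J1 Z base P') + gam J1 Z base (cosOf J1 Z P) (cosOf J1 Z P') := by
  simp only [cc, gam, cosOf_add, AddSubgroup.coe_add]
  abel

theorem gam_mem (hb : IsBase A J1 Z base) (C C' : Cos J1 Z) : gam J1 Z base C C' ∈ J1 := by
  obtain ⟨P, rfl⟩ := QuotientAddGroup.mk_surjective C
  obtain ⟨P', rfl⟩ := QuotientAddGroup.mk_surjective C'
  have h1 := hb.mem P
  have h2 := hb.mem P'
  have h3 := hb.mem (P + P')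
  have h4 := J1.sub_mem h3 (J1.add_mem h1 h2)
  have e : gam J1 Z base (QuotientAddGroup.mk P) (QuotientAddGroup.mk P') =
      (((P + P' : Z) : J) - base (cosOf J1 Z (P + P'))) -
        (((P : J) - base (cosOf J1 Z P)) + ((P' : J) - base (cosOf J1 Z P'))) := by
    simp only [gam, cosOf, AddSubgroup.coe_add, QuotientAddGroup.mk_add]
    abel
  rw [e]
  exact h4

theorem gam_fix (hb : IsBase A J1 Z base) (C C' : Cos J1 Z) (σ : GQ)
    (hσ : σ ∈ A.inertiaSubgroupIn ℚ) : σ • gam J1 Z base C C' = gam J1 Z base C C' := by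
  simp only [gam, smul_sub, smul_add, hb.fix _ σ hσ]

theorem z_gam_mem_unrInt (hz : IsCoordDatum ℓ A J g J1 z) (hb : IsBase A J1 Z base)
    (C C' : Cos J1 Z) (j : Fin g) : z (gam J1 Z base C C') j ∈ unrInt A := by
  refine ⟨(hz.z_mem _ (gam_mem hb C C') j).1, fun σ hσ => ?_⟩
  rw [← hz.z_equiv σ hσ _ (gam_mem hb C C') j, gam_fix hb C C' σ hσ]

variable (hZ : ∀ (σ : GQ), ∀ P ∈ Z, σ • P ∈ Z)

theorem cosOf_subAct (hz : IsCoordDatum ℓ A J g J1 z) (hb : IsBase A J1 Z base) (τ : GQ)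
    (hτ : τ ∈ A.inertiaSubgroupIn ℚ) (P : Z) :
    cosOf J1 Z (subAct Z hZ τ P) = cosOf J1 Z P := by
  rw [cosOf_eq_iff]
  have h1 := hb.mem P
  have h2 := hz.dec_stable τ (inertiaIn_le_dec A hτ) _ h1
  have h3 := J1.sub_mem h2 h1
  have e : ((subAct Z hZ τ P : Z) : J) - (P : J) =
      τ • ((P : J) - base (cosOf J1 Z P)) - ((P : J) - base (cosOf J1 Z P)) := by
    rw [smul_sub, hb.fix _ τ hτ]
    simp only [subAct]
    abel
  rw [e]
  exact h3

theorem cc_subAct (hz : IsCoordDatum ℓ A J g J1 z) (hb : IsBase A J1 Z base) (τ : GQ)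
    (hτ : τ ∈ A.inertiaSubgroupIn ℚ) (P : Z) :
    cc J1 Z base (subAct Z hZ τ P) = τ • cc J1 Z base P := by
  simp only [cc, cosOf_subAct hZ hz hb τ hτ P, smul_sub, hb.fix _ τ hτ]
  rfl

theorem gens_const (c : Qb) (hc : c ∈ unrInt A) : (fun _ : Z => c) ∈ gens J1 Z base z A :=
  Or.inl ⟨c, hc, rfl⟩

theorem gens_ef (C : Cos J1 Z) : ef J1 Z C ∈ gens J1 Z base z A :=
  Or.inr (Or.inl ⟨C, rfl⟩)

theorem gens_Wf (i : Fin g) : Wf J1 Z base z i ∈ gens J1 Z base z A :=
  Or.inr (Or.inr ⟨i, rfl⟩)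

theorem gens_integral (hz : IsCoordDatum ℓ A J g J1 z) (hb : IsBase A J1 Z base) :
    ∀ h ∈ gens J1 Z base z A, ∀ P, h P ∈ A := by
  rintro h (⟨c, hc, rfl⟩ | ⟨C, rfl⟩ | ⟨i, rfl⟩) P
  · exact hc.1
  · by_cases hC : cosOf J1 Z P = C
    · rw [ef_eq_one J1 Z hC]
      exact A.one_mem
    · rw [ef_eq_zero J1 Z hC]
      exact A.zero_mem
  · exact (hz.z_mem _ (cc_mem hb P) i).1

theorem gens_inertia_equiv (hz : IsCoordDatum ℓ A J g J1 z) (hb : IsBase A J1 Z base) :
    ∀ h ∈ gens J1 Z base z A, ∀ τ ∈ A.inertiaSubgroupIn ℚ, ∀ P,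
      h (subAct Z hZ τ P) = τ (h P) := by
  rintro h (⟨c, hc, rfl⟩ | ⟨C, rfl⟩ | ⟨i, rfl⟩) τ hτ P
  · exact (hc.2 τ hτ).symm
  · by_cases hC : cosOf J1 Z P = C
    · rw [ef_eq_one J1 Z hC, ef_eq_one J1 Z ((cosOf_subAct hZ hz hb τ hτ P).trans hC), map_one]
    · have hC' : cosOf J1 Z (subAct Z hZ τ P) ≠ C := by
        rw [cosOf_subAct hZ hz hb τ hτ P]
        exact hC
      rw [ef_eq_zero J1 Z hC, ef_eq_zero J1 Z hC', map_zero]
  · simp only [Wf]
    rw [cc_subAct hZ hz hb τ hτ P]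
    exact hz.z_equiv τ hτ _ (cc_mem hb P) i

theorem gens_separates (hz : IsCoordDatum ℓ A J g J1 z) (hb : IsBase A J1 Z base) :
    ∀ P P' : Z, P ≠ P' → ∃ h ∈ gens J1 Z base z A, h P ≠ h P' := by
  intro P P' hne
  by_cases hC : cosOf J1 Z P' = cosOf J1 Z P
  · have hcc : cc J1 Z base P ≠ cc J1 Z base P' := by
      intro h
      simp only [cc, hC] at h
      exact hne (Subtype.ext (sub_left_injective h))
    have hzne : z (cc J1 Z base P) ≠ z (cc J1 Z base P') := fun h =>
      hcc (hz.z_inj _ (cc_mem hb P) _ (cc_mem hb P') h)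
    obtain ⟨i, hi⟩ := Function.ne_iff.mp hzne
    exact ⟨Wf J1 Z base z i, gens_Wf i, hi⟩
  · refine ⟨ef J1 Z (cosOf J1 Z P), gens_ef _, ?_⟩
    rw [ef_eq_one J1 Z rfl, ef_eq_zero J1 Z hC]
    exact one_ne_zero

/-- the comultiplication of a coordinate function is approximable by sums of pure tensors -/
theorem Wf_approx [Fact ℓ.Prime] [Finite Z] (hA : A.LiesOverPrime ℓ)
    (hz : IsCoordDatum ℓ A J g J1 z) (hb : IsBase A J1 Z base) (Hu : Subring (Z → Qb))
    (hconst : ∀ c ∈ unrInt A, (fun _ : Z => c) ∈ Hu) (hef : ∀ C, ef J1 Z C ∈ Hu)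
    (hWf : ∀ j, Wf J1 Z base z j ∈ Hu) (i : Fin g) (d : Qb) (hd : d ≠ 0) :
    ∃ F ∈ tensSubring Hu, ∀ P P' : Z, ∃ x ∈ A,
      Wf J1 Z base z i (P + P') - F (P, P') = d * x := by
  classical
  cases nonempty_fintype Z
  haveI : Fintype (Cos J1 Z) := Fintype.ofFinite _
  obtain ⟨M, a₀, ha₀, hM⟩ := exists_pow_eq_mul A (Fact.out : ℓ.Prime) hA
    isAlgebraic_int_algebraicClosure hd
  set S : Finset J := (Finset.univ.image (fun P : Z => cc J1 Z base P)) ∪
    (Finset.univ.image (fun w : Z × Z => cc J1 Z base w.1 + cc J1 Z base w.2)) ∪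
    (Finset.univ.image (fun q : Cos J1 Z × Cos J1 Z => gam J1 Z base q.1 q.2)) with hS
  have hS1 : ∀ c ∈ S, c ∈ J1 := by
    intro c hc
    simp only [hS, Finset.mem_union, Finset.mem_image, Finset.mem_univ, true_and] at hc
    rcases hc with (⟨P, rfl⟩ | ⟨w, rfl⟩) | ⟨q, rfl⟩
    · exact cc_mem hb P
    · exact J1.add_mem (cc_mem hb _) (cc_mem hb _)
    · exact gam_mem hb _ _
  have hSa : ∀ P : Z, cc J1 Z base P ∈ S := by
    intro P
    simp only [hS, Finset.mem_union, Finset.mem_image, Finset.mem_univ, true_and]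
    exact Or.inl (Or.inl ⟨P, rfl⟩)
  have hSb : ∀ P P' : Z, cc J1 Z base P + cc J1 Z base P' ∈ S := by
    intro P P'
    simp only [hS, Finset.mem_union, Finset.mem_image, Finset.mem_univ, true_and]
    exact Or.inl (Or.inr ⟨(P, P'), rfl⟩)
  have hSc : ∀ C C' : Cos J1 Z, gam J1 Z base C C' ∈ S := by
    intro C C'
    simp only [hS, Finset.mem_union, Finset.mem_image, Finset.mem_univ, true_and]
    exact Or.inr ⟨(C, C'), rfl⟩
  obtain ⟨G, hGR, hG⟩ := hz.add_approx S hS1 M
  have hGA : ∀ i m, (G i).coeff m ∈ A.toSubring := fun i m => (hGR i m).1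
  set u : Fin g → Z × Z → Qb := fun j w =>
    MvPolynomial.eval (Sum.elim (z (cc J1 Z base w.1)) (z (cc J1 Z base w.2))) (G j) with hu
  have hu_mem : ∀ j, u j ∈ tensSubring Hu := by
    intro j
    have := eval_fun_mem (tensSubring Hu) (unrInt A : Set Qb)
      (fun c hc => tens_left_mem Hu (hconst c hc)) (G j) (hGR j)
      (Sum.elim (fun k w => Wf J1 Z base z k w.1) (fun k w => Wf J1 Z base z k w.2))
      (by
        rintro (k | k)
        · exact tens_left_mem Hu (hWf k)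
        · exact tens_right_mem Hu (hWf k))
    convert this using 1
    funext w
    simp only [hu]
    congr 2
    funext k
    cases k <;> rfl
  set T : Cos J1 Z → Cos J1 Z → Z × Z → Qb := fun C C' w =>
    MvPolynomial.eval (Sum.elim (fun j => u j w) (z (gam J1 Z base C C'))) (G i) with hT
  have hT_mem : ∀ C C', T C C' ∈ tensSubring Hu := by
    intro C C'
    have := eval_fun_mem (tensSubring Hu) (unrInt A : Set Qb)
      (fun c hc => tens_left_mem Hu (hconst c hc)) (G i) (hGR i)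
      (Sum.elim (fun j => u j) (fun j _ => z (gam J1 Z base C C') j))
      (by
        rintro (k | k)
        · exact hu_mem k
        · exact tens_left_mem Hu (hconst _ (z_gam_mem_unrInt hz hb C C' k)))
    convert this using 1
    funext w
    simp only [hT]
    congr 2
    funext k
    cases k <;> rfl
  refine ⟨∑ C, ∑ C', (fun w : Z × Z => ef J1 Z C w.1 * ef J1 Z C' w.2) * T C C', ?_, ?_⟩
  · exact Subring.sum_mem _ fun C _ => Subring.sum_mem _ fun C' _ =>
      Subring.mul_mem _ (tens_pure_mem Hu (hef C) (hef C')) (hT_mem C C')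
  intro P P'
  have hF : (∑ C, ∑ C', (fun w : Z × Z => ef J1 Z C w.1 * ef J1 Z C' w.2) * T C C') (P, P') =
      T (cosOf J1 Z P) (cosOf J1 Z P') (P, P') := by
    rw [Finset.sum_apply, Finset.sum_eq_single (cosOf J1 Z P)]
    · rw [Finset.sum_apply, Finset.sum_eq_single (cosOf J1 Z P')]
      · simp [ef_eq_one J1 Z rfl]
      · intro C' _ hC'
        simp [ef_eq_zero J1 Z (Ne.symm hC')]
      · simp
    · intro C _ hC
      rw [Finset.sum_apply]
      refine Finset.sum_eq_zero fun C' _ => ?_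
      simp [ef_eq_zero J1 Z (Ne.symm hC)]
    · simp
  rw [hF]
  set γ := gam J1 Z base (cosOf J1 Z P) (cosOf J1 Z P') with hγ
  set c₁ := cc J1 Z base P with hc₁
  set c₂ := cc J1 Z base P' with hc₂
  have e1 : Wf J1 Z base z i (P + P') = z ((c₁ + c₂) + γ) i := by
    simp only [Wf, cc_add]
    rfl
  obtain ⟨a₁, ha₁, h₁⟩ := hG (c₁ + c₂) (hSb P P') γ (hSc _ _) i
  have h₂ : ∀ j, TMul A.toSubring ((ℓ : Qb) ^ M) (z (c₁ + c₂) j - u j (P, P')) := by
    intro j
    obtain ⟨a, ha, h⟩ := hG c₁ (hSa P) c₂ (hSa P') j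
    exact ⟨a, ha, h⟩
  have h₃ := eval_sub_eval_tMul A.toSubring ((ℓ : Qb) ^ M) (G i) (hGA i)
    (Sum.elim (z (c₁ + c₂)) (z γ)) (Sum.elim (fun j => u j (P, P')) (z γ))
    (by
      rintro (j | j)
      · exact (hz.z_mem _ (J1.add_mem (cc_mem hb P) (cc_mem hb P')) j).1
      · exact (hz.z_mem _ (gam_mem hb _ _) j).1)
    (by
      rintro (j | j)
      · exact eval_mem_of_coeff_mem A.toSubring (G j) (hGA j) _ (by
          rintro (k | k)
          · exact (hz.z_mem _ (cc_mem hb P) k).1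
          · exact (hz.z_mem _ (cc_mem hb P') k).1)
      · exact (hz.z_mem _ (gam_mem hb _ _) j).1)
    (by
      rintro (j | j)
      · exact h₂ j
      · simpa using tMul_zero A.toSubring _)
  obtain ⟨a₃, ha₃, h₃'⟩ := h₃
  refine ⟨a₀ * (a₁ + a₃), A.mul_mem _ _ ha₀ (A.add_mem _ _ ha₁ ha₃), ?_⟩
  rw [e1]
  have e2 : z (c₁ + c₂ + γ) i - T (cosOf J1 Z P) (cosOf J1 Z P') (P, P') =
      (z (c₁ + c₂ + γ) i - MvPolynomial.eval (Sum.elim (z (c₁ + c₂)) (z γ)) (G i)) +
      (MvPolynomial.eval (Sum.elim (z (c₁ + c₂)) (z γ)) (G i) -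
        MvPolynomial.eval (Sum.elim (fun j => u j (P, P')) (z γ)) (G i)) := by
    simp only [hT]
    ring
  rw [e2, h₁, h₃', ← mul_assoc, ← hM]
  ring

/-- the comultiplications of the generators are approximable by sums of pure tensors -/
theorem gens_approx [Fact ℓ.Prime] [Finite Z] (hA : A.LiesOverPrime ℓ)
    (hz : IsCoordDatum ℓ A J g J1 z) (hb : IsBase A J1 Z base) :
    ∀ h ∈ gens J1 Z base z A, ∀ d ∈ A, d ≠ 0 →
      ∃ F ∈ tensSubring (closureOrder A (subAct Z hZ) (gens J1 Z base z A)),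
        ∀ P P' : Z, ∃ x ∈ A, h (P + P') - F (P, P') = d * x := by
  classical
  cases nonempty_fintype Z
  haveI : Fintype (Cos J1 Z) := Fintype.ofFinite _
  have hsub : ∀ h ∈ gens J1 Z base z A,
      h ∈ closureOrder A (subAct Z hZ) (gens J1 Z base z A) := fun h hh =>
    gens_subset_closureOrder (subAct_isAct Z hZ) _ hh
  rintro h (⟨c, hc, rfl⟩ | ⟨C, rfl⟩ | ⟨i, rfl⟩) d _ hd
  · refine ⟨fun w => (fun _ : Z => c) w.1, tens_left_mem _ (hsub _ (gens_const c hc)), ?_⟩
    intro P P'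
    exact ⟨0, A.zero_mem, by simp⟩
  · refine ⟨∑ C₁, (fun w : Z × Z => ef J1 Z C₁ w.1 * ef J1 Z (C - C₁) w.2), ?_, ?_⟩
    · exact Subring.sum_mem _ fun C₁ _ =>
        tens_pure_mem _ (hsub _ (gens_ef C₁)) (hsub _ (gens_ef (C - C₁)))
    · intro P P'
      refine ⟨0, A.zero_mem, ?_⟩
      rw [Finset.sum_apply, Finset.sum_eq_single (cosOf J1 Z P)]
      · rw [ef_eq_one J1 Z rfl, one_mul, mul_zero, sub_eq_zero]
        by_cases hC : cosOf J1 Z (P + P') = C
        · have hC' : cosOf J1 Z P' = C - cosOf J1 Z P := by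
            rw [← hC, cosOf_add]
            abel
          rw [ef_eq_one J1 Z hC, ef_eq_one J1 Z hC']
        · have hC' : cosOf J1 Z P' ≠ C - cosOf J1 Z P := by
            intro h
            apply hC
            rw [cosOf_add, h]
            abel
          rw [ef_eq_zero J1 Z hC, ef_eq_zero J1 Z hC']
      · intro C₁ _ hC₁
        rw [ef_eq_zero J1 Z (Ne.symm hC₁), zero_mul]
      · simp
  · exact Wf_approx hA hz hb _ (fun c hc => hsub _ (gens_const c hc))
      (fun C => hsub _ (gens_ef C)) (fun j => hsub _ (gens_Wf j)) i d hd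

end Order

/-- **FF-C (sup-norm closure).** -/
theorem unrOrderOfCoord : UnrOrderOfCoordStatement := by
  intro ℓ _ A hA J _ _ g J1 z hz Z _ hZ _ hlift
  obtain ⟨base, hb⟩ := exists_isBase A J1 Z hlift
  exact ⟨closureOrder A (subAct Z hZ) (gens J1 Z base z A),
    isUnrHopfOrder_closureOrder (subAct_isAct Z hZ) _ (fun c hc => gens_const c hc)
      (gens_integral hz hb) (gens_inertia_equiv hZ hz hb) (gens_separates hz hb)
      (gens_approx hZ hA hz hb)⟩

end Fermat.Agent.H42.FFC
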