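/-
P-ES / ES-E, item E3 (helper42): analytic core of the Atkin-Lehner symmetry of `F_{Nℓ}`.

For `d ≥ 1` let `Jd d τ = j(d τ)`.  It is the evaluation of the formal series `j(q^d)`.
For `ℓ` prime to `N` there is a map `τ ↦ τ'` of the upper half plane with
`j(d τ') = j(d ℓ τ)` and `j(d ℓ τ') = j(d τ)` for all `d ∣ N`.
Hence every polynomial relation between the series `j(q^d), j(q^{dℓ})` (`d ∣ N`) stays true
after swapping `j(q^d) ↔ j(q^{dℓ})`.
-/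
import Mathlib
import Fermat.Agent.H17.EvalInst

set_option autoImplicit false

noncomputable section

open ModularCurve UpperHalfPlane ModularForm
open scoped MatrixGroups

namespace Fermat.Agent.H42

open Fermat.Agent.H17 Fermat.Agent.H27

local notation "𝕢" => Function.Periodic.qParam

/-- `τ ↦ j(d τ)` -/
def Jd (d : ℕ) (τ : ℍ) : ℂ := jFun (heckeDiagMatrix d • τ)

theorem qParam_one_natCast_mul (d : ℕ) (z : ℂ) :
    𝕢 (1 : ℝ) ((d : ℂ) * z) = (𝕢 (1 : ℝ) z) ^ d := by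
  unfold Function.Periodic.qParam
  rw [← Complex.exp_nat_mul]
  congr 1
  push_cast
  ring

/-- `j(d τ)` is the evaluation of the formal series `j(q^d)` at `q = exp(2 π i τ)`. -/
theorem isEval_Jd (d : ℕ) [NeZero d] : IsEval 1 (Jd d) (qExpand ℂ d (jqModC ℂ)) := by
  refine ⟨_, isLaurentOf_jDisc.qExpand d, fun τ => ?_⟩
  rw [Jd, jFun_eq_jDisc, coe_heckeDiagMatrix_smul (NeZero.ne d), qParam_one_natCast_mul]
  simp

/-- a function which is the evaluation of the zero series vanishes identically -/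
theorem IsEval.eq_zero_of_series_zero {p : ℕ} {F : ℍ → ℂ} [NeZero p] (h : IsEval p F 0) (τ : ℍ) :
    F τ = 0 := by
  obtain ⟨G, ⟨m, H, hH, hG, hf⟩, hF⟩ := h
  rw [mul_zero] at hf
  have htay : tay H = 0 := by
    apply HahnSeries.ofPowerSeries_injective (Γ := ℤ)
    rw [← hf, map_zero]
  have hq : ‖𝕢 (p : ℝ) τ‖ < 1 := norm_qParam_lt_one' p τ
  have hq0 : 𝕢 (p : ℝ) τ ≠ 0 := Complex.exp_ne_zero _
  have hsum := hasSum_tay hH hq
  rw [htay] at hsum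
  simp only [map_zero, zero_mul] at hsum
  have hH0 : H (𝕢 (p : ℝ) τ) = 0 := hsum.unique hasSum_zero
  have := hG _ hq hq0
  rw [hH0] at this
  rw [hF τ]
  exact (mul_eq_zero.mp this).resolve_right (pow_ne_zero _ hq0)

/-! ### the Atkin-Lehner point -/

section Point

variable (N ℓ : ℕ) (u v : ℤ)

/-- `[[1, d v], [e, ℓ u]]` with `d e = N`, `ℓ u - N v = 1` -/
def alG (d e : ℕ) (h : (ℓ : ℤ) * u - (d : ℤ) * v * (e : ℤ) = 1) : SL(2, ℤ) :=
  ⟨!![1, (d : ℤ) * v; (e : ℤ), (ℓ : ℤ) * u], by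
    rw [Matrix.det_fin_two_of]
    linarith⟩

/-- `[[ℓ, d v], [e, u]]` with `d e = N`, `ℓ u - N v = 1` -/
def alH (d e : ℕ) (h : (ℓ : ℤ) * u - (d : ℤ) * v * (e : ℤ) = 1) : SL(2, ℤ) :=
  ⟨!![(ℓ : ℤ), (d : ℤ) * v; (e : ℤ), u], by
    rw [Matrix.det_fin_two_of]
    linarith⟩

variable {N ℓ u v}

theorem coe_alG_smul {d e : ℕ} (h : (ℓ : ℤ) * u - (d : ℤ) * v * (e : ℤ) = 1) (z : ℍ) :
    ((alG ℓ u v d e h • z : ℍ) : ℂ) =
      ((z : ℂ) + (d : ℂ) * (v : ℂ)) / ((e : ℂ) * (z : ℂ) + (ℓ : ℂ) * (u : ℂ)) := by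
  rw [UpperHalfPlane.coe_specialLinearGroup_apply]
  simp [alG]

theorem coe_alH_smul {d e : ℕ} (h : (ℓ : ℤ) * u - (d : ℤ) * v * (e : ℤ) = 1) (z : ℍ) :
    ((alH ℓ u v d e h • z : ℍ) : ℂ) =
      ((ℓ : ℂ) * (z : ℂ) + (d : ℂ) * (v : ℂ)) / ((e : ℂ) * (z : ℂ) + (u : ℂ)) := by
  rw [UpperHalfPlane.coe_specialLinearGroup_apply]
  simp [alH]

theorem natCast_mul_add_intCast_ne_zero {e : ℕ} (he : e ≠ 0) (z : ℍ) (c : ℂ) (hc : c.im = 0) :
    (e : ℂ) * (z : ℂ) + c ≠ 0 := by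
  intro h0
  have him := congrArg Complex.im h0
  simp only [Complex.add_im, Complex.mul_im, Complex.natCast_re, Complex.natCast_im, zero_mul,
    add_zero, Complex.zero_im, hc] at him
  have hz : 0 < (z : ℂ).im := z.im_pos
  have he' : (0 : ℝ) < e := by exact_mod_cast Nat.pos_of_ne_zero he
  nlinarith

/-- the Atkin-Lehner point `τ' = (ℓ τ + v) / (N ℓ τ + ℓ u)` -/
def alPoint (N ℓ : ℕ) (u v : ℤ) (h : (ℓ : ℤ) * u - (1 : ℕ) * v * (N : ℤ) = 1) (τ : ℍ) : ℍ :=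
  alG ℓ u v 1 N h • (heckeDiagMatrix ℓ • τ)

theorem coe_alPoint (hℓ : ℓ ≠ 0) (h : (ℓ : ℤ) * u - (1 : ℕ) * v * (N : ℤ) = 1) (τ : ℍ) :
    ((alPoint N ℓ u v h τ : ℍ) : ℂ) =
      ((ℓ : ℂ) * (τ : ℂ) + (v : ℂ)) / ((N : ℂ) * ((ℓ : ℂ) * (τ : ℂ)) + (ℓ : ℂ) * (u : ℂ)) := by
  rw [alPoint, coe_alG_smul, coe_heckeDiagMatrix_smul hℓ]
  simp

/-- `d τ' = g_d (d ℓ τ)` -/
theorem heckeDiag_smul_alPoint (hℓ : ℓ ≠ 0) (hN : N ≠ 0)
    (h : (ℓ : ℤ) * u - (1 : ℕ) * v * (N : ℤ) = 1) {d e : ℕ} (hde : d * e = N)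
    (h' : (ℓ : ℤ) * u - (d : ℤ) * v * (e : ℤ) = 1) (τ : ℍ) :
    heckeDiagMatrix d • alPoint N ℓ u v h τ = alG ℓ u v d e h' • (heckeDiagMatrix (d * ℓ) • τ) := by
  have hd : d ≠ 0 := by rintro rfl; simp at hde; exact hN hde.symm
  have he : e ≠ 0 := by rintro rfl; simp at hde; exact hN hde.symm
  apply UpperHalfPlane.ext
  rw [coe_heckeDiagMatrix_smul hd, coe_alPoint hℓ, coe_alG_smul,
    coe_heckeDiagMatrix_smul (Nat.mul_ne_zero hd hℓ)]
  have hNc : (N : ℂ) = (d : ℂ) * (e : ℂ) := by rw [← hde]; push_cast; ring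
  have h1 : (N : ℂ) * ((ℓ : ℂ) * (τ : ℂ)) + (ℓ : ℂ) * (u : ℂ) ≠ 0 := by
    have := natCast_mul_add_intCast_ne_zero (Nat.mul_ne_zero hN hℓ) τ ((ℓ : ℂ) * (u : ℂ))
      (by simp)
    convert this using 1
    push_cast
    ring
  have h2 : (e : ℂ) * (((d * ℓ : ℕ) : ℂ) * (τ : ℂ)) + (ℓ : ℂ) * (u : ℂ) ≠ 0 := by
    convert h1 using 1
    rw [hNc]
    push_cast
    ring
  rw [mul_div_assoc', div_eq_div_iff h1 h2, hNc]
  push_cast
  ring

/-- `d ℓ τ' = h_d (d τ)` -/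
theorem heckeDiag_mul_smul_alPoint (hℓ : ℓ ≠ 0) (hN : N ≠ 0)
    (h : (ℓ : ℤ) * u - (1 : ℕ) * v * (N : ℤ) = 1) {d e : ℕ} (hde : d * e = N)
    (h' : (ℓ : ℤ) * u - (d : ℤ) * v * (e : ℤ) = 1) (τ : ℍ) :
    heckeDiagMatrix (d * ℓ) • alPoint N ℓ u v h τ = alH ℓ u v d e h' • (heckeDiagMatrix d • τ) := by
  have hd : d ≠ 0 := by rintro rfl; simp at hde; exact hN hde.symm
  have he : e ≠ 0 := by rintro rfl; simp at hde; exact hN hde.symm
  apply UpperHalfPlane.ext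
  rw [coe_heckeDiagMatrix_smul (Nat.mul_ne_zero hd hℓ), coe_alPoint hℓ, coe_alH_smul,
    coe_heckeDiagMatrix_smul hd]
  have hNc : (N : ℂ) = (d : ℂ) * (e : ℂ) := by rw [← hde]; push_cast; ring
  have hℓc : (ℓ : ℂ) ≠ 0 := by exact_mod_cast hℓ
  have h1 : (N : ℂ) * ((ℓ : ℂ) * (τ : ℂ)) + (ℓ : ℂ) * (u : ℂ) ≠ 0 := by
    have := natCast_mul_add_intCast_ne_zero (Nat.mul_ne_zero hN hℓ) τ ((ℓ : ℂ) * (u : ℂ))
      (by simp)
    convert this using 1
    push_cast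
    ring
  have h2 : (e : ℂ) * ((d : ℂ) * (τ : ℂ)) + (u : ℂ) ≠ 0 := by
    have := natCast_mul_add_intCast_ne_zero (Nat.mul_ne_zero he hd) τ (u : ℂ) (by simp)
    convert this using 1
    push_cast
    ring
  rw [mul_div_assoc', div_eq_div_iff h1 h2, hNc]
  push_cast
  ring

/-- `j(d τ') = j(d ℓ τ)` -/
theorem Jd_alPoint (hℓ : ℓ ≠ 0) (hN : N ≠ 0)
    (h : (ℓ : ℤ) * u - (1 : ℕ) * v * (N : ℤ) = 1) {d : ℕ} (hd : d ∣ N) (τ : ℍ) :
    Jd d (alPoint N ℓ u v h τ) = Jd (d * ℓ) τ := by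
  obtain ⟨e, rfl⟩ := hd
  have h' : (ℓ : ℤ) * u - (d : ℤ) * v * (e : ℤ) = 1 := by
    rw [← h]; push_cast; ring
  rw [Jd, Jd, heckeDiag_smul_alPoint hℓ hN h rfl h', jFun_smul]

/-- `j(d ℓ τ') = j(d τ)` -/
theorem Jd_mul_alPoint (hℓ : ℓ ≠ 0) (hN : N ≠ 0)
    (h : (ℓ : ℤ) * u - (1 : ℕ) * v * (N : ℤ) = 1) {d : ℕ} (hd : d ∣ N) (τ : ℍ) :
    Jd (d * ℓ) (alPoint N ℓ u v h τ) = Jd d τ := by
  obtain ⟨e, rfl⟩ := hd
  have h' : (ℓ : ℤ) * u - (d : ℤ) * v * (e : ℤ) = 1 := by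
    rw [← h]; push_cast; ring
  rw [Jd, Jd, heckeDiag_mul_smul_alPoint hℓ hN h rfl h', jFun_smul]

/-- Bezout: for coprime `ℓ, N` there are `u, v` with `ℓ u - N v = 1` -/
theorem exists_bezout (hcop : Nat.Coprime ℓ N) :
    ∃ u v : ℤ, (ℓ : ℤ) * u - (1 : ℕ) * v * (N : ℤ) = 1 := by
  have h := Int.gcd_eq_gcd_ab ℓ N
  rw [Int.gcd_natCast_natCast, hcop] at h
  refine ⟨Int.gcdA ℓ N, -Int.gcdB ℓ N, ?_⟩
  push_cast at h ⊢
  linarith

end Point

/-! ### the families indexed by `{d // d ∣ N} × Bool` -/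

section Family

variable (N ℓ : ℕ)

/-- index type for the generators of `F_{Nℓ}`: `(d, false) ↦ j(q^d)`, `(d, true) ↦ j(q^{dℓ})` -/
abbrev ALIndex : Type := {d : ℕ // d ∣ N} × Bool

variable {N}

/-- the swap `j(q^d) ↔ j(q^{dℓ})` on indices -/
def alSwap (i : ALIndex N) : ALIndex N := (i.1, !i.2)

@[simp] theorem alSwap_alSwap (i : ALIndex N) : alSwap (alSwap i) = i := by
  simp [alSwap]

/-- the level of the generator with index `i` -/
def alLevel (i : ALIndex N) : ℕ := if i.2 then i.1.1 * ℓ else i.1.1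

/-- `j(q^m)` over a coefficient ring `L`, with junk value at `m = 0` -/
def jqd (L : Type*) [CommRing L] (m : ℕ) : LaurentSeries L :=
  if h : m = 0 then 0 else haveI : NeZero m := ⟨h⟩; qExpand L m (jqModC L)

theorem jqd_eq (L : Type*) [CommRing L] (m : ℕ) [NeZero m] :
    jqd L m = qExpand L m (jqModC L) := by
  rw [jqd, dif_neg (NeZero.ne m)]

theorem coeffMap_jqd {L L' : Type*} [CommRing L] [CommRing L'] (f : L →+* L') (m : ℕ) :
    coeffMap f (jqd L m) = jqd L' m := by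
  by_cases h : m = 0
  · simp [jqd, h]
  · haveI : NeZero m := ⟨h⟩
    rw [jqd_eq, jqd_eq, ModularCurve.coeffMap_qExpand, ModularCurve.coeffMap_jqModC]

/-- the formal generators -/
def alGen (L : Type*) [CommRing L] (i : ALIndex N) : LaurentSeries L := jqd L (alLevel ℓ i)

/-- the analytic generators -/
def alFun (i : ALIndex N) (τ : ℍ) : ℂ := Jd (alLevel ℓ i) τ

variable {ℓ}

theorem alLevel_ne_zero (hℓ : ℓ ≠ 0) (hN : N ≠ 0) (i : ALIndex N) : alLevel ℓ i ≠ 0 := by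
  have hd : i.1.1 ≠ 0 := fun h => hN (by have := i.1.2; rw [h] at this; exact zero_dvd_iff.mp this)
  unfold alLevel
  split_ifs
  · exact Nat.mul_ne_zero hd hℓ
  · exact hd

theorem isEval_alFun (hℓ : ℓ ≠ 0) (hN : N ≠ 0) (i : ALIndex N) :
    IsEval 1 (alFun ℓ i) (alGen ℓ ℂ i) := by
  haveI : NeZero (alLevel ℓ i) := ⟨alLevel_ne_zero hℓ hN i⟩
  rw [alGen, jqd_eq]
  exact isEval_Jd _

theorem alFun_alPoint (hℓ : ℓ ≠ 0) (hN : N ≠ 0) {u v : ℤ}
    (h : (ℓ : ℤ) * u - (1 : ℕ) * v * (N : ℤ) = 1) (i : ALIndex N) (τ : ℍ) :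
    alFun ℓ i (alPoint N ℓ u v h τ) = alFun ℓ (alSwap i) τ := by
  obtain ⟨⟨d, hd⟩, b⟩ := i
  cases b
  · simp only [alFun, alLevel, alSwap, Bool.not_false, if_true]
    simpa using Jd_alPoint hℓ hN h hd τ
  · simp only [alFun, alLevel, alSwap, Bool.not_true, if_true]
    simpa using Jd_mul_alPoint hℓ hN h hd τ

/-- polynomial expressions in the analytic generators are the evaluations of the same
polynomial expressions in the formal generators -/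
theorem isEval_aeval (hℓ : ℓ ≠ 0) (hN : N ≠ 0) (P : MvPolynomial (ALIndex N) ℂ) :
    IsEval 1 (fun τ => MvPolynomial.eval (fun i => alFun ℓ i τ) P)
      (MvPolynomial.aeval (alGen ℓ ℂ) P) := by
  induction P using MvPolynomial.induction_on with
  | C a =>
    have := isEval_const 1 a
    simpa [MvPolynomial.aeval_C, HahnSeries.C_apply, algebraMap_laurentSeries_eq_single] using this
  | add p q hp hq =>
    have := hp.add hq
    simpa using this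
  | mul_X p i hp =>
    have := hp.mul (isEval_alFun hℓ hN i)
    simpa using this

/-- **key lemma over `ℂ`**: relations between the generators are stable under the swap -/
theorem aeval_rename_alSwap_eq_zero_complex (hℓ : ℓ ≠ 0) (hN : N ≠ 0) (hcop : Nat.Coprime ℓ N)
    (P : MvPolynomial (ALIndex N) ℂ) (hP : MvPolynomial.aeval (alGen ℓ ℂ) P = 0) :
    MvPolynomial.aeval (alGen ℓ ℂ) (MvPolynomial.rename alSwap P) = 0 := by
  obtain ⟨u, v, h⟩ := exists_bezout hcop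
  have h1 := isEval_aeval hℓ hN P
  rw [hP] at h1
  have h2 := isEval_aeval hℓ hN (MvPolynomial.rename alSwap P)
  have h3 : (fun τ => MvPolynomial.eval (fun i => alFun ℓ i τ) (MvPolynomial.rename alSwap P)) =
      fun _ => 0 := by
    funext τ
    rw [MvPolynomial.eval_rename]
    have := IsEval.eq_zero_of_series_zero h1 (alPoint N ℓ u v h τ)
    simp only [alFun_alPoint hℓ hN h] at this
    exact this
  rw [h3] at h2
  have h4 : IsEval 1 (fun _ : ℍ => (0 : ℂ)) (0 : LaurentSeries ℂ) := by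
    have := isEval_const 1 0
    simpa using this
  exact h2.unique h4

end Family

end Fermat.Agent.H42
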