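/-
P-ES / ES-E, row Q-ES-1 (helper42): `Fermat.Agent.H36.NormSeriesStatement N` from the degree
`[F_{Nℓ}(ℚ̄) : α F_N(ℚ̄)] = ℓ + 1`.
-/
import Fermat.Agent.H42.ESENormSeries
import Fermat.Agent.H36.ESE.TorsionInterfaces

set_option autoImplicit false

noncomputable section

open ModularCurve HahnSeries IntermediateField AlgebraicCurve

namespace Fermat.Agent.H42

/-- **Q-ES-1** from the degree of `α` over `ℚ̄`. -/
theorem normSeriesStatement_of_degree (N : ℕ) [NeZero N]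
    (hdeg : ∀ (ℓ : ℕ) [NeZero ℓ], ℓ.Prime → ¬ ℓ ∣ N →
      finrankAlong (AlgebraicClosure ℚ) (heckeAlphaBar (AlgebraicClosure ℚ) N ℓ) = ℓ + 1) :
    Fermat.Agent.H36.NormSeriesStatement N := by
  intro ℓ _ hℓ hℓN ζ hζ f
  obtain ⟨W, hWα, hWβ, -⟩ := atkinLehnerStatement_algebraicClosure (N := N) hℓ hℓN
  exact qExpand_norm_beta_eq W hWα hWβ ζ hℓ hζ (hdeg ℓ hℓ hℓN) f

end Fermat.Agent.H42
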