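import Fermat.Agent.H17.EvalCalc
import Fermat.Agent.H42.HeckePermT1

/-!
# IG-M [T2(b)] glue: `IsEval` instances for the base, the conjugates and the units

Generic in the disc functions `Jd`, `Dd` (the concrete ones are in `Fermat.Agent.H17.DiscFacts`).
-/

set_option autoImplicit false

noncomputable section

namespace Fermat.Agent.H42

open UpperHalfPlane Fermat.Agent.H17 Fermat.Agent.H27 ModularCurve
open scoped MatrixGroups ModularForm

/-- `𝕢 1 τ = (𝕢 p τ) ^ p`. -/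
theorem qParam_one_eq_pow (p : ℕ) [NeZero p] (z : ℂ) :
    Function.Periodic.qParam (1 : ℝ) z = Function.Periodic.qParam (p : ℝ) z ^ p := by
  have hp : (p : ℂ) ≠ 0 := Nat.cast_ne_zero.mpr (NeZero.ne p)
  unfold Function.Periodic.qParam
  rw [← Complex.exp_nat_mul]
  congr 1
  push_cast
  field_simp

/-- `𝕢 1 (α_∞ τ) = ((𝕢 p τ) ^ p) ^ p`. -/
theorem qParam_one_hRep_infty (p : ℕ) [NeZero p] (τ : ℍ) :
    Function.Periodic.qParam (1 : ℝ) ((hRep p OnePoint.infty • τ : ℍ) : ℂ) =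
      (Function.Periodic.qParam (p : ℝ) τ ^ p) ^ p := by
  have hp : (p : ℂ) ≠ 0 := Nat.cast_ne_zero.mpr (NeZero.ne p)
  rw [hRep_infty, ModularForm.coe_heckeDiagMatrix_smul (NeZero.ne p)]
  unfold Function.Periodic.qParam
  rw [← Complex.exp_nat_mul, ← Complex.exp_nat_mul]
  congr 1
  push_cast
  field_simp

/-- `𝕢 1 (α_b τ) = ζ ^ b * 𝕢 p τ`. -/
theorem qParam_one_hRep_coe (p : ℕ) [NeZero p] (b : ZMod p) (τ : ℍ) :
    Function.Periodic.qParam (1 : ℝ) ((hRep p (b : OnePoint (ZMod p)) • τ : ℍ) : ℂ) =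
      ((zetaC p ^ b.val : ℂˣ) : ℂ) * Function.Periodic.qParam (p : ℝ) τ := by
  have hp : (p : ℂ) ≠ 0 := Nat.cast_ne_zero.mpr (NeZero.ne p)
  rw [hRep_coe, ModularForm.coe_heckeMatrix_smul (NeZero.ne p)]
  unfold Function.Periodic.qParam zetaC
  rw [Units.val_pow_eq_pow_val, Units.val_mk0, ← Complex.exp_nat_mul, ← Complex.exp_add]
  congr 1
  push_cast
  field_simp
  ring

theorem norm_zetaC_eq_one (p : ℕ) : ‖(zetaC p : ℂ)‖ = 1 := by
  unfold zetaC
  rw [Units.val_mk0, Complex.norm_exp]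
  simp

theorem norm_zetaC_pow (p : ℕ) (n : ℕ) : ‖((zetaC p ^ n : ℂˣ) : ℂ)‖ = 1 := by
  rw [Units.val_pow_eq_pow_val, norm_pow, norm_zetaC_eq_one, one_pow]

theorem natCast_pow_eq_C (p : ℕ) :
    ((p : LaurentSeries ℂ)) ^ 12 = HahnSeries.C ((p : ℂ) ^ 12) := by
  rw [map_pow, map_natCast]

/-- **[T2(b)] glue.** -/
theorem isEval_instances (p : ℕ) [NeZero p] (Jd Dd : ℂ → ℂ)
    (hJ : IsLaurentOf Jd (ModularCurve.jqModC ℂ))
    (hJ' : ∀ τ : ℍ, jFun τ = Jd (Function.Periodic.qParam (1 : ℝ) τ))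
    (hD : IsLaurentOf Dd (Fermat.Agent.H27.deltaS ℂ))
    (hD' : ∀ τ : ℍ, ModularForm.discriminant τ = Dd (Function.Periodic.qParam (1 : ℝ) τ))
    (hDi : IsLaurentOf (fun q => (Dd q)⁻¹) (Fermat.Agent.H27.deltaInvS ℂ)) :
    IsEval p jFun (Fermat.Agent.H27.baseS ℂ p) ∧
      (∀ x, IsEval p (rAn p x) (rFo p (zetaC p) x)) ∧
      (∀ x, IsEval p (uAn p x) (uFo p (zetaC p) x)) := by
  have hp : p ≠ 0 := NeZero.ne p
  refine ⟨?_, ?_, ?_⟩
  · -- base
    refine ⟨fun q => Jd (q ^ p), hJ.qExpand p, fun τ => ?_⟩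
    rw [hJ', qParam_one_eq_pow p]
  · intro x
    induction x using OnePoint.rec with
    | infty =>
      refine ⟨fun q => Jd ((q ^ p) ^ p), (hJ.qExpand p).qExpand p, fun τ => ?_⟩
      show jFun (hRep p OnePoint.infty • τ) = _
      rw [hJ', qParam_one_hRep_infty p]
    | coe b =>
      refine ⟨fun q => Jd (((zetaC p ^ b.val : ℂˣ) : ℂ) * q),
        hJ.twist (zetaC p ^ b.val) (norm_zetaC_pow p b.val), fun τ => ?_⟩
      show jFun (hRep p (b : OnePoint (ZMod p)) • τ) = _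
      rw [hJ', qParam_one_hRep_coe p]
  · intro x
    induction x using OnePoint.rec with
    | infty =>
      refine ⟨fun q => (fun _ => (p : ℂ) ^ 12) q * Dd ((q ^ p) ^ p) * (Dd (q ^ p))⁻¹, ?_,
        fun τ => ?_⟩
      · have h1 := ((isLaurentOf_const ((p : ℂ) ^ 12)).mul ((hD.qExpand p).qExpand p)).mul
          (hDi.qExpand p)
        have h2 : uFo p (zetaC p) (OnePoint.infty : OnePoint (ZMod p)) =
            HahnSeries.C ((p : ℂ) ^ 12) * qExpand ℂ p (qExpand ℂ p (deltaS ℂ)) *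
              qExpand ℂ p (deltaInvS ℂ) := by
          show unitInf ℂ p = _
          rw [unitInf, natCast_pow_eq_C]
        rw [h2]
        exact h1
      · rw [uAn_eq_unitFun, unitFun_infty hp, ← hRep_infty, hD', hD', qParam_one_hRep_infty p,
          qParam_one_eq_pow p]
        simp only [div_eq_mul_inv]
    | coe b =>
      refine ⟨fun q => Dd (((zetaC p ^ b.val : ℂˣ) : ℂ) * q) * (Dd (q ^ p))⁻¹, ?_, fun τ => ?_⟩
      · have h1 := (hD.twist (zetaC p ^ b.val) (norm_zetaC_pow p b.val)).mul (hDi.qExpand p)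
        exact h1
      · rw [uAn_eq_unitFun, unitFun_coe hp, ← hRep_coe, hD', hD', qParam_one_hRep_coe p,
          qParam_one_eq_pow p]
        simp only [div_eq_mul_inv]

end Fermat.Agent.H42
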