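import Fermat.Agent.H17.EvalInst
import Fermat.Agent.H44.IgM.Reindex
import Fermat.Agent.H42.HeckePermT1

/-!
# IG-M [T4] coefficient-level lemma

For a prime `p`, every coefficient of the three formal Hecke polynomials (built on the standard
root of unity `zetaC p`, hence on any primitive root) is an integral polynomial in `j(t^p)`.
-/

set_option autoImplicit false

noncomputable section

namespace Fermat.Agent.H42

open UpperHalfPlane Fermat.Agent.H17 Fermat.Agent.H27 ModularCurve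
open scoped MatrixGroups ModularForm

theorem symPhi_rAn_smul (p : ℕ) [Fact p.Prime] (g : SL(2, ℤ)) (τ : ℍ) :
    symPhi (fun x => rAn p x (g • τ)) = symPhi (fun x => rAn p x τ) := by
  have h : (fun x => rAn p x (g • τ)) = fun x => rAn p (hPerm p g x) τ := by
    funext x
    exact (perm_rAn_uAn p g x τ).1
  rw [h]
  exact symPhi_comp_equiv (hPerm p g) (fun x => rAn p x τ)

theorem symPhi_uAn_smul (p : ℕ) [Fact p.Prime] (g : SL(2, ℤ)) (τ : ℍ) :
    symPhi (fun x => uAn p x (g • τ)) = symPhi (fun x => uAn p x τ) := by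
  have h : (fun x => uAn p x (g • τ)) = fun x => uAn p (hPerm p g x) τ := by
    funext x
    exact (perm_rAn_uAn p g x τ).2
  rw [h]
  exact symPhi_comp_equiv (hPerm p g) (fun x => uAn p x τ)

theorem symL_rAn_uAn_smul (p : ℕ) [Fact p.Prime] (g : SL(2, ℤ)) (τ : ℍ) :
    symL (fun x => rAn p x (g • τ)) (fun x => uAn p x (g • τ)) =
      symL (fun x => rAn p x τ) (fun x => uAn p x τ) := by
  have h1 : (fun x => rAn p x (g • τ)) = fun x => rAn p (hPerm p g x) τ := by
    funext x
    exact (perm_rAn_uAn p g x τ).1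
  have h2 : (fun x => uAn p x (g • τ)) = fun x => uAn p (hPerm p g x) τ := by
    funext x
    exact (perm_rAn_uAn p g x τ).2
  rw [h1, h2]
  exact symL_comp_equiv (hPerm p g) (fun x => rAn p x τ) (fun x => uAn p x τ)

/-- **Coefficient-level lemma for [T4]** (standard root of unity). -/
theorem exists_intPoly_coeffs (p : ℕ) [NeZero p] (hp : p.Prime) :
    (∀ k, ∃ P : Polynomial ℤ,
      (symPhi (rFo p (zetaC p))).coeff k = evalAt (baseS ℂ p) P) ∧
    (∀ k, ∃ P : Polynomial ℤ,
      (symPhi (uFo p (zetaC p))).coeff k = evalAt (baseS ℂ p) P) ∧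
    (∀ k, ∃ P : Polynomial ℤ,
      (symL (rFo p (zetaC p)) (uFo p (zetaC p))).coeff k = evalAt (baseS ℂ p) P) := by
  have : Fact p.Prime := ⟨hp⟩
  obtain ⟨hi1, hi2, hi3⟩ :=
    Fermat.Agent.H44.formal_integrality p hp (zetaC p) (Fermat.Agent.H44.zetaC_isPrimitiveRoot p)
  refine ⟨fun k => ?_, fun k => ?_, fun k => ?_⟩
  · exact exists_intPoly_of_isEval p
      (isEval_symPhi_coeff (rAn p) (rFo p (zetaC p)) (fun x => isEval_rAn p x) k)
      (fun g τ => by rw [symPhi_rAn_smul p g τ]) (hi1 k)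
  · exact exists_intPoly_of_isEval p
      (isEval_symPhi_coeff (uAn p) (uFo p (zetaC p)) (fun x => isEval_uAn p x) k)
      (fun g τ => by rw [symPhi_uAn_smul p g τ]) (hi2 k)
  · exact exists_intPoly_of_isEval p
      (isEval_symL_coeff (rAn p) (uAn p) (rFo p (zetaC p)) (uFo p (zetaC p))
        (fun x => isEval_rAn p x) (fun x => isEval_uAn p x) k)
      (fun g τ => by rw [symL_rAn_uAn_smul p g τ]) (hi3 k)

/-- The same for an arbitrary primitive `p`-th root of unity. -/
theorem exists_intPoly_coeffs_of_primitive (p : ℕ) [NeZero p] (hp : p.Prime) (ζ : ℂˣ)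
    (hζ : IsPrimitiveRoot (ζ : ℂ) p) :
    (∀ k, ∃ P : Polynomial ℤ,
      (symPhi (rFo p ζ)).coeff k = evalAt (baseS ℂ p) P) ∧
    (∀ k, ∃ P : Polynomial ℤ,
      (symPhi (uFo p ζ)).coeff k = evalAt (baseS ℂ p) P) ∧
    (∀ k, ∃ P : Polynomial ℤ,
      (symL (rFo p ζ) (uFo p ζ)).coeff k = evalAt (baseS ℂ p) P) := by
  obtain ⟨σ, -, hσ⟩ := Fermat.Agent.H44.symPhi_rFo_eq p hp ζ hζ
  have hr : rFo p ζ = fun x => rFo p (zetaC p) (σ x) := funext fun x => (hσ x).1
  have hu : uFo p ζ = fun x => uFo p (zetaC p) (σ x) := funext fun x => (hσ x).2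
  have e1 : symPhi (rFo p ζ) = symPhi (rFo p (zetaC p)) := by
    rw [hr]; exact symPhi_comp_equiv σ _
  have e2 : symPhi (uFo p ζ) = symPhi (uFo p (zetaC p)) := by
    rw [hu]; exact symPhi_comp_equiv σ _
  have e3 : symL (rFo p ζ) (uFo p ζ) = symL (rFo p (zetaC p)) (uFo p (zetaC p)) := by
    rw [hr, hu]; exact symL_comp_equiv σ _ _
  rw [e1, e2, e3]
  exact exists_intPoly_coeffs p hp

end Fermat.Agent.H42
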