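import Fermat.Agent.H42.HeckeGrowth
import Fermat.Agent.H96.PolyInJ

/-!
# P-IGUSA, IG-M: analytic packaging of the Hecke polynomials

For a prime `p` there are polynomials `PhiC p`, `PsiC p`, `LC p : ℂ[X][Y]` such that for all `τ ∈ ℍ`
(substituting `X ↦ j(τ)`):

* `PhiC p (j τ, Y) = ∏_x (Y - r_x(τ))`,
* `PsiC p (j τ, Y) = ∏_x (Y - u_x(τ))`,
* `LC p (j τ, Y) = ∑_x u_x(τ) ∏_{y ≠ x} (Y - r_y(τ))`,

where `x` runs through `OnePoint (ZMod p)`, `r_x = conjFun p jAn x`, `u_x = unitFun p Δ x`.
-/

set_option autoImplicit false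

noncomputable section

namespace Fermat.Agent.H42

open UpperHalfPlane Matrix.SpecialLinearGroup Polynomial Filter
open scoped MatrixGroups ModularForm Manifold

/-- Generic packaging: a polynomial-valued function of `τ` of bounded degree all of whose
coefficients are holomorphic, `SL(2, ℤ)`-invariant and of bounded pole order at `i∞`, is of the
form `τ ↦ P(j τ, Y)` for some `P ∈ ℂ[X][Y]`. -/
theorem exists_bivariate (F : ℍ → ℂ[X]) (d m : ℕ) (hdeg : ∀ τ, (F τ).natDegree ≤ d)
    (hol : ∀ n, MDifferentiable 𝓘(ℂ) 𝓘(ℂ) (fun τ : ℍ => (F τ).coeff n))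
    (hinv : ∀ (g : SL(2, ℤ)) (τ : ℍ), F (g • τ) = F τ)
    (hpole : ∀ n, PoleLE m (fun τ : ℍ => (F τ).coeff n)) :
    ∃ P : Polynomial (Polynomial ℂ), P.natDegree ≤ d ∧ (∀ n, (P.coeff n).natDegree ≤ m) ∧
      ∀ τ : ℍ, P.map (Polynomial.evalRingHom (jAn τ)) = F τ := by
  have hex : ∀ n, ∃ Q : Polynomial ℂ, Q.natDegree ≤ m ∧
      ∀ z : ℍ, (F z).coeff n = Q.eval (jAn z) := by
    intro n
    exact Fermat.Agent.H96.exists_polynomial_j (hol n)
      (fun g z => by rw [hinv g z]) m (hpole n)
  choose Q hQdeg hQ using hex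
  refine ⟨∑ n ∈ Finset.range (d + 1), Polynomial.monomial n (Q n), ?_, ?_, ?_⟩
  · refine Polynomial.natDegree_sum_le_of_forall_le _ _ (fun n hn => ?_)
    exact le_trans (Polynomial.natDegree_monomial_le _) (Nat.lt_succ_iff.mp (Finset.mem_range.mp hn))
  · intro n
    rw [Polynomial.finsetSum_coeff]
    simp only [Polynomial.coeff_monomial]
    rw [Finset.sum_ite_eq' (Finset.range (d + 1)) n (fun i => Q i)]
    split_ifs
    · exact hQdeg n
    · simp
  · intro τ
    rw [Polynomial.map_sum]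
    simp only [Polynomial.map_monomial, Polynomial.coe_evalRingHom]
    conv_rhs => rw [(F τ).as_sum_range' (d + 1) (Nat.lt_succ_iff.mpr (hdeg τ))]
    refine Finset.sum_congr rfl (fun n _ => ?_)
    rw [hQ n τ]

section concrete

variable (p : ℕ) [NeZero p]

theorem card_index : (Finset.univ : Finset (OnePoint (ZMod p))).card = p + 1 := by
  rw [Finset.card_univ]
  have : Fintype.card (OnePoint (ZMod p)) = Fintype.card (Option (ZMod p)) := rfl
  rw [this, Fintype.card_option, ZMod.card]

theorem PhiAn_monic (f : ℍ → ℂ) (τ : ℍ) : (PhiAn p f τ).Monic :=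
  Polynomial.monic_prod_of_monic _ _ (fun _ _ => Polynomial.monic_X_sub_C _)

theorem PhiAn_natDegree (f : ℍ → ℂ) (τ : ℍ) : (PhiAn p f τ).natDegree = p + 1 := by
  unfold PhiAn
  rw [Polynomial.natDegree_prod_of_monic _ _ (fun _ _ => Polynomial.monic_X_sub_C _)]
  simp only [Polynomial.natDegree_X_sub_C, Finset.sum_const, smul_eq_mul, mul_one]
  exact card_index p

theorem PsiAn_monic (D : ℍ → ℂ) (τ : ℍ) : (PsiAn p D τ).Monic :=
  Polynomial.monic_prod_of_monic _ _ (fun _ _ => Polynomial.monic_X_sub_C _)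

theorem PsiAn_natDegree (D : ℍ → ℂ) (τ : ℍ) : (PsiAn p D τ).natDegree = p + 1 := by
  unfold PsiAn
  rw [Polynomial.natDegree_prod_of_monic _ _ (fun _ _ => Polynomial.monic_X_sub_C _)]
  simp only [Polynomial.natDegree_X_sub_C, Finset.sum_const, smul_eq_mul, mul_one]
  exact card_index p

theorem LAn_natDegree_le (f D : ℍ → ℂ) (τ : ℍ) : (LAn p f D τ).natDegree ≤ p := by
  classical
  unfold LAn
  refine Polynomial.natDegree_sum_le_of_forall_le _ _ (fun x _ => ?_)
  refine le_trans (Polynomial.natDegree_C_mul_le _ _) ?_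
  rw [Polynomial.natDegree_prod_of_monic _ _ (fun _ _ => Polynomial.monic_X_sub_C _)]
  simp only [Polynomial.natDegree_X_sub_C, Finset.sum_const, smul_eq_mul, mul_one]
  rw [Finset.card_erase_of_mem (Finset.mem_univ x), card_index p]
  simp

theorem poleLE_PhiAn_coeff (n : ℕ) :
    PoleLE (p * (p + 1)) (fun τ : ℍ => (PhiAn p jAn τ).coeff n) := by
  have h := poleLE_coeff_prod_X_sub_C (Finset.univ : Finset (OnePoint (ZMod p)))
    (fun x => conjFun p jAn x) p (fun x _ => poleLE_conjFun_jAn (NeZero.ne p) x) n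
  rw [card_index p] at h
  exact h

theorem poleLE_PsiAn_coeff (n : ℕ) :
    PoleLE (p + 1) (fun τ : ℍ => (PsiAn p ModularForm.discriminant τ).coeff n) := by
  have h := poleLE_coeff_prod_X_sub_C (Finset.univ : Finset (OnePoint (ZMod p)))
    (fun x => unitFun p ModularForm.discriminant x) 1
    (fun x _ => poleLE_unitFun_discriminant (NeZero.ne p) x) n
  rw [card_index p, one_mul] at h
  exact h

theorem poleLE_LAn_coeff (n : ℕ) :
    PoleLE (1 + p * p) (fun τ : ℍ => (LAn p jAn ModularForm.discriminant τ).coeff n) := by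
  classical
  unfold LAn
  simp only [finsetSum_coeff, coeff_C_mul]
  refine PoleLE.sum _ (fun x _ => ?_)
  have h := poleLE_coeff_prod_X_sub_C ((Finset.univ : Finset (OnePoint (ZMod p))).erase x)
    (fun x => conjFun p jAn x) p (fun x _ => poleLE_conjFun_jAn (NeZero.ne p) x) n
  rw [Finset.card_erase_of_mem (Finset.mem_univ x), card_index p, Nat.add_sub_cancel] at h
  exact (poleLE_unitFun_discriminant (NeZero.ne p) x).mul h

variable [Fact p.Prime]

/-- **The modular polynomial over `ℂ`** (analytic form). -/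
theorem exists_PhiC : ∃ P : Polynomial (Polynomial ℂ), P.Monic ∧ P.natDegree = p + 1 ∧
    ∀ τ : ℍ, P.map (Polynomial.evalRingHom (jAn τ)) = PhiAn p jAn τ := by
  obtain ⟨P, hPdeg, -, hP⟩ := exists_bivariate (PhiAn p jAn) (p + 1) (p * (p + 1))
    (fun τ => (PhiAn_natDegree p jAn τ).le)
    (fun n => mdiff_PhiAn_coeff p jAn mdiff_jAn n)
    (fun g τ => PhiAn_smul p jAn jAn_smul g τ)
    (fun n => poleLE_PhiAn_coeff p n)
  have hcoeff : P.coeff (p + 1) = 1 := by
    refine Fermat.Agent.H96.polynomial_j_ext (fun z => ?_)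
    have h1 := congrArg (fun q => Polynomial.coeff q (p + 1)) (hP z)
    simp only [Polynomial.coeff_map, Polynomial.coe_evalRingHom] at h1
    have h2 : (PhiAn p jAn z).coeff (p + 1) = 1 := by
      have := (PhiAn_monic p jAn z).coeff_natDegree
      rwa [PhiAn_natDegree] at this
    rw [h2] at h1
    simpa [jAn] using h1
  have hnat : P.natDegree = p + 1 := by
    refine le_antisymm hPdeg ?_
    exact Polynomial.le_natDegree_of_ne_zero (by rw [hcoeff]; exact one_ne_zero)
  refine ⟨P, ?_, hnat, hP⟩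
  rw [Polynomial.Monic, Polynomial.leadingCoeff, hnat, hcoeff]

/-- **The unit polynomial over `ℂ`** (analytic form). -/
theorem exists_PsiC : ∃ P : Polynomial (Polynomial ℂ), P.Monic ∧ P.natDegree = p + 1 ∧
    ∀ τ : ℍ, P.map (Polynomial.evalRingHom (jAn τ)) = PsiAn p ModularForm.discriminant τ := by
  obtain ⟨P, hPdeg, -, hP⟩ := exists_bivariate (PsiAn p ModularForm.discriminant) (p + 1) (p + 1)
    (fun τ => (PsiAn_natDegree p _ τ).le)
    (fun n => mdiff_PsiAn_coeff p _ mdiff_discriminant ModularForm.discriminant_ne_zero n)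
    (fun g τ => PsiAn_smul p _ discriminant_slash g τ)
    (fun n => poleLE_PsiAn_coeff p n)
  have hcoeff : P.coeff (p + 1) = 1 := by
    refine Fermat.Agent.H96.polynomial_j_ext (fun z => ?_)
    have h1 := congrArg (fun q => Polynomial.coeff q (p + 1)) (hP z)
    simp only [Polynomial.coeff_map, Polynomial.coe_evalRingHom] at h1
    have h2 : (PsiAn p ModularForm.discriminant z).coeff (p + 1) = 1 := by
      have := (PsiAn_monic p ModularForm.discriminant z).coeff_natDegree
      rwa [PsiAn_natDegree] at this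
    rw [h2] at h1
    simpa [jAn] using h1
  have hnat : P.natDegree = p + 1 := by
    refine le_antisymm hPdeg ?_
    exact Polynomial.le_natDegree_of_ne_zero (by rw [hcoeff]; exact one_ne_zero)
  refine ⟨P, ?_, hnat, hP⟩
  rw [Polynomial.Monic, Polynomial.leadingCoeff, hnat, hcoeff]

/-- **The interpolation polynomial over `ℂ`** (analytic form). -/
theorem exists_LC : ∃ P : Polynomial (Polynomial ℂ), P.natDegree ≤ p ∧
    ∀ τ : ℍ, P.map (Polynomial.evalRingHom (jAn τ)) = LAn p jAn ModularForm.discriminant τ := by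
  obtain ⟨P, hPdeg, -, hP⟩ := exists_bivariate (LAn p jAn ModularForm.discriminant) p (1 + p * p)
    (fun τ => LAn_natDegree_le p _ _ τ)
    (fun n => mdiff_LAn_coeff p _ _ mdiff_jAn mdiff_discriminant
      ModularForm.discriminant_ne_zero n)
    (fun g τ => LAn_smul p _ _ jAn_smul discriminant_slash g τ)
    (fun n => poleLE_LAn_coeff p n)
  exact ⟨P, hPdeg, hP⟩

end concrete

end Fermat.Agent.H42
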