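import Fermat.Agent.H42.HeckePack

/-!
# P-IGUSA, IG-M: the constant coefficient of the unit polynomial is `p ^ 12`

`∏_x (-u_x(τ)) = p ^ 12` for all `τ`; in particular the polynomial `PsiC` of `exists_PsiC` has
`PsiC.coeff 0 = C (p ^ 12)`.
-/

set_option autoImplicit false

noncomputable section

namespace Fermat.Agent.H42

open UpperHalfPlane Matrix.SpecialLinearGroup Polynomial Filter Complex
open scoped MatrixGroups ModularForm Manifold Topology Real

/-- The Euler factor `E(τ) = ∏ (1 - q^n)^24`, so that `Δ = q * E`. -/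
def eulerE (τ : ℍ) : ℂ := ∏' n, (1 - ModularForm.eta_q n τ) ^ 24

/-- `q(τ) = exp (2πiτ)`. -/
def qq (τ : ℍ) : ℂ := Complex.exp (2 * π * Complex.I * τ)

theorem discriminant_eq_qq_mul (τ : ℍ) : ModularForm.discriminant τ = qq τ * eulerE τ := by
  rw [ModularForm.discriminant_eq_q_prod]
  simp [qq, eulerE, Function.Periodic.qParam]

theorem qq_ne_zero (τ : ℍ) : qq τ ≠ 0 := Complex.exp_ne_zero _

theorem eulerE_ne_zero (τ : ℍ) : eulerE τ ≠ 0 := by
  intro h
  exact ModularForm.discriminant_ne_zero τ (by rw [discriminant_eq_qq_mul, h, mul_zero])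

theorem tendsto_eulerE : Tendsto eulerE atImInfty (𝓝 1) :=
  ModularForm.tendsto_atImInfty_tprod_one_sub_eta_q_pow

theorem tendsto_hRep_smul {p : ℕ} (hp : p ≠ 0) (x : OnePoint (ZMod p)) :
    Tendsto (fun τ : ℍ => hRep p x • τ) atImInfty atImInfty := by
  have hp0 : (0 : ℝ) < p := by exact_mod_cast Nat.pos_of_ne_zero hp
  rw [atImInfty, tendsto_comap_iff]
  refine tendsto_atTop_mono (fun τ => le_im_hRep_smul hp x τ) ?_
  exact (tendsto_comap (f := UpperHalfPlane.im) (x := atTop)).atTop_div_const hp0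

theorem tendsto_eulerE_ratio {p : ℕ} (hp : p ≠ 0) (x : OnePoint (ZMod p)) :
    Tendsto (fun τ : ℍ => eulerE (hRep p x • τ) / eulerE τ) atImInfty (𝓝 1) := by
  have h1 := tendsto_eulerE.comp (tendsto_hRep_smul hp x)
  have h2 := h1.div tendsto_eulerE one_ne_zero
  rw [div_one] at h2
  exact h2

theorem qq_hRep_infty {p : ℕ} (hp : p ≠ 0) (τ : ℍ) :
    qq (hRep p OnePoint.infty • τ) = Complex.exp (2 * π * Complex.I * ((p : ℂ) * τ)) := by
  rw [qq, hRep_infty, ModularForm.coe_heckeDiagMatrix_smul hp]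

theorem qq_hRep_coe {p : ℕ} (hp : p ≠ 0) (b : ZMod p) (τ : ℍ) :
    qq (hRep p (b : OnePoint (ZMod p)) • τ) =
      Complex.exp (2 * π * Complex.I * (((τ : ℂ) + (b.val : ℂ)) / (p : ℂ))) := by
  rw [qq, hRep_coe, ModularForm.coe_heckeMatrix_smul hp]

theorem sum_zmod_val (p : ℕ) [NeZero p] :
    ∑ b : ZMod p, ((b.val : ℕ) : ℂ) = (p : ℂ) * ((p : ℂ) - 1) / 2 := by
  have h1 : ∑ j ∈ Finset.range p, ((j : ℕ) : ℂ) = ∑ b : ZMod p, ((b.val : ℕ) : ℂ) :=
    P2MW.S_ModularForm_heckeT_slash_eq_self_of_mem_Gamma0.ModularForm.HeckeSlashInvariance.sum_range_eq_sum_zmod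
      (p := p) (fun j => ((j : ℕ) : ℂ))
  rw [← h1]
  have h2 := Finset.sum_range_id_mul_two p
  have h3 : ((∑ i ∈ Finset.range p, i : ℕ) : ℂ) * 2 = (p : ℂ) * ((p : ℂ) - 1) := by
    have hp1 : 1 ≤ p := Nat.one_le_iff_ne_zero.mpr (NeZero.ne p)
    have := congrArg (Nat.cast : ℕ → ℂ) h2
    push_cast [Nat.cast_sub hp1] at this
    rw [← this]
    push_cast
    ring
  rw [Nat.cast_sum] at h3
  rw [← h3]
  ring

theorem exp_pi_mul (n : ℕ) : Complex.exp (π * Complex.I * n) = (-1) ^ n := by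
  rw [mul_comm, Complex.exp_nat_mul, Complex.exp_pi_mul_I]

/-- The product of the `q`-factors: `∏_x (- c_x q(α_x τ) / q(τ)) = p ^ 12`. -/
theorem prod_qfactor (p : ℕ) [NeZero p] (τ : ℍ) :
    (-((p : ℂ) ^ 12 * qq (hRep p OnePoint.infty • τ) / qq τ)) *
      ∏ b : ZMod p, (-(qq (hRep p (b : OnePoint (ZMod p)) • τ) / qq τ)) = (p : ℂ) ^ 12 := by
  have hp : p ≠ 0 := NeZero.ne p
  have hpC : (p : ℂ) ≠ 0 := Nat.cast_ne_zero.mpr hp
  have hp1 : 1 ≤ p := Nat.one_le_iff_ne_zero.mpr hp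
  have hterm : ∀ b : ZMod p, -(qq (hRep p (b : OnePoint (ZMod p)) • τ) / qq τ) =
      (-1) * Complex.exp (2 * π * Complex.I * ((b.val : ℂ) / p) +
        2 * π * Complex.I * ((τ : ℂ) / p - τ)) := by
    intro b
    rw [qq_hRep_coe hp, qq, ← Complex.exp_sub]
    rw [neg_one_mul]
    congr 2
    field_simp
    ring
  simp_rw [hterm]
  rw [Finset.prod_mul_distrib, Finset.prod_const, ← Complex.exp_sum, Finset.sum_add_distrib,
    Finset.sum_const, ← Finset.mul_sum, ← Finset.sum_div, sum_zmod_val p, Finset.card_univ,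
    ZMod.card, qq_hRep_infty hp, qq, mul_div_assoc, ← Complex.exp_sub]
  have hexp : Complex.exp (2 * π * Complex.I * ((p : ℂ) * ((p : ℂ) - 1) / 2 / p) +
      p • (2 * π * Complex.I * ((τ : ℂ) / p - τ))) *
      Complex.exp (2 * π * Complex.I * ((p : ℂ) * τ) - 2 * π * Complex.I * τ) =
      (-1) ^ (p - 1) := by
    rw [← Complex.exp_add, ← exp_pi_mul (p - 1)]
    congr 1
    rw [Nat.cast_sub hp1]
    simp only [nsmul_eq_mul, Nat.cast_one]
    field_simp
    ring
  have hsign : (-1 : ℂ) ^ p * (-1) ^ (p - 1) = -1 := by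
    rw [← pow_add]
    have : p + (p - 1) = 2 * (p - 1) + 1 := by omega
    rw [this, pow_succ, pow_mul]
    simp
  calc -((p : ℂ) ^ 12 * Complex.exp (2 * π * Complex.I * ((p : ℂ) * τ) - 2 * π * Complex.I * τ)) *
        ((-1) ^ p * Complex.exp (2 * π * Complex.I * ((p : ℂ) * ((p : ℂ) - 1) / 2 / p) +
          p • (2 * π * Complex.I * ((τ : ℂ) / p - τ))))
      = -((p : ℂ) ^ 12) * ((-1) ^ p * (Complex.exp (2 * π * Complex.I *
          ((p : ℂ) * ((p : ℂ) - 1) / 2 / p) + p • (2 * π * Complex.I * ((τ : ℂ) / p - τ))) *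
          Complex.exp (2 * π * Complex.I * ((p : ℂ) * τ) - 2 * π * Complex.I * τ))) := by ring
    _ = (p : ℂ) ^ 12 := by
        rw [hexp, hsign]
        ring

theorem neg_unitFun_infty_eq {p : ℕ} (hp : p ≠ 0) (τ : ℍ) :
    -unitFun p ModularForm.discriminant OnePoint.infty τ =
      (-((p : ℂ) ^ 12 * qq (hRep p OnePoint.infty • τ) / qq τ)) *
        (eulerE (hRep p OnePoint.infty • τ) / eulerE τ) := by
  rw [unitFun_infty hp, ← hRep_infty, discriminant_eq_qq_mul, discriminant_eq_qq_mul]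
  have h1 := qq_ne_zero τ
  have h2 := eulerE_ne_zero τ
  field_simp

theorem neg_unitFun_coe_eq {p : ℕ} (hp : p ≠ 0) (b : ZMod p) (τ : ℍ) :
    -unitFun p ModularForm.discriminant (b : OnePoint (ZMod p)) τ =
      (-(qq (hRep p (b : OnePoint (ZMod p)) • τ) / qq τ)) *
        (eulerE (hRep p (b : OnePoint (ZMod p)) • τ) / eulerE τ) := by
  rw [unitFun_coe hp, ← hRep_coe, discriminant_eq_qq_mul, discriminant_eq_qq_mul]
  have h1 := qq_ne_zero τ
  have h2 := eulerE_ne_zero τ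
  field_simp

theorem prod_onePoint {M : Type*} [CommMonoid M] (p : ℕ) [NeZero p] (F : OnePoint (ZMod p) → M) :
    ∏ x : OnePoint (ZMod p), F x = F OnePoint.infty * ∏ b : ZMod p, F (b : OnePoint (ZMod p)) :=
  Fintype.prod_option F

/-- `∏_x (-u_x(τ)) = p ^ 12 * ∏_x E(α_x τ) / E(τ)`. -/
theorem prod_neg_unitFun (p : ℕ) [NeZero p] (τ : ℍ) :
    ∏ x : OnePoint (ZMod p), (-unitFun p ModularForm.discriminant x τ) =
      (p : ℂ) ^ 12 * ∏ x : OnePoint (ZMod p), (eulerE (hRep p x • τ) / eulerE τ) := by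
  have hp : p ≠ 0 := NeZero.ne p
  rw [prod_onePoint, prod_onePoint, neg_unitFun_infty_eq hp]
  simp_rw [neg_unitFun_coe_eq hp]
  rw [Finset.prod_mul_distrib]
  have hq := prod_qfactor p τ
  linear_combination (eulerE (hRep p OnePoint.infty • τ) / eulerE τ *
    ∏ b : ZMod p, (eulerE (hRep p (b : OnePoint (ZMod p)) • τ) / eulerE τ)) * hq

theorem PsiAn_coeff_zero (p : ℕ) [NeZero p] (D : ℍ → ℂ) (τ : ℍ) :
    (PsiAn p D τ).coeff 0 = ∏ x : OnePoint (ZMod p), (-unitFun p D x τ) := by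
  rw [Polynomial.coeff_zero_eq_eval_zero, PsiAn, Polynomial.eval_prod]
  simp

theorem tendsto_PsiAn_coeff_zero (p : ℕ) [NeZero p] :
    Tendsto (fun τ : ℍ => (PsiAn p ModularForm.discriminant τ).coeff 0) atImInfty
      (𝓝 ((p : ℂ) ^ 12)) := by
  have hp : p ≠ 0 := NeZero.ne p
  have h1 : Tendsto (fun τ : ℍ => ∏ x : OnePoint (ZMod p), (eulerE (hRep p x • τ) / eulerE τ))
      atImInfty (𝓝 (∏ _x : OnePoint (ZMod p), (1 : ℂ))) :=
    tendsto_finsetProd _ (fun x _ => tendsto_eulerE_ratio hp x)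
  rw [Finset.prod_const_one] at h1
  have h2 := (tendsto_const_nhds (x := ((p : ℂ) ^ 12))).mul h1
  rw [mul_one] at h2
  refine h2.congr (fun τ => ?_)
  rw [PsiAn_coeff_zero, prod_neg_unitFun]

/-- The constant coefficient of `Ψ^an_τ` is `p ^ 12`, for every `τ`. -/
theorem PsiAn_coeff_zero_eq (p : ℕ) [NeZero p] [Fact p.Prime] (τ : ℍ) :
    (PsiAn p ModularForm.discriminant τ).coeff 0 = (p : ℂ) ^ 12 := by
  have hlim := tendsto_PsiAn_coeff_zero p
  have hbdd : PoleLE 0 (fun τ : ℍ => (PsiAn p ModularForm.discriminant τ).coeff 0) := by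
    unfold PoleLE
    simp only [pow_zero, one_mul]
    exact hlim.isBigO_one ℝ
  obtain ⟨Q, hQdeg, hQ⟩ := Fermat.Agent.H96.exists_polynomial_j
    (mdiff_PsiAn_coeff p _ mdiff_discriminant ModularForm.discriminant_ne_zero 0)
    (fun g z => by rw [PsiAn_smul p _ discriminant_slash g z]) 0 hbdd
  have hQC : Q = Polynomial.C (Q.coeff 0) :=
    Polynomial.eq_C_of_natDegree_le_zero hQdeg
  have hconst : ∀ z : ℍ, (PsiAn p ModularForm.discriminant z).coeff 0 = Q.coeff 0 := by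
    intro z
    rw [hQ z, hQC]
    simp
  have h3 : Tendsto (fun τ : ℍ => (PsiAn p ModularForm.discriminant τ).coeff 0) atImInfty
      (𝓝 (Q.coeff 0)) := by
    refine (tendsto_const_nhds (x := Q.coeff 0)).congr (fun z => ?_)
    rw [hconst z]
  rw [hconst τ]
  exact tendsto_nhds_unique h3 hlim

/-- **The unit polynomial over `ℂ`**, with its constant coefficient. -/
theorem exists_PsiC_full (p : ℕ) [NeZero p] [Fact p.Prime] :
    ∃ P : Polynomial (Polynomial ℂ), P.Monic ∧ P.natDegree = p + 1 ∧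
      P.coeff 0 = Polynomial.C ((p : ℂ) ^ 12) ∧
      ∀ τ : ℍ, P.map (Polynomial.evalRingHom (jAn τ)) = PsiAn p ModularForm.discriminant τ := by
  obtain ⟨P, hmonic, hdeg, hP⟩ := exists_PsiC p
  refine ⟨P, hmonic, hdeg, ?_, hP⟩
  refine Fermat.Agent.H96.polynomial_j_ext (fun z => ?_)
  have h1 := congrArg (fun q => Polynomial.coeff q 0) (hP z)
  simp only [Polynomial.coeff_map, Polynomial.coe_evalRingHom] at h1
  rw [PsiAn_coeff_zero_eq p z] at h1
  simpa [jAn] using h1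

end Fermat.Agent.H42
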